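import Fermat.Agent.S25.S.CartOpen

/-!
# S25 / scheme side / T3 : gluing of modules on a two-chart cover, gluing of morphisms
-/
set_option autoImplicit false
universe u
open CategoryTheory CategoryTheory.Limits AlgebraicGeometry AlgebraicGeometry.Scheme.Modules

namespace Fermat.Agent.S25

/-- A two-chart open cover of a scheme, with a chosen model of the intersection. -/
structure Cover₂ (Y : Scheme.{u}) where
  Y₀ : Scheme.{u}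
  Y₁ : Scheme.{u}
  Y₀₁ : Scheme.{u}
  j₀ : Y₀ ⟶ Y
  j₁ : Y₁ ⟶ Y
  p₀ : Y₀₁ ⟶ Y₀
  p₁ : Y₀₁ ⟶ Y₁
  open₀ : IsOpenImmersion j₀
  open₁ : IsOpenImmersion j₁
  isPullback : IsPullback p₀ p₁ j₀ j₁
  cover : ∀ y : Y, y ∈ Set.range j₀.base ∨ y ∈ Set.range j₁.base

attribute [instance] Cover₂.open₀ Cover₂.open₁

variable {Y : Scheme.{u}} (𝒰 : Cover₂ Y)

/-- A gluing datum for modules on a two-chart cover. -/
structure GlueDatum where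
  L₀ : 𝒰.Y₀.Modules
  L₁ : 𝒰.Y₁.Modules
  L₀₁ : 𝒰.Y₀₁.Modules
  r₀ : L₀ ⟶ (pushforward 𝒰.p₀).obj L₀₁
  r₁ : L₁ ⟶ (pushforward 𝒰.p₁).obj L₀₁
  cart₀ : IsCart 𝒰.p₀ r₀
  cart₁ : IsCart 𝒰.p₁ r₁

variable {𝒰}

/-- `L` is (a model of) the module glued from `D`. -/
structure IsGlue (D : GlueDatum 𝒰) (L : Y.Modules) where
  a₀ : L ⟶ (pushforward 𝒰.j₀).obj D.L₀
  a₁ : L ⟶ (pushforward 𝒰.j₁).obj D.L₁
  cart₀ : IsCart 𝒰.j₀ a₀
  cart₁ : IsCart 𝒰.j₁ a₁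
  compat : cCast 𝒰.isPullback.w (cComp a₀ D.r₀) = cComp a₁ D.r₁

namespace GlueAux

instance isOpenImmersion_p₀ (𝒰 : Cover₂ Y) : IsOpenImmersion 𝒰.p₀ :=
  MorphismProperty.of_isPullback 𝒰.isPullback.flip 𝒰.open₁

instance isOpenImmersion_p₁ (𝒰 : Cover₂ Y) : IsOpenImmersion 𝒰.p₁ :=
  MorphismProperty.of_isPullback 𝒰.isPullback 𝒰.open₀

theorem range_p₁ (𝒰 : Cover₂ Y) : Set.range 𝒰.p₁ = 𝒰.j₁ ⁻¹' Set.range 𝒰.j₀ := by
  have h : 𝒰.p₁ = 𝒰.isPullback.isoPullback.hom ≫ pullback.snd 𝒰.j₀ 𝒰.j₁ := by simp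
  rw [h, ← Scheme.Pullback.range_snd]
  simp only [Scheme.Hom.comp_base, TopCat.hom_comp, ContinuousMap.coe_comp]
  rw [Set.range_comp, Set.range_eq_univ.mpr, Set.image_univ]
  exact 𝒰.isPullback.isoPullback.hom.surjective

theorem range_p₀ (𝒰 : Cover₂ Y) : Set.range 𝒰.p₀ = 𝒰.j₀ ⁻¹' Set.range 𝒰.j₁ := by
  have h : 𝒰.p₀ = 𝒰.isPullback.isoPullback.hom ≫ pullback.fst 𝒰.j₀ 𝒰.j₁ := by simp
  rw [h, ← Scheme.Pullback.range_fst]
  simp only [Scheme.Hom.comp_base, TopCat.hom_comp, ContinuousMap.coe_comp]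
  rw [Set.range_comp, Set.range_eq_univ.mpr, Set.image_univ]
  exact 𝒰.isPullback.isoPullback.hom.surjective

theorem preimage_le_opensRange_p₁ (𝒰 : Cover₂ Y) {U : Y.Opens} (hU : U ≤ 𝒰.j₀.opensRange) :
    𝒰.j₁ ⁻¹ᵁ U ≤ 𝒰.p₁.opensRange := by
  intro y hy
  have : y ∈ Set.range 𝒰.p₁ := by
    rw [range_p₁]
    exact hU hy
  exact this

theorem preimage_le_opensRange_p₀ (𝒰 : Cover₂ Y) {U : Y.Opens} (hU : U ≤ 𝒰.j₁.opensRange) :
    𝒰.j₀ ⁻¹ᵁ U ≤ 𝒰.p₀.opensRange := by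
  intro y hy
  have : y ∈ Set.range 𝒰.p₀ := by
    rw [range_p₀]
    exact hU hy
  exact this

/-- the two maps whose fibre product is the glued module -/
noncomputable def s₀ (D : GlueDatum 𝒰) :
    (pushforward 𝒰.j₀).obj D.L₀ ⟶ (pushforward (𝒰.p₁ ≫ 𝒰.j₁)).obj D.L₀₁ :=
  cCast 𝒰.isPullback.w (cComp (𝟙 _) D.r₀)

noncomputable def s₁ (D : GlueDatum 𝒰) :
    (pushforward 𝒰.j₁).obj D.L₁ ⟶ (pushforward (𝒰.p₁ ≫ 𝒰.j₁)).obj D.L₀₁ :=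
  cComp (𝟙 _) D.r₁

theorem comp_s₀ (D : GlueDatum 𝒰) {M : Y.Modules} (β₀ : M ⟶ (pushforward 𝒰.j₀).obj D.L₀) :
    β₀ ≫ s₀ D = cCast 𝒰.isPullback.w (cComp β₀ D.r₀) := by
  rw [s₀, comp_cCast, comp_cComp, Category.comp_id]

theorem comp_s₁ (D : GlueDatum 𝒰) {M : Y.Modules} (β₁ : M ⟶ (pushforward 𝒰.j₁).obj D.L₁) :
    β₁ ≫ s₁ D = cComp β₁ D.r₁ := by
  rw [s₁, comp_cComp, Category.comp_id]

theorem isIso_s₁_app (D : GlueDatum 𝒰) {U : Y.Opens} (hU : U ≤ 𝒰.j₀.opensRange) :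
    IsIso ((s₁ D).app U) := by
  have := (isCart_iff_isIso_app D.r₁).1 D.cart₁ _ (preimage_le_opensRange_p₁ 𝒰 hU)
  have e : (s₁ D).app U = D.r₁.app (𝒰.j₁ ⁻¹ᵁ U) := by
    rw [s₁, cComp_app]
    exact Category.id_comp _
  rw [e]
  exact this

theorem isIso_s₀_app (D : GlueDatum 𝒰) {U : Y.Opens} (hU : U ≤ 𝒰.j₁.opensRange) :
    IsIso ((s₀ D).app U) := by
  have := (isCart_iff_isIso_app D.r₀).1 D.cart₀ _ (preimage_le_opensRange_p₀ 𝒰 hU)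
  have e : (s₀ D).app U = D.r₀.app (𝒰.j₀ ⁻¹ᵁ U) ≫
      ((pushforwardCongr 𝒰.isPullback.w).hom.app D.L₀₁).app U := by
    rw [s₀, cCast, Hom.comp_app, cComp_app]
    congr 1
  rw [e]
  have h2 : IsIso (((pushforwardCongr 𝒰.isPullback.w).hom.app D.L₀₁).app U) :=
    Hom.isIso_iff_isIso_app.mp inferInstance U
  exact IsIso.comp_isIso' this h2

/-- evaluation of a pullback square of modules on an open is a pullback square. -/
theorem isPullback_app {P A B C : Y.Modules} {fst : P ⟶ A} {snd : P ⟶ B} {f : A ⟶ C} {g : B ⟶ C}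
    (h : IsPullback fst snd f g) (U : Y.Opens) :
    IsPullback (fst.app U) (snd.app U) (f.app U) (g.app U) := by
  have h1 := h.map (toPresheaf Y)
  have : PreservesLimitsOfShape WalkingCospan
      ((evaluation _ _).obj (.op U) : TopCat.Presheaf Ab.{u} Y ⥤ Ab.{u}) :=
    evaluation_preservesLimitsOfShape (J := WalkingCospan) (C := Ab.{u})
      (K := (TopologicalSpace.Opens Y)ᵒᵖ) (.op U)
  exact h1.map ((evaluation _ _).obj (.op U) : TopCat.Presheaf Ab.{u} Y ⥤ Ab.{u})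

/-- a pullback square over `s₀, s₁` is a gluing. -/
noncomputable def isGlueOfIsPullback (D : GlueDatum 𝒰) {L : Y.Modules}
    {a₀ : L ⟶ (pushforward 𝒰.j₀).obj D.L₀} {a₁ : L ⟶ (pushforward 𝒰.j₁).obj D.L₁}
    (h : IsPullback a₀ a₁ (s₀ D) (s₁ D)) : IsGlue D L where
  a₀ := a₀
  a₁ := a₁
  cart₀ := by
    rw [isCart_iff_isIso_app]
    intro U hU
    exact (isPullback_app h U).isIso_fst_of_isIso (isIso_s₁_app D hU)
  cart₁ := by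
    rw [isCart_iff_isIso_app]
    intro U hU
    exact (isPullback_app h U).isIso_snd_of_isIso (isIso_s₀_app D hU)
  compat := by
    rw [← comp_s₀, ← comp_s₁]
    exact h.w

/-- the two charts as a family indexed by `Bool`. -/
def chart (𝒰 : Cover₂ Y) : Bool → Scheme.{u}
  | false => 𝒰.Y₀
  | true => 𝒰.Y₁

def chartMap (𝒰 : Cover₂ Y) : ∀ b, chart 𝒰 b ⟶ Y
  | false => 𝒰.j₀
  | true => 𝒰.j₁

instance (𝒰 : Cover₂ Y) : ∀ b, IsOpenImmersion (chartMap 𝒰 b)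
  | false => 𝒰.open₀
  | true => 𝒰.open₁

theorem chartMap_cover (𝒰 : Cover₂ Y) (y : Y) : ∃ b, y ∈ Set.range (chartMap 𝒰 b).base := by
  rcases 𝒰.cover y with h | h
  · exact ⟨false, h⟩
  · exact ⟨true, h⟩

def chartMod (D : GlueDatum 𝒰) : ∀ b, (chart 𝒰 b).Modules
  | false => D.L₀
  | true => D.L₁

def chartHom (D : GlueDatum 𝒰) {L : Y.Modules} (a₀ : L ⟶ (pushforward 𝒰.j₀).obj D.L₀)
    (a₁ : L ⟶ (pushforward 𝒰.j₁).obj D.L₁) :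
    ∀ b, L ⟶ (pushforward (chartMap 𝒰 b)).obj (chartMod D b)
  | false => a₀
  | true => a₁

/-- every gluing is a pullback square. -/
theorem isPullback_of_isGlue {D : GlueDatum 𝒰} {L : Y.Modules} (h : IsGlue D L) :
    IsPullback h.a₀ h.a₁ (s₀ D) (s₁ D) := by
  have w : h.a₀ ≫ s₀ D = h.a₁ ≫ s₁ D := by
    rw [comp_s₀, comp_s₁]
    exact h.compat
  let φ : L ⟶ pullback (s₀ D) (s₁ D) := pullback.lift h.a₀ h.a₁ w
  let G := isGlueOfIsPullback D (IsPullback.of_hasPullback (s₀ D) (s₁ D))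
  have hφ : IsIso φ := by
    refine isIso_of_cover_cart (chartMap 𝒰) (chartMap_cover 𝒰) φ (chartMod D)
      (chartHom D G.a₀ G.a₁) ?_ ?_
    · rintro (_ | _)
      · exact G.cart₀
      · exact G.cart₁
    · rintro (_ | _)
      · have : φ ≫ chartHom D G.a₀ G.a₁ false = h.a₀ := pullback.lift_fst _ _ _
        rw [this]
        exact h.cart₀
      · have : φ ≫ chartHom D G.a₀ G.a₁ true = h.a₁ := pullback.lift_snd _ _ _
        rw [this]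
        exact h.cart₁
  refine IsPullback.of_iso (IsPullback.of_hasPullback (s₀ D) (s₁ D)) (asIso φ).symm (Iso.refl _)
    (Iso.refl _) (Iso.refl _) ?_ ?_ ?_ ?_
  · simp only [Iso.symm_hom, asIso_inv, Iso.refl_hom, Category.comp_id, IsIso.eq_inv_comp]
    exact pullback.lift_fst _ _ _
  · simp only [Iso.symm_hom, asIso_inv, Iso.refl_hom, Category.comp_id, IsIso.eq_inv_comp]
    exact pullback.lift_snd _ _ _
  · simp
  · simp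

end GlueAux

open GlueAux

/-- **T3a**. Gluing exists (fibre product of the three pushforwards). -/
theorem GlueDatum.exists_isGlue (D : GlueDatum 𝒰) : ∃ L : Y.Modules, Nonempty (IsGlue D L) :=
  ⟨pullback (s₀ D) (s₁ D), ⟨isGlueOfIsPullback D (IsPullback.of_hasPullback (s₀ D) (s₁ D))⟩⟩

/-- **T3b**. The universal property of the glued module (= sheaf property). -/
theorem IsGlue.existsUnique_lift {D : GlueDatum 𝒰} {L : Y.Modules} (h : IsGlue D L)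
    {M : Y.Modules} (β₀ : M ⟶ (pushforward 𝒰.j₀).obj D.L₀) (β₁ : M ⟶ (pushforward 𝒰.j₁).obj D.L₁)
    (hβ : cCast 𝒰.isPullback.w (cComp β₀ D.r₀) = cComp β₁ D.r₁) :
    ∃! β : M ⟶ L, β ≫ h.a₀ = β₀ ∧ β ≫ h.a₁ = β₁ := by
  have hp := isPullback_of_isGlue h
  have w : β₀ ≫ s₀ D = β₁ ≫ s₁ D := by
    rw [comp_s₀, comp_s₁]
    exact hβ
  refine ⟨hp.lift β₀ β₁ w, ⟨hp.lift_fst _ _ _, hp.lift_snd _ _ _⟩, ?_⟩
  rintro β ⟨h0, h1⟩
  apply hp.hom_ext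
  · rw [h0, hp.lift_fst]
  · rw [h1, hp.lift_snd]

/-- **T3c**. Every module is glued from its restrictions. -/
theorem exists_glueDatum (𝒰 : Cover₂ Y) (L : Y.Modules) :
    ∃ D : GlueDatum 𝒰, Nonempty (IsGlue D L) := by
  obtain ⟨a₀, c₀⟩ : ∃ a₀ : L ⟶ (pushforward 𝒰.j₀).obj (L.restrict 𝒰.j₀), IsCart 𝒰.j₀ a₀ :=
    ⟨_, isCart_restrict_unit _ _⟩
  obtain ⟨a₁, c₁⟩ : ∃ a₁ : L ⟶ (pushforward 𝒰.j₁).obj (L.restrict 𝒰.j₁), IsCart 𝒰.j₁ a₁ :=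
    ⟨_, isCart_restrict_unit _ _⟩
  obtain ⟨a₀₁, c₀₁⟩ : ∃ a₀₁ : L ⟶ (pushforward (𝒰.p₁ ≫ 𝒰.j₁)).obj (L.restrict (𝒰.p₁ ≫ 𝒰.j₁)),
      IsCart (𝒰.p₁ ≫ 𝒰.j₁) a₀₁ := ⟨_, isCart_restrict_unit _ _⟩
  obtain ⟨r₁, hr₁, -⟩ := c₁.existsUnique_fac (f := 𝒰.p₁) a₀₁
  obtain ⟨r₀, hr₀, -⟩ := c₀.existsUnique_fac (f := 𝒰.p₀) (cCast 𝒰.isPullback.w.symm a₀₁)
  have d₀ : IsCart 𝒰.p₀ r₀ := by
    apply c₀.of_comp
    rw [hr₀, isCart_cCast_iff]
    exact c₀₁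
  have d₁ : IsCart 𝒰.p₁ r₁ := by
    apply c₁.of_comp
    rw [hr₁]
    exact c₀₁
  have hc : cCast 𝒰.isPullback.w (cComp a₀ r₀) = cComp a₁ r₁ := by
    rw [hr₀, hr₁, cCast_cCast, cCast_rfl]
  exact ⟨{ L₀ := _, L₁ := _, L₀₁ := _, r₀ := r₀, r₁ := r₁, cart₀ := d₀, cart₁ := d₁ },
    ⟨{ a₀ := a₀, a₁ := a₁, cart₀ := c₀, cart₁ := c₁, compat := hc }⟩⟩

end Fermat.Agent.S25
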