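import Fermat.Agent.S25.S.Unit

/-!
# S25 / scheme side / T2 : modules on affine schemes
-/
set_option autoImplicit false
universe u
open CategoryTheory CategoryTheory.Limits AlgebraicGeometry AlgebraicGeometry.Scheme.Modules

namespace Fermat.Agent.S25

section bundled
variable {R S : CommRingCat.{u}} (φ : R ⟶ S)

/-- global sections commute with pushforward along `Spec.map φ`. -/
noncomputable def pushforwardΓIso :
    Scheme.Modules.pushforward (Spec.map φ) ⋙ moduleSpecΓFunctor (R := R) ≅
      moduleSpecΓFunctor (R := S) ⋙ ModuleCat.restrictScalars φ.hom :=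
  Functor.isoWhiskerRight (pushforwardCompModulesSpecToSheafIso φ)
    (TopCat.Sheaf.forget _ _ ⋙ (evaluation _ _).obj (.op ⊤))

/-- pullback of `M^~` is `(S ⊗ M)^~`. -/
noncomputable def pullbackTildeIso :
    tilde.functor R ⋙ Scheme.Modules.pullback (Spec.map φ) ≅
      ModuleCat.extendScalars φ.hom ⋙ tilde.functor S :=
  ((tilde.adjunction (R := R)).comp
      (Scheme.Modules.pullbackPushforwardAdjunction (Spec.map φ))).leftAdjointUniq
    (((ModuleCat.extendRestrictScalarsAdj φ.hom).comp (tilde.adjunction (R := S))).ofNatIsoRight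
      (pushforwardΓIso φ).symm)

/-- morphisms `M^~ ⇒ N^~` over `Spec.map φ` are the `φ`-semilinear maps `M → N`. -/
noncomputable def tildeHomEquiv (M : ModuleCat.{u} R) (N : ModuleCat.{u} S) :
    (M ⟶ (ModuleCat.restrictScalars φ.hom).obj N) ≃
      (tilde M ⟶ (Scheme.Modules.pushforward (Spec.map φ)).obj (tilde N)) :=
  (((ModuleCat.restrictScalars φ.hom).mapIso (tilde.toTildeΓNatIso.app N) ≪≫
      ((pushforwardΓIso φ).app (tilde N)).symm).homToEquiv).trans
    ((tilde.adjunction (R := R)).homEquiv M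
      ((Scheme.Modules.pushforward (Spec.map φ)).obj (tilde N))).symm

end bundled

section bundledAux
variable {R S : CommRingCat.{u}} (φ : R ⟶ S)

/-- the section of `M^~` over `U` given by `m`. -/
noncomputable def tsecB (M : ModuleCat.{u} R) (U : (Spec R).Opens) (m : M) : Γ(tilde M, U) :=
  (tilde.toOpen M U).hom m

set_option backward.isDefEq.respectTransparency false in
/-- a morphism out of `M^~` is determined by its values on the global sections coming from `M`. -/
theorem tilde_hom_ext {M : ModuleCat.{u} R} {L : (Spec R).Modules} (α β : tilde M ⟶ L)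
    (h : ∀ m : M, α.app ⊤ (tsecB M ⊤ m) = β.app ⊤ (tsecB M ⊤ m)) : α = β := by
  apply ((tilde.adjunction (R := R)).homEquiv M L).injective
  rw [Adjunction.homEquiv_unit, Adjunction.homEquiv_unit]
  ext m
  exact h m

set_option backward.isDefEq.respectTransparency false in
theorem tildeHomEquiv_app_top (M : ModuleCat.{u} R) (N : ModuleCat.{u} S)
    (f : M ⟶ (ModuleCat.restrictScalars φ.hom).obj N) (m : M) :
    (tildeHomEquiv φ M N f).app ⊤ (tsecB M ⊤ m) = tsecB N ⊤ (f.hom m) := by
  have h1 : (tilde.adjunction (R := R)).homEquiv M _ (tildeHomEquiv φ M N f)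
      = f ≫ ((ModuleCat.restrictScalars φ.hom).mapIso (tilde.toTildeΓNatIso.app N) ≪≫
      ((pushforwardΓIso φ).app (tilde N)).symm).hom := by
    unfold tildeHomEquiv
    exact Equiv.apply_symm_apply _ _
  rw [Adjunction.homEquiv_unit] at h1
  have h2 := congrArg (fun g => g.hom m) h1
  exact h2

set_option backward.isDefEq.respectTransparency false in
theorem tilde_map_app_top {M M' : ModuleCat.{u} R} (f : M ⟶ M') (m : M) :
    (tilde.map f).app ⊤ (tsecB M ⊤ m) = tsecB M' ⊤ (f.hom m) := by
  have h := tilde.toOpen_map_app f ⊤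
  exact congrArg (fun g => g.hom m) h

end bundledAux

section unbundled
variable {R S T : Type u} [CommRing R] [CommRing S] [CommRing T]

/-- `Spec R` for an unbundled ring -/
noncomputable abbrev sp (R : Type u) [CommRing R] : Scheme.{u} := Spec (CommRingCat.of R)

/-- `Spec φ` for an unbundled ring hom -/
noncomputable abbrev spMap (φ : R →+* S) : sp S ⟶ sp R := Spec.map (CommRingCat.ofHom φ)

/-- `M^~` for an unbundled module -/
noncomputable abbrev til (R : Type u) [CommRing R] (M : Type u) [AddCommGroup M] [Module R M] :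
    (sp R).Modules := tilde (ModuleCat.of R M)

variable {M M' : Type u} [AddCommGroup M] [Module R M] [AddCommGroup M'] [Module R M']
  {N N' : Type u} [AddCommGroup N] [Module S N] [AddCommGroup N'] [Module S N']
  {P : Type u} [AddCommGroup P] [Module T P]

/-- a semilinear map as a morphism of `ModuleCat`. -/
noncomputable def semiHom (φ : R →+* S) (r : M →ₛₗ[φ] N) :
    ModuleCat.of R M ⟶ (ModuleCat.restrictScalars φ).obj (ModuleCat.of S N) :=
  ModuleCat.ofHom (Y := (ModuleCat.restrictScalars φ).obj (ModuleCat.of S N))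
    { toFun := r
      map_add' := r.map_add
      map_smul' := fun a m => r.map_smulₛₗ a m }

/-- the morphism `M^~ ⇒ N^~` over `Spec φ` induced by a `φ`-semilinear map. -/
noncomputable def tildeMap (φ : R →+* S) (r : M →ₛₗ[φ] N) :
    til R M ⟶ (pushforward (spMap φ)).obj (til S N) :=
  tildeHomEquiv (CommRingCat.ofHom φ) (ModuleCat.of R M) (ModuleCat.of S N) (semiHom φ r)

/-- the morphism `M^~ ⟶ M'^~` induced by a linear map. -/
noncomputable abbrev tilMap (e : M →ₗ[R] M') : til R M ⟶ til R M' := tilde.map (ModuleCat.ofHom e)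

/-- `r : M → N` (semilinear over `φ : R → S`) exhibits `N` as `S ⊗[R] M`. -/
def IsSemiBaseChange (φ : R →+* S) (r : M →ₛₗ[φ] N) : Prop :=
  ∀ (Q : Type u) [AddCommGroup Q] [Module S Q] (q : M →ₛₗ[φ] Q),
    ∃! l : N →ₗ[S] Q, ∀ m, l (r m) = q m

/-- a ring hom as a semilinear map -/
def ringSemi (φ : R →+* S) : R →ₛₗ[φ] S where
  toFun := φ
  map_add' := φ.map_add
  map_smul' a b := by simp

/-! ### T2a : morphisms between tildes -/

/-- the global section of `M^~` given by `m`. -/
noncomputable def tsec (R : Type u) [CommRing R] {M : Type u} [AddCommGroup M] [Module R M] (m : M) :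
    Γ(til R M, ⊤) := tsecB (R := CommRingCat.of R) (ModuleCat.of R M) ⊤ m

/-- a morphism out of `M^~` is determined by its values on the global sections coming from `M`. -/
theorem til_hom_ext {L : (sp R).Modules} (α β : til R M ⟶ L)
    (h : ∀ m : M, α.app ⊤ (tsec R m) = β.app ⊤ (tsec R m)) : α = β :=
  tilde_hom_ext (R := CommRingCat.of R) α β h

theorem tildeMap_app_top (φ : R →+* S) (r : M →ₛₗ[φ] N) (m : M) :
    (tildeMap φ r).app ⊤ (tsec R m) = tsec S (r m) :=
  tildeHomEquiv_app_top (R := CommRingCat.of R) (S := CommRingCat.of S)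
    (CommRingCat.ofHom φ) (ModuleCat.of R M) (ModuleCat.of S N) (semiHom φ r) m

theorem tilMap_app_top (e : M →ₗ[R] M') (m : M) : (tilMap e).app ⊤ (tsec R m) = tsec R (e m) :=
  tilde_map_app_top (R := CommRingCat.of R) (ModuleCat.ofHom e) m

theorem semiHom_bijective (φ : R →+* S) :
    Function.Bijective (semiHom φ : (M →ₛₗ[φ] N) → _) := by
  constructor
  · intro r r' h
    ext m
    exact congrArg (fun g => g.hom m) h
  · intro f
    refine ⟨{ toFun := f.hom, map_add' := f.hom.map_add, map_smul' := fun a m => f.hom.map_smul a m }, ?_⟩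
    rfl

theorem tildeMap_bijective (φ : R →+* S) :
    Function.Bijective (tildeMap φ : (M →ₛₗ[φ] N) → _) :=
  (tildeHomEquiv (CommRingCat.ofHom φ) (ModuleCat.of R M) (ModuleCat.of S N)).bijective.comp
    (semiHom_bijective φ)

theorem tilMap_bijective : Function.Bijective (tilMap : (M →ₗ[R] M') → _) := by
  have h1 : Function.Bijective ((tilde.functor (CommRingCat.of R)).map :
      (ModuleCat.of R M ⟶ ModuleCat.of R M') → _) :=
    (tilde.fullyFaithfulFunctor (R := CommRingCat.of R)).map_bijective _ _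
  exact h1.comp (ModuleCat.homEquiv (M := ModuleCat.of R M) (N := ModuleCat.of R M')).symm.bijective

theorem tilMap_comp_tildeMap (φ : R →+* S) (e : M' →ₗ[R] M) (r : M →ₛₗ[φ] N) :
    tilMap e ≫ tildeMap φ r = tildeMap φ (r.comp e) := by
  apply til_hom_ext
  intro m
  rw [Hom.comp_app, ConcreteCategory.comp_apply, tilMap_app_top, tildeMap_app_top, tildeMap_app_top]
  rfl

theorem tildeMap_comp_tilMap (φ : R →+* S) (r : M →ₛₗ[φ] N) (e : N →ₗ[S] N') :
    tildeMap φ r ≫ (pushforward (spMap φ)).map (tilMap e) = tildeMap φ (e.comp r) := by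
  apply til_hom_ext
  intro m
  rw [Hom.comp_app, ConcreteCategory.comp_apply, tildeMap_app_top, tildeMap_app_top]
  exact tilMap_app_top e (r m)


theorem spMap_comp (φ : R →+* S) (ψ : S →+* T) (χ : R →+* T) (h : χ = ψ.comp φ) :
    spMap χ = spMap ψ ≫ spMap φ := by
  subst h; rw [spMap, CommRingCat.ofHom_comp, Spec.map_comp]

theorem cComp_app_apply {X Y Z : Scheme.{u}} {f : X ⟶ Y} {g : Y ⟶ Z} {L : Z.Modules} {M : Y.Modules}
    {N : X.Modules} (α : L ⟶ (pushforward g).obj M) (β : M ⟶ (pushforward f).obj N) (U : Z.Opens)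
    (x : Γ(L, U)) : (cComp α β).app U x = β.app (g ⁻¹ᵁ U) (α.app U x) := by
  rw [cComp_app]; rfl

theorem cCast_app_apply {X Y : Scheme.{u}} {f f' : X ⟶ Y} (h : f = f') {L : Y.Modules} {M : X.Modules}
    (α : L ⟶ (pushforward f).obj M) (U : Y.Opens) (x : Γ(L, U)) :
    (cCast h α).app U x = M.presheaf.map (eqToHom (h ▸ rfl : f' ⁻¹ᵁ U = f ⁻¹ᵁ U)).op (α.app U x) := by
  rfl

theorem cComp_tildeMap (φ : R →+* S) (ψ : S →+* T) (χ : R →+* T) (h : χ = ψ.comp φ)
    (r : M →ₛₗ[φ] N) (r' : N →ₛₗ[ψ] P) (q : M →ₛₗ[χ] P) (hq : ∀ m, q m = r' (r m)) :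
    cComp (tildeMap φ r) (tildeMap ψ r') = cCast (spMap_comp φ ψ χ h) (tildeMap χ q) := by
  apply til_hom_ext
  intro m
  rw [cComp_app_apply, tildeMap_app_top, cCast_app_apply, tildeMap_app_top, hq]
  have h1 : (tildeMap ψ r').app (spMap φ ⁻¹ᵁ ⊤) (tsec S (r m)) = tsec T (r' (r m)) :=
    tildeMap_app_top ψ r' (r m)
  rw [h1]
  have h2 : (til T P).presheaf.map (eqToHom (rfl : (⊤ : (sp T).Opens) = ⊤)).op = 𝟙 _ := by simp
  exact (congrArg (fun g => (ConcreteCategory.hom g) (tsec T (r' (r m)))) h2).symm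


theorem cCast_tildeMap (φ φ' : R →+* S) (h : φ = φ') (r : M →ₛₗ[φ] N) (r' : M →ₛₗ[φ'] N)
    (hr : ∀ m, r m = r' m) : cCast (by rw [h]) (tildeMap φ r) = tildeMap φ' r' := by
  subst h
  rw [cCast_rfl]
  congr 1
  ext m
  exact hr m

set_option backward.isDefEq.respectTransparency false in
theorem tsec_self (a : R) :
    tsec R (M := R) a = (show Γ(til R R, ⊤) from (Scheme.ΓSpecIso (CommRingCat.of R)).inv a) := by
  rfl

set_option backward.isDefEq.respectTransparency false in
theorem unitMap_spMap (φ : R →+* S) : unitMap (spMap φ) = tildeMap φ (ringSemi φ) := by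
  apply til_hom_ext (M := R)
  intro a
  refine Eq.trans ?_ (tildeMap_app_top φ (ringSemi φ) a).symm
  have h := Scheme.ΓSpecIso_inv_naturality (CommRingCat.ofHom φ)
  have h2 := congrArg (fun g => g.hom a) h
  exact h2.symm


set_option backward.isDefEq.respectTransparency false in
theorem tsec_smul (a : R) (m : M) :
    tsec R (a • m) = (resTop (sp R) ⊤ ((Scheme.ΓSpecIso (CommRingCat.of R)).inv a)) • tsec R m := by
  have h := (tilde.toOpen (R := CommRingCat.of R) (ModuleCat.of R M) ⊤).hom.map_smul a m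
  exact h

theorem mulEnd_til (a : R) :
    mulEnd (til R M) ((Scheme.ΓSpecIso (CommRingCat.of R)).inv a) =
      tilMap (a • (LinearMap.id : M →ₗ[R] M)) := by
  apply til_hom_ext
  intro m
  rw [mulEnd_app_apply, tilMap_app_top, ← tsec_smul]
  rfl

end unbundled

end Fermat.Agent.S25
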