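import Fermat.Agent.S25.SchemeDefs
import Fermat.Agent.S25.S.Glue
import Fermat.Agent.S25.S.Tilde

/-!
# S25 / scheme side / Q8 : the two affine charts of `C × Spec A`
-/
set_option autoImplicit false
universe u
open CategoryTheory CategoryTheory.Limits AlgebraicGeometry AlgebraicGeometry.RelPicard
  NeronModelInfra GoodReductionJacobian TensorProduct

namespace Fermat.Agent.S25

variable {k : Type u} [Field k] {C : Scheme.{u}} {c : C ⟶ Spec (CommRingCat.of k)}
  {ε : SchemeHomOver (𝟙 (Spec (CommRingCat.of k))) c} {Γ : CurveAlg k}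

/-- every structure morphism `Spec A ⟶ Spec k` comes from an algebra structure. -/
theorem exists_algebra_eq_tSpec (A : Type u) [CommRing A]
    (t : Spec (CommRingCat.of A) ⟶ Spec (CommRingCat.of k)) :
    ∃ inst : Algebra k A, t = @tSpec k _ A _ inst := by
  refine ⟨(Spec.preimage t).hom.toAlgebra, ?_⟩
  let _ := (Spec.preimage t).hom.toAlgebra
  change t = Spec.map (CommRingCat.ofHom (Spec.preimage t).hom)
  simp

namespace ChartsAux

theorem spMap_comp' {R S T : Type u} [CommRing R] [CommRing S] [CommRing T]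
    (φ : R →+* S) (ψ : S →+* T) : spMap ψ ≫ spMap φ = spMap (ψ.comp φ) := by
  rw [spMap, spMap, spMap, CommRingCat.ofHom_comp, Spec.map_comp]

/-- `Spec (A ⊗ B) = Spec A ×_k Spec B`. -/
theorem isPullback_tensor (A B : Type u) [CommRing A] [Algebra k A] [CommRing B] [Algebra k B] :
    IsPullback (spMap (algebraMap A (A ⊗[k] B)))
      (spMap (Algebra.TensorProduct.includeRight : B →ₐ[k] A ⊗[k] B).toRingHom)
      (tSpec k A) (tSpec k B) :=
  isPullback_SpecMap_of_isPushout _ _ _ _ (CommRingCat.isPushout_tensorProduct k A B)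

/-- the chart square is cartesian. -/
theorem isPullback_chart {B : Type u} [CommRing B] [Algebra k B] (j : sp B ⟶ C)
    (hj : j ≫ c = tSpec k B) (A : Type u) [CommRing A] [Algebra k A]
    (J : sp (A ⊗[k] B) ⟶ pullback c (tSpec k A))
    (h1 : J ≫ pullback.fst c (tSpec k A) =
      spMap (Algebra.TensorProduct.includeRight : B →ₐ[k] A ⊗[k] B).toRingHom ≫ j)
    (h2 : J ≫ pullback.snd c (tSpec k A) = spMap (algebraMap A (A ⊗[k] B))) :
    IsPullback J (spMap (Algebra.TensorProduct.includeRight : B →ₐ[k] A ⊗[k] B).toRingHom)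
      (pullback.fst c (tSpec k A)) j := by
  refine IsPullback.of_right (h₁₂ := pullback.snd c (tSpec k A)) (h₂₂ := c) (v₁₃ := tSpec k A)
    ?_ h1 (IsPullback.of_hasPullback c (tSpec k A)).flip
  rw [h2, hj]
  exact isPullback_tensor A B

/-- base change of `Spec B' ⟶ Spec B`. -/
theorem isPullback_map {B B' : Type u} [CommRing B] [Algebra k B] [CommRing B'] [Algebra k B']
    (ι : B →ₐ[k] B') (A : Type u) [CommRing A] [Algebra k A] :
    IsPullback (spMap (Algebra.TensorProduct.includeRight : B' →ₐ[k] A ⊗[k] B').toRingHom)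
      (spMap (Algebra.TensorProduct.map (AlgHom.id A A) ι : A ⊗[k] B →ₐ[A] A ⊗[k] B').toRingHom)
      (spMap ι.toRingHom)
      (spMap (Algebra.TensorProduct.includeRight : B →ₐ[k] A ⊗[k] B).toRingHom) := by
  refine IsPullback.of_bot (v₂₁ := spMap (algebraMap A (A ⊗[k] B))) (v₂₂ := tSpec k B)
    (h₃₁ := tSpec k A) ?_ ?_ (isPullback_tensor A B).flip
  · have e1 : spMap (Algebra.TensorProduct.map (AlgHom.id A A) ι :
        A ⊗[k] B →ₐ[A] A ⊗[k] B').toRingHom ≫ spMap (algebraMap A (A ⊗[k] B)) =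
        spMap (algebraMap A (A ⊗[k] B')) := by
      rw [spMap_comp']
      congr 1
      ext a
      simp
    have e2 : spMap ι.toRingHom ≫ tSpec k B = tSpec k B' := by
      rw [tSpec, tSpec, ← Spec.map_comp, ← CommRingCat.ofHom_comp]
      congr 2
      exact ι.comp_algebraMap
    rw [e1, e2]
    exact (isPullback_tensor A B').flip
  · rw [spMap_comp', spMap_comp']
    congr 1

/-- points of a cartesian square of schemes. -/
theorem mem_range_of_isPullback {X Y Z W : Scheme.{u}} {f : W ⟶ X} {g : W ⟶ Y} {p : X ⟶ Z}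
    {q : Y ⟶ Z} (h : IsPullback f g p q) (x : X) (hx : p.base x ∈ Set.range q.base) :
    x ∈ Set.range f.base := by
  obtain ⟨y, hy⟩ := hx
  obtain ⟨z, hz1, -⟩ := Scheme.Pullback.exists_preimage_pullback (f := p) (g := q) x y hy.symm
  refine ⟨h.isoPullback.inv.base z, ?_⟩
  rw [← hz1, ← Scheme.Hom.comp_apply, h.isoPullback_inv_fst]


end ChartsAux

namespace Presentation
variable (P : Presentation c ε Γ) (A : Type u) [CommRing A] [Algebra k A]

/-- the chart `U₀ × Spec A ⟶ C × Spec A`. -/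
noncomputable def J₀ : sp (Γ.R₀ A) ⟶ pullback c (tSpec k A) :=
  pullback.lift
    (spMap (Algebra.TensorProduct.includeRight : Γ.B₀ →ₐ[k] Γ.R₀ A).toRingHom ≫ P.j₀)
    (spMap (algebraMap A (Γ.R₀ A))) (by
      rw [Category.assoc, P.over₀, tSpec, tSpec, ← Spec.map_comp, ← Spec.map_comp,
        ← CommRingCat.ofHom_comp, ← CommRingCat.ofHom_comp]
      congr 2
      ext a
      simp [Algebra.algebraMap_eq_smul_one])

/-- the chart `U₁ × Spec A ⟶ C × Spec A`. -/
noncomputable def J₁ : sp (Γ.R₁ A) ⟶ pullback c (tSpec k A) :=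
  pullback.lift
    (spMap (Algebra.TensorProduct.includeRight : Γ.B₁ →ₐ[k] Γ.R₁ A).toRingHom ≫ P.j₁)
    (spMap (algebraMap A (Γ.R₁ A))) (by
      rw [Category.assoc, P.over₁, tSpec, tSpec, ← Spec.map_comp, ← Spec.map_comp,
        ← CommRingCat.ofHom_comp, ← CommRingCat.ofHom_comp]
      congr 2
      ext a
      simp [Algebra.algebraMap_eq_smul_one])

theorem J₀_fst : P.J₀ A ≫ pullback.fst c (tSpec k A) =
    spMap (Algebra.TensorProduct.includeRight : Γ.B₀ →ₐ[k] Γ.R₀ A).toRingHom ≫ P.j₀ :=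
  pullback.lift_fst _ _ _

theorem J₁_fst : P.J₁ A ≫ pullback.fst c (tSpec k A) =
    spMap (Algebra.TensorProduct.includeRight : Γ.B₁ →ₐ[k] Γ.R₁ A).toRingHom ≫ P.j₁ :=
  pullback.lift_fst _ _ _

theorem isPullback_J₀ : IsPullback (P.J₀ A)
    (spMap (Algebra.TensorProduct.includeRight : Γ.B₀ →ₐ[k] Γ.R₀ A).toRingHom)
    (pullback.fst c (tSpec k A)) P.j₀ :=
  ChartsAux.isPullback_chart P.j₀ P.over₀ A _ (P.J₀_fst A) (pullback.lift_snd _ _ _)

theorem isPullback_J₁ : IsPullback (P.J₁ A)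
    (spMap (Algebra.TensorProduct.includeRight : Γ.B₁ →ₐ[k] Γ.R₁ A).toRingHom)
    (pullback.fst c (tSpec k A)) P.j₁ :=
  ChartsAux.isPullback_chart P.j₁ P.over₁ A _ (P.J₁_fst A) (pullback.lift_snd _ _ _)

theorem isOpenImmersion_J₀ : IsOpenImmersion (P.J₀ A) :=
  MorphismProperty.of_isPullback (P := @IsOpenImmersion) (P.isPullback_J₀ A).flip P.open₀

theorem isOpenImmersion_J₁ : IsOpenImmersion (P.J₁ A) :=
  MorphismProperty.of_isPullback (P := @IsOpenImmersion) (P.isPullback_J₁ A).flip P.open₁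

theorem φ₀_J₀_eq : spMap (Γ.φ₀ A).toRingHom ≫ P.J₀ A = spMap (Γ.φ₁ A).toRingHom ≫ P.J₁ A := by
  apply pullback.hom_ext
  · have e0 : spMap (Γ.φ₀ A).toRingHom ≫
        spMap (Algebra.TensorProduct.includeRight : Γ.B₀ →ₐ[k] Γ.R₀ A).toRingHom =
        spMap (Algebra.TensorProduct.includeRight : Γ.B₀₁ →ₐ[k] Γ.R₀₁ A).toRingHom ≫
          spMap Γ.ι₀.toRingHom := (ChartsAux.isPullback_map Γ.ι₀ A).w.symm
    have e1 : spMap (Γ.φ₁ A).toRingHom ≫
        spMap (Algebra.TensorProduct.includeRight : Γ.B₁ →ₐ[k] Γ.R₁ A).toRingHom =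
        spMap (Algebra.TensorProduct.includeRight : Γ.B₀₁ →ₐ[k] Γ.R₀₁ A).toRingHom ≫
          spMap Γ.ι₁.toRingHom := (ChartsAux.isPullback_map Γ.ι₁ A).w.symm
    rw [Category.assoc, Category.assoc, J₀_fst, J₁_fst, ← Category.assoc, ← Category.assoc,
      e0, e1, Category.assoc, Category.assoc]
    congr 1
    exact P.isPullback.w
  · rw [Category.assoc, Category.assoc, J₀, J₁, pullback.lift_snd, pullback.lift_snd,
      ChartsAux.spMap_comp', ChartsAux.spMap_comp']
    congr 1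
    ext a
    simp

theorem isPullback_J₀_J₁ : IsPullback (spMap (Γ.φ₀ A).toRingHom) (spMap (Γ.φ₁ A).toRingHom)
    (P.J₀ A) (P.J₁ A) := by
  refine IsPullback.of_right
    (h₁₂ := spMap (Algebra.TensorProduct.includeRight : Γ.B₀ →ₐ[k] Γ.R₀ A).toRingHom)
    (h₂₂ := pullback.fst c (tSpec k A)) (v₁₃ := P.j₀) ?_ (P.φ₀_J₀_eq A) (P.isPullback_J₀ A).flip
  rw [J₁_fst]
  have e : spMap (Γ.φ₀ A).toRingHom ≫
      spMap (Algebra.TensorProduct.includeRight : Γ.B₀ →ₐ[k] Γ.R₀ A).toRingHom =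
      spMap (Algebra.TensorProduct.includeRight : Γ.B₀₁ →ₐ[k] Γ.R₀₁ A).toRingHom ≫
        spMap Γ.ι₀.toRingHom := (ChartsAux.isPullback_map Γ.ι₀ A).w.symm
  rw [e]
  exact (ChartsAux.isPullback_map Γ.ι₁ A).paste_horiz P.isPullback

theorem cover_J₀_J₁ (y : (pullback c (tSpec k A) : Scheme.{u})) :
    y ∈ Set.range (P.J₀ A).base ∨ y ∈ Set.range (P.J₁ A).base := by
  have := P.open₀
  have := P.open₁
  have hy : (pullback.fst c (tSpec k A)).base y ∈ P.j₀.opensRange ⊔ P.j₁.opensRange := by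
    rw [P.cover]; trivial
  rcases hy with hy | hy
  · exact Or.inl (ChartsAux.mem_range_of_isPullback (P.isPullback_J₀ A) y hy)
  · exact Or.inr (ChartsAux.mem_range_of_isPullback (P.isPullback_J₁ A) y hy)

/-- **Q8a**. The two charts form a cover of `C × Spec A`, with intersection `Spec (R₀₁ A)`. -/
noncomputable def chartCover : Cover₂ (pullback c (tSpec k A)) where
  Y₀ := sp (Γ.R₀ A)
  Y₁ := sp (Γ.R₁ A)
  Y₀₁ := sp (Γ.R₀₁ A)
  j₀ := P.J₀ A
  j₁ := P.J₁ A
  p₀ := spMap (Γ.φ₀ A).toRingHom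
  p₁ := spMap (Γ.φ₁ A).toRingHom
  open₀ := P.isOpenImmersion_J₀ A
  open₁ := P.isOpenImmersion_J₁ A
  isPullback := P.isPullback_J₀_J₁ A
  cover := P.cover_J₀_J₁ A

theorem J₀_snd : P.J₀ A ≫ pullback.snd c (tSpec k A) = spMap (algebraMap A (Γ.R₀ A)) :=
  pullback.lift_snd _ _ _

theorem J₁_snd : P.J₁ A ≫ pullback.snd c (tSpec k A) = spMap (algebraMap A (Γ.R₁ A)) :=
  pullback.lift_snd _ _ _

variable {A} {A' : Type u} [CommRing A'] [Algebra k A']

/-- **Q8b**. Compatibility of the charts with base change. -/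
theorem J₀_baseChange (f : A →ₐ[k] A') :
    P.J₀ A' ≫ baseChangeSnd c (homOver f) = spMap (Γ.ρ₀ f).toRingHom ≫ P.J₀ A := by
  apply pullback.hom_ext
  · rw [baseChangeSnd, Category.assoc, Category.assoc, pullback.lift_fst, Category.comp_id,
      J₀_fst, J₀_fst, ← Category.assoc, ChartsAux.spMap_comp']
    congr 2
    ext b
    simp [CurveAlg.ρ₀]
  · rw [baseChangeSnd, Category.assoc, Category.assoc, pullback.lift_snd, ← Category.assoc,
      J₀_snd, J₀_snd, ChartsAux.spMap_comp']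
    change spMap _ ≫ spMap f.toRingHom = _
    rw [ChartsAux.spMap_comp']
    congr 1

theorem J₁_baseChange (f : A →ₐ[k] A') :
    P.J₁ A' ≫ baseChangeSnd c (homOver f) = spMap (Γ.ρ₁ f).toRingHom ≫ P.J₁ A := by
  apply pullback.hom_ext
  · rw [baseChangeSnd, Category.assoc, Category.assoc, pullback.lift_fst, Category.comp_id,
      J₁_fst, J₁_fst, ← Category.assoc, ChartsAux.spMap_comp']
    congr 2
    ext b
    simp [CurveAlg.ρ₁]
  · rw [baseChangeSnd, Category.assoc, Category.assoc, pullback.lift_snd, ← Category.assoc,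
      J₁_snd, J₁_snd, ChartsAux.spMap_comp']
    change spMap _ ≫ spMap f.toRingHom = _
    rw [ChartsAux.spMap_comp']
    congr 1

variable (A)

/-- **Q8c**. The rigidifying section lies in the chart `0`. -/
theorem rigSection_eq :
    rigSection c (tSpec k A) ε = spMap (Γ.eA A).toRingHom ≫ P.J₀ A := by
  apply pullback.hom_ext
  · rw [rigSection, pullback.lift_fst, Category.assoc, J₀_fst, P.base, ← Category.assoc,
      ← Category.assoc, ChartsAux.spMap_comp']
    congr 1
    change spMap (algebraMap k A) ≫ spMap Γ.e₀.toRingHom = _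
    rw [ChartsAux.spMap_comp']
    congr 1
    ext b
    simp [CurveAlg.eA, Algebra.algebraMap_eq_smul_one]
  · rw [rigSection, pullback.lift_snd, Category.assoc, J₀_snd, ChartsAux.spMap_comp']
    have : (Γ.eA A).toRingHom.comp (algebraMap A (Γ.R₀ A)) = RingHom.id A := by
      ext a
      simp [CurveAlg.eA]
    rw [this]
    exact (Spec.map_id _).symm

end Presentation

end Fermat.Agent.S25
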