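import Fermat.Agent.S25.L.Rings
import Fermat.Agent.S25.L.Cohomology

/-!
# S25 / scheme side : a purely algebraic input : `H⁰(C × Spec A, O) = A`
-/
set_option autoImplicit false
universe u
open TensorProduct

namespace Fermat.Agent.S25

variable {k : Type u} [Field k] [IsAlgClosed k] {Γ : CurveAlg k}

namespace AlgNeedsAux

omit [IsAlgClosed k] in
/-- an element of `B₀ ∩ B₁` is algebraic over `k` (finiteness of `H⁰(O)`). -/
theorem isAlgebraic_of_ι₀_eq_ι₁ (hΓ : Γ.IsGood) (b₀ : Γ.B₀) (b₁ : Γ.B₁)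
    (h : Γ.ι₀ b₀ = Γ.ι₁ b₁) : IsAlgebraic k b₀ := by
  have hfin : Module.Finite k (LB.unit hΓ k).H0 := LB.finite_H0_field hΓ _
  have hΨ₀ : ∀ P : Polynomial k, (((1 : k) ⊗ₜ Polynomial.aeval b₀ P, (1 : k) ⊗ₜ Polynomial.aeval b₁ P) :
      (LB.unit hΓ k).N₀ × (LB.unit hΓ k).N₁) ∈ (LB.unit hΓ k).H0 := by
    intro P
    show Γ.φ₀ k ((1 : k) ⊗ₜ Polynomial.aeval b₀ P) + -(Γ.φ₁ k ((1 : k) ⊗ₜ Polynomial.aeval b₁ P)) = 0
    have h1 : Γ.φ₀ k ((1 : k) ⊗ₜ Polynomial.aeval b₀ P) = (1 : k) ⊗ₜ Γ.ι₀ (Polynomial.aeval b₀ P) := by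
      simp [CurveAlg.φ₀]
    have h2 : Γ.φ₁ k ((1 : k) ⊗ₜ Polynomial.aeval b₁ P) = (1 : k) ⊗ₜ Γ.ι₁ (Polynomial.aeval b₁ P) := by
      simp [CurveAlg.φ₁]
    rw [h1, h2, ← Polynomial.aeval_algHom_apply, ← Polynomial.aeval_algHom_apply, h, add_neg_cancel]
  let Ψ : Polynomial k →ₗ[k] (LB.unit hΓ k).H0 :=
    { toFun := fun P => ⟨_, hΨ₀ P⟩
      map_add' := fun P Q => by
        apply Subtype.ext
        apply Prod.ext
        · show (1 : k) ⊗ₜ[k] Polynomial.aeval b₀ (P + Q) = (1 : k) ⊗ₜ[k] Polynomial.aeval b₀ P +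
            (1 : k) ⊗ₜ[k] Polynomial.aeval b₀ Q
          rw [map_add, TensorProduct.tmul_add]
        · show (1 : k) ⊗ₜ[k] Polynomial.aeval b₁ (P + Q) = (1 : k) ⊗ₜ[k] Polynomial.aeval b₁ P +
            (1 : k) ⊗ₜ[k] Polynomial.aeval b₁ Q
          rw [map_add, TensorProduct.tmul_add]
      map_smul' := fun c P => by
        apply Subtype.ext
        apply Prod.ext
        · show (1 : k) ⊗ₜ[k] Polynomial.aeval b₀ (c • P) =
            algebraMap k (Γ.R₀ k) c * ((1 : k) ⊗ₜ[k] Polynomial.aeval b₀ P)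
          rw [map_smul, TensorProduct.tmul_smul, Algebra.TensorProduct.algebraMap_apply,
            Algebra.TensorProduct.tmul_mul_tmul, TensorProduct.smul_tmul']
          simp
        · show (1 : k) ⊗ₜ[k] Polynomial.aeval b₁ (c • P) =
            algebraMap k (Γ.R₁ k) c * ((1 : k) ⊗ₜ[k] Polynomial.aeval b₁ P)
          rw [map_smul, TensorProduct.tmul_smul, Algebra.TensorProduct.algebraMap_apply,
            Algebra.TensorProduct.tmul_mul_tmul, TensorProduct.smul_tmul']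
          simp }
  have hninj : ¬ Function.Injective Ψ := by
    intro hinj
    exact Polynomial.not_finite (R := k) (Module.Finite.of_injective Ψ hinj)
  rw [← LinearMap.ker_eq_bot, Submodule.eq_bot_iff] at hninj
  simp only [not_forall] at hninj
  obtain ⟨P, hP, hP0⟩ := hninj
  refine ⟨P, hP0, ?_⟩
  have h3 : (Ψ P).1.1 = 0 := by rw [LinearMap.mem_ker.mp hP]; rfl
  have h4 : (1 : k) ⊗ₜ[k] Polynomial.aeval b₀ P = 0 := h3
  have h5 := congrArg (Algebra.TensorProduct.lid k Γ.B₀) h4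
  simpa using h5

end AlgNeedsAux

/-- `B₀ ∩ B₁ = k` inside `B₀₁`. -/
theorem CurveAlg.exists_algebraMap_of_ι₀_eq_ι₁ (hΓ : Γ.IsGood) (b₀ : Γ.B₀) (b₁ : Γ.B₁)
    (h : Γ.ι₀ b₀ = Γ.ι₁ b₁) : ∃ a : k, b₀ = algebraMap k Γ.B₀ a ∧ b₁ = algebraMap k Γ.B₁ a := by
  have := hΓ.isDomain₀
  have halg := AlgNeedsAux.isAlgebraic_of_ι₀_eq_ι₁ hΓ b₀ b₁ h
  have hdeg := IsAlgClosed.degree_eq_one_of_irreducible k (minpoly.irreducible halg.isIntegral)
  obtain ⟨a, ha⟩ := minpoly.mem_range_of_degree_eq_one k b₀ hdeg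
  refine ⟨a, ha.symm, ?_⟩
  apply CurveAlg.ι₁_injective hΓ
  rw [← h, ← ha, AlgHom.commutes, AlgHom.commutes]

/-- `R₀ A ∩ R₁ A = A` inside `R₀₁ A`. -/
theorem CurveAlg.exists_algebraMap_of_φ₀_eq_φ₁ (hΓ : Γ.IsGood) (A : Type u) [CommRing A] [Algebra k A]
    (b₀ : Γ.R₀ A) (b₁ : Γ.R₁ A) (h : Γ.φ₀ A b₀ = Γ.φ₁ A b₁) :
    ∃ a : A, b₀ = algebraMap A (Γ.R₀ A) a ∧ b₁ = algebraMap A (Γ.R₁ A) a := by
  let f : k →ₗ[k] Γ.B₀ × Γ.B₁ :=
    LinearMap.prod (Algebra.linearMap k Γ.B₀) (Algebra.linearMap k Γ.B₁)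
  let g : Γ.B₀ × Γ.B₁ →ₗ[k] Γ.B₀₁ := Γ.ι₀.toLinearMap.coprod (-Γ.ι₁.toLinearMap)
  have hex : Function.Exact f g := by
    rintro ⟨c₀, c₁⟩
    constructor
    · intro hc
      have hc' : Γ.ι₀ c₀ = Γ.ι₁ c₁ := by
        have : Γ.ι₀ c₀ + -Γ.ι₁ c₁ = 0 := hc
        exact add_neg_eq_zero.mp this
      obtain ⟨a, h₀, h₁⟩ := CurveAlg.exists_algebraMap_of_ι₀_eq_ι₁ hΓ c₀ c₁ hc'
      exact ⟨a, by rw [h₀, h₁]; rfl⟩
    · rintro ⟨a, ha⟩
      rw [← ha]
      show Γ.ι₀ (algebraMap k Γ.B₀ a) + -Γ.ι₁ (algebraMap k Γ.B₁ a) = 0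
      rw [AlgHom.commutes, AlgHom.commutes, add_neg_cancel]
  have hex' := Module.Flat.lTensor_exact A hex
  let e := TensorProduct.prodRight k k A Γ.B₀ Γ.B₁
  have hg : ∀ z : A ⊗[k] (Γ.B₀ × Γ.B₁), g.lTensor A z = Γ.φ₀ A (e z).1 - Γ.φ₁ A (e z).2 := by
    intro z
    induction z using TensorProduct.induction_on with
    | zero => simp
    | tmul a c =>
      rw [LinearMap.lTensor_tmul, TensorProduct.prodRight_tmul]
      show a ⊗ₜ[k] (Γ.ι₀ c.1 + -Γ.ι₁ c.2) = _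
      simp [CurveAlg.φ₀, CurveAlg.φ₁, TensorProduct.tmul_add, TensorProduct.tmul_neg, sub_eq_add_neg]
    | add z z' hz hz' =>
      rw [map_add, hz, hz', map_add, Prod.fst_add, Prod.snd_add, map_add, map_add]
      ring
  obtain ⟨w, hw⟩ := (hex' (e.symm (b₀, b₁))).mp (by
    rw [hg, LinearEquiv.apply_symm_apply, h, sub_self])
  have hf : ∀ w : A ⊗[k] k, e (f.lTensor A w) =
      (algebraMap A (Γ.R₀ A) (TensorProduct.rid k A w), algebraMap A (Γ.R₁ A) (TensorProduct.rid k A w)) := by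
    intro w
    induction w using TensorProduct.induction_on with
    | zero => simp; rfl
    | tmul a c =>
      rw [LinearMap.lTensor_tmul, TensorProduct.prodRight_tmul, TensorProduct.rid_tmul]
      show (a ⊗ₜ[k] algebraMap k Γ.B₀ c, a ⊗ₜ[k] algebraMap k Γ.B₁ c) = _
      rw [Algebra.TensorProduct.algebraMap_apply, Algebra.TensorProduct.algebraMap_apply,
        Algebra.algebraMap_eq_smul_one, Algebra.algebraMap_eq_smul_one, TensorProduct.tmul_smul,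
        TensorProduct.tmul_smul, TensorProduct.smul_tmul', TensorProduct.smul_tmul']
      rfl
    | add z z' hz hz' =>
      rw [map_add, map_add, hz, hz', map_add, map_add, map_add]
      rfl
  have h2 := hf w
  rw [hw, LinearEquiv.apply_symm_apply] at h2
  exact ⟨TensorProduct.rid k A w, congrArg Prod.fst h2, congrArg Prod.snd h2⟩

end Fermat.Agent.S25
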