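import Fermat.Agent.S25.SchemeDefs

/-!
# S25 / scheme side / Q8d : base change of `C × T` along morphisms of the base
-/
set_option autoImplicit false
universe u
open CategoryTheory CategoryTheory.Limits AlgebraicGeometry AlgebraicGeometry.RelPicard
  NeronModelInfra GoodReductionJacobian TensorProduct

namespace Fermat.Agent.S25

variable {k : Type u} [Field k] {C : Scheme.{u}} {c : C ⟶ Spec (CommRingCat.of k)}
  {ε : SchemeHomOver (𝟙 (Spec (CommRingCat.of k))) c}

/-! ### Q8d : base change along open immersions of the base -/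

theorem baseChangeSnd_fst' {T U : Scheme.{u}} {t : T ⟶ Spec (CommRingCat.of k)}
    {t' : U ⟶ Spec (CommRingCat.of k)} (v : SchemeHomOver t' t) :
    baseChangeSnd c v ≫ pullback.fst c t = pullback.fst c t' := by
  unfold baseChangeSnd pullback.map
  rw [pullback.lift_fst, Category.comp_id]

theorem baseChangeSnd_snd' {T U : Scheme.{u}} {t : T ⟶ Spec (CommRingCat.of k)}
    {t' : U ⟶ Spec (CommRingCat.of k)} (v : SchemeHomOver t' t) :
    baseChangeSnd c v ≫ pullback.snd c t = pullback.snd c t' ≫ v.1 := by
  unfold baseChangeSnd pullback.map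
  rw [pullback.lift_snd]

/-- auxiliary copy of `isPullback_baseChangeSnd` (stated before its uses) -/
theorem isPullback_baseChangeSnd_aux {T U : Scheme.{u}} {t : T ⟶ Spec (CommRingCat.of k)}
    {t' : U ⟶ Spec (CommRingCat.of k)} (v : SchemeHomOver t' t) :
    IsPullback (baseChangeSnd c v) (pullback.snd c t') (pullback.snd c t) v.1 := by
  refine IsPullback.of_right ?_ (baseChangeSnd_snd' v) (IsPullback.of_hasPullback c t)
  rw [baseChangeSnd_fst', v.2]
  exact IsPullback.of_hasPullback c t'

/-- `C × U ⟶ C × T` is an open immersion if `U ⟶ T` is. -/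
theorem isOpenImmersion_baseChangeSnd {T U : Scheme.{u}} {t : T ⟶ Spec (CommRingCat.of k)}
    {t' : U ⟶ Spec (CommRingCat.of k)} (v : SchemeHomOver t' t) [IsOpenImmersion v.1] :
    IsOpenImmersion (baseChangeSnd c v) :=
  MorphismProperty.of_isPullback (P := @IsOpenImmersion) (isPullback_baseChangeSnd_aux v).flip
    inferInstance

theorem range_baseChangeSnd {T U : Scheme.{u}} {t : T ⟶ Spec (CommRingCat.of k)}
    {t' : U ⟶ Spec (CommRingCat.of k)} (v : SchemeHomOver t' t) :
    Set.range (baseChangeSnd c v).base = (pullback.snd c t).base ⁻¹' Set.range v.1.base := by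
  have h := isPullback_baseChangeSnd_aux (c := c) v
  have h1 : baseChangeSnd c v = h.isoPullback.hom ≫ pullback.fst (pullback.snd c t) v.1 :=
    (h.isoPullback_hom_fst).symm
  have h2 := Scheme.Pullback.range_fst (pullback.snd c t) v.1
  rw [h1]
  refine Eq.trans ?_ h2
  have hs : Function.Surjective h.isoPullback.hom.base := by
    intro y
    refine ⟨h.isoPullback.inv.base y, ?_⟩
    rw [← Scheme.Hom.comp_apply, Iso.inv_hom_id]
    rfl
  ext x
  constructor
  · rintro ⟨y, rfl⟩
    exact ⟨h.isoPullback.hom.base y, rfl⟩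
  · rintro ⟨y, rfl⟩
    obtain ⟨z, rfl⟩ := hs y
    exact ⟨z, rfl⟩

/-- the square `C × U → C × T`, `U → T` is cartesian -/
theorem isPullback_baseChangeSnd {T U : Scheme.{u}} {t : T ⟶ Spec (CommRingCat.of k)}
    {t' : U ⟶ Spec (CommRingCat.of k)} (v : SchemeHomOver t' t) :
    IsPullback (baseChangeSnd c v) (pullback.snd c t') (pullback.snd c t) v.1 :=
  isPullback_baseChangeSnd_aux v

/-- base change of a fibre square of the base -/
theorem isPullback_baseChangeSnd_of_isPullback {T U V W : Scheme.{u}}
    {t : T ⟶ Spec (CommRingCat.of k)} {tU : U ⟶ Spec (CommRingCat.of k)}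
    {tV : V ⟶ Spec (CommRingCat.of k)} {tW : W ⟶ Spec (CommRingCat.of k)}
    (u : SchemeHomOver tU t) (v : SchemeHomOver tV t) (p : SchemeHomOver tW tU)
    (q : SchemeHomOver tW tV) (h : IsPullback p.1 q.1 u.1 v.1) :
    IsPullback (baseChangeSnd c p) (baseChangeSnd c q) (baseChangeSnd c u) (baseChangeSnd c v) := by
  refine IsPullback.of_bot ?_ ?_ (isPullback_baseChangeSnd (c := c) v)
  · rw [baseChangeSnd_snd', baseChangeSnd_snd']
    exact (isPullback_baseChangeSnd (c := c) p).paste_vert h
  · apply pullback.hom_ext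
    · rw [Category.assoc, Category.assoc, baseChangeSnd_fst', baseChangeSnd_fst',
        baseChangeSnd_fst', baseChangeSnd_fst']
    · rw [Category.assoc, Category.assoc, baseChangeSnd_snd', baseChangeSnd_snd',
        ← Category.assoc, ← Category.assoc, baseChangeSnd_snd', baseChangeSnd_snd',
        Category.assoc, Category.assoc, h.w]

theorem rigSection_snd {T : Scheme.{u}} (t : T ⟶ Spec (CommRingCat.of k)) :
    rigSection c t ε ≫ pullback.snd c t = 𝟙 T :=
  pullback.lift_snd _ _ _

end Fermat.Agent.S25
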