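import Fermat.Agent.S25.S.Cart

/-!
# S25 / scheme side : equality of morphisms of modules "up to `cCast`"

`CEq α α'` for `α : L ⇒ M` over `f` and `α' : L ⇒ M` over `f'` means `f = f'` and `cCast _ α = α'`.
It is an equivalence relation, a congruence for `cComp`, and reduces to `=` when `f` and `f'` are
syntactically equal.  This removes all the `cCast` bookkeeping from diagram chases.
-/
set_option autoImplicit false
universe u
open CategoryTheory CategoryTheory.Limits AlgebraicGeometry AlgebraicGeometry.Scheme.Modules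

namespace Fermat.Agent.S25

variable {W X Y Z : Scheme.{u}}

/-- equality up to `cCast` -/
def CEq {f f' : X ⟶ Y} {L : Y.Modules} {M : X.Modules} (α : L ⟶ (pushforward f).obj M)
    (α' : L ⟶ (pushforward f').obj M) : Prop :=
  ∃ h : f = f', cCast h α = α'

namespace CEq

variable {f f' f'' : X ⟶ Y} {L : Y.Modules} {M : X.Modules}

theorem refl (α : L ⟶ (pushforward f).obj M) : CEq α α := ⟨rfl, cCast_rfl α⟩

theorem of_eq {α α' : L ⟶ (pushforward f).obj M} (h : α = α') : CEq α α' := h ▸ refl α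

theorem eq {α α' : L ⟶ (pushforward f).obj M} (h : CEq α α') : α = α' := by
  obtain ⟨_, h⟩ := h
  rwa [cCast_rfl] at h

theorem symm {α : L ⟶ (pushforward f).obj M} {α' : L ⟶ (pushforward f').obj M} (h : CEq α α') :
    CEq α' α := by
  obtain ⟨rfl, rfl⟩ := h
  rw [cCast_rfl]
  exact refl α

theorem trans {α : L ⟶ (pushforward f).obj M} {α' : L ⟶ (pushforward f').obj M}
    {α'' : L ⟶ (pushforward f'').obj M} (h : CEq α α') (h' : CEq α' α'') : CEq α α'' := by
  obtain ⟨rfl, rfl⟩ := h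
  obtain ⟨rfl, rfl⟩ := h'
  rw [cCast_rfl, cCast_rfl]
  exact refl α

theorem cast_left (h : f = f') (α : L ⟶ (pushforward f).obj M) : CEq (cCast h α) α :=
  symm ⟨h, rfl⟩

theorem cast_right (h : f = f') (α : L ⟶ (pushforward f).obj M) : CEq α (cCast h α) := ⟨h, rfl⟩

theorem eq_cast {α : L ⟶ (pushforward f).obj M} {α' : L ⟶ (pushforward f').obj M} (h : CEq α α')
    (e : f = f') : cCast e α = α' := h.2

theorem isCart_iff {α : L ⟶ (pushforward f).obj M} {α' : L ⟶ (pushforward f').obj M}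
    (h : CEq α α') : IsCart f α ↔ IsCart f' α' := by
  obtain ⟨rfl, rfl⟩ := h
  rw [cCast_rfl]

theorem comp_left {L' : Y.Modules} (φ : L' ⟶ L) {α : L ⟶ (pushforward f).obj M}
    {α' : L ⟶ (pushforward f').obj M} (h : CEq α α') : CEq (φ ≫ α) (φ ≫ α') := by
  obtain ⟨rfl, rfl⟩ := h
  rw [cCast_rfl]
  exact refl _

theorem comp_right {M' : X.Modules} {α : L ⟶ (pushforward f).obj M}
    {α' : L ⟶ (pushforward f').obj M} (h : CEq α α') (ψ : M ⟶ M') :
    CEq (α ≫ (pushforward f).map ψ) (α' ≫ (pushforward f').map ψ) := by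
  obtain ⟨rfl, rfl⟩ := h
  rw [cCast_rfl]
  exact refl _

end CEq

section comp
variable {f f' : X ⟶ Y} {g g' : Y ⟶ Z} {L : Z.Modules} {M : Y.Modules} {N : X.Modules}

/-- `cComp` is a congruence for `CEq`. -/
theorem CEq.cComp {α : L ⟶ (pushforward g).obj M} {α' : L ⟶ (pushforward g').obj M}
    {β : M ⟶ (pushforward f).obj N} {β' : M ⟶ (pushforward f').obj N} (h : CEq α α')
    (h' : CEq β β') : CEq (cComp α β) (cComp α' β') := by
  obtain ⟨rfl, rfl⟩ := h
  obtain ⟨rfl, rfl⟩ := h'
  rw [cCast_rfl, cCast_rfl]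
  exact CEq.refl _

theorem CEq.cComp_left {α : L ⟶ (pushforward g).obj M} {α' : L ⟶ (pushforward g').obj M}
    (h : CEq α α') (β : M ⟶ (pushforward f).obj N) : CEq (Fermat.Agent.S25.cComp α β) (Fermat.Agent.S25.cComp α' β) :=
  h.cComp (CEq.refl β)

theorem CEq.cComp_right (α : L ⟶ (pushforward g).obj M)
    {β : M ⟶ (pushforward f).obj N} {β' : M ⟶ (pushforward f').obj N}
    (h' : CEq β β') : CEq (Fermat.Agent.S25.cComp α β) (Fermat.Agent.S25.cComp α β') :=
  (CEq.refl α).cComp h'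

/-- associativity of `cComp`, up to `cCast`. -/
theorem CEq.assoc {e : W ⟶ X} {P : W.Modules} (α : L ⟶ (pushforward g).obj M)
    (β : M ⟶ (pushforward f).obj N) (γ : N ⟶ (pushforward e).obj P) :
    CEq (Fermat.Agent.S25.cComp α (Fermat.Agent.S25.cComp β γ))
      (Fermat.Agent.S25.cComp (Fermat.Agent.S25.cComp α β) γ) :=
  ⟨Category.assoc e f g, cComp_assoc α β γ⟩

end comp

end Fermat.Agent.S25
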