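import Mathlib

/-!
# S25 / scheme side / T1 : calculus of morphisms of modules over a morphism of schemes

A "morphism `L ⇒ M` over `f : X ⟶ Y`" (`L : Y.Modules`, `M : X.Modules`) is a morphism
`α : L ⟶ (pushforward f).obj M`.  On sections it is a family of maps `Γ(L, U) → Γ(M, f ⁻¹ᵁ U)`.
It is *cartesian* if the adjoint morphism `f^* L ⟶ M` is an isomorphism.
-/
set_option autoImplicit false
universe u
open CategoryTheory CategoryTheory.Limits AlgebraicGeometry AlgebraicGeometry.Scheme.Modules

namespace Fermat.Agent.S25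

variable {W X Y Z : Scheme.{u}}

/-- composition of morphisms of modules over morphisms of schemes -/
noncomputable def cComp {f : X ⟶ Y} {g : Y ⟶ Z} {L : Z.Modules} {M : Y.Modules} {N : X.Modules}
    (α : L ⟶ (pushforward g).obj M) (β : M ⟶ (pushforward f).obj N) :
    L ⟶ (pushforward (f ≫ g)).obj N :=
  α ≫ (pushforward g).map β ≫ (pushforwardComp f g).hom.app N

/-- transport along an equality of morphisms of schemes -/
noncomputable def cCast {f f' : X ⟶ Y} (h : f = f') {L : Y.Modules} {M : X.Modules}
    (α : L ⟶ (pushforward f).obj M) : L ⟶ (pushforward f').obj M :=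
  α ≫ (pushforwardCongr h).hom.app M

/-- `α : L ⇒ M` over `f` is cartesian: the adjoint `f^* L ⟶ M` is an isomorphism. -/
def IsCart (f : X ⟶ Y) {L : Y.Modules} {M : X.Modules} (α : L ⟶ (pushforward f).obj M) : Prop :=
  IsIso (((pullbackPushforwardAdjunction f).homEquiv L M).symm α)

/-! ### T1a : formal properties of the composition -/
section formal
variable {f : X ⟶ Y} {g : Y ⟶ Z} {L : Z.Modules} {M : Y.Modules} {N : X.Modules}

theorem cComp_app (α : L ⟶ (pushforward g).obj M) (β : M ⟶ (pushforward f).obj N) (U : Z.Opens) :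
    (cComp α β).app U = α.app U ≫ β.app (g ⁻¹ᵁ U) := by
  simp [cComp]

theorem cComp_assoc {e : W ⟶ X} {P : W.Modules} (α : L ⟶ (pushforward g).obj M)
    (β : M ⟶ (pushforward f).obj N) (γ : N ⟶ (pushforward e).obj P) :
    cCast (Category.assoc e f g) (cComp α (cComp β γ)) = cComp (cComp α β) γ := by
  ext U
  simp [cCast, cComp]

theorem comp_cComp {L' : Z.Modules} (φ : L' ⟶ L) (α : L ⟶ (pushforward g).obj M)
    (β : M ⟶ (pushforward f).obj N) : φ ≫ cComp α β = cComp (φ ≫ α) β := by
  simp [cComp]

theorem cComp_comp {N' : X.Modules} (α : L ⟶ (pushforward g).obj M)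
    (β : M ⟶ (pushforward f).obj N) (ψ : N ⟶ N') :
    cComp α β ≫ (pushforward (f ≫ g)).map ψ = cComp α (β ≫ (pushforward f).map ψ) := by
  ext U
  simp [cComp]

theorem cComp_mid {M' : Y.Modules} (α : L ⟶ (pushforward g).obj M) (χ : M ⟶ M')
    (β : M' ⟶ (pushforward f).obj N) :
    cComp (α ≫ (pushforward g).map χ) β = cComp α (χ ≫ β) := by
  simp [cComp]

theorem cCast_rfl (α : L ⟶ (pushforward g).obj M) : cCast rfl α = α := by
  ext U
  simp [cCast]

theorem cCast_cCast {g' g'' : Y ⟶ Z} (h : g = g') (h' : g' = g'') (α : L ⟶ (pushforward g).obj M) :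
    cCast h' (cCast h α) = cCast (h.trans h') α := by
  subst h h'; simp [cCast_rfl]

theorem cCast_injective {g' : Y ⟶ Z} (h : g = g') :
    Function.Injective (cCast h : (L ⟶ (pushforward g).obj M) → _) := by
  subst h; intro a b hab; simpa [cCast_rfl] using hab

theorem comp_cCast {g' : Y ⟶ Z} (h : g = g') {L' : Z.Modules} (φ : L' ⟶ L)
    (α : L ⟶ (pushforward g).obj M) : φ ≫ cCast h α = cCast h (φ ≫ α) := by
  simp [cCast]

theorem cCast_comp {g' : Y ⟶ Z} (h : g = g') {M' : Y.Modules} (α : L ⟶ (pushforward g).obj M)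
    (ψ : M ⟶ M') : cCast h α ≫ (pushforward g').map ψ = cCast h (α ≫ (pushforward g).map ψ) := by
  subst h; simp [cCast_rfl]

theorem cComp_cCast_left {g' : Y ⟶ Z} (h : g = g') (α : L ⟶ (pushforward g).obj M)
    (β : M ⟶ (pushforward f).obj N) :
    cComp (cCast h α) β = cCast (by rw [h]) (cComp α β) := by
  subst h; simp [cCast_rfl]

theorem cComp_cCast_right {f' : X ⟶ Y} (h : f = f') (α : L ⟶ (pushforward g).obj M)
    (β : M ⟶ (pushforward f).obj N) :
    cComp α (cCast h β) = cCast (by rw [h]) (cComp α β) := by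
  subst h; simp [cCast_rfl]

end formal

/-! ### T1b : cartesian morphisms -/
section cart
variable {f : X ⟶ Y} {g : Y ⟶ Z} {L L' : Z.Modules} {M M' : Y.Modules} {N : X.Modules}

/-- `IsCart` as a universal property. -/
theorem isCart_iff_bijective (α : L ⟶ (pushforward g).obj M) :
    IsCart g α ↔ ∀ M' : Y.Modules,
      Function.Bijective (fun φ : M ⟶ M' => α ≫ (pushforward g).map φ) := by
  unfold IsCart
  rw [isIso_iff_coyoneda_map_bijective]
  refine forall_congr' fun M' => ?_
  have h : (fun φ : M ⟶ M' => α ≫ (pushforward g).map φ) =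
      ((pullbackPushforwardAdjunction g).homEquiv L M') ∘
        (fun φ : M ⟶ M' => ((pullbackPushforwardAdjunction g).homEquiv L M).symm α ≫ φ) := by
    funext φ
    simp [Adjunction.homEquiv_naturality_right]
  rw [h]
  exact (Equiv.comp_bijective _ _).symm

theorem isCart_unit (g : Y ⟶ Z) (L : Z.Modules) :
    IsCart g ((pullbackPushforwardAdjunction g).unit.app L) := by
  have h : ((pullbackPushforwardAdjunction g).homEquiv L _).symm
      ((pullbackPushforwardAdjunction g).unit.app L) = 𝟙 _ := by
    rw [Equiv.symm_apply_eq, Adjunction.homEquiv_id]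
  change IsIso (((pullbackPushforwardAdjunction g).homEquiv L _).symm
      ((pullbackPushforwardAdjunction g).unit.app L))
  rw [h]
  infer_instance

theorem nonempty_pullback_iso_iff (g : Y ⟶ Z) (L : Z.Modules) (M : Y.Modules) :
    Nonempty ((Scheme.Modules.pullback g).obj L ≅ M) ↔ ∃ α : L ⟶ (pushforward g).obj M, IsCart g α := by
  constructor
  · rintro ⟨e⟩
    refine ⟨(pullbackPushforwardAdjunction g).homEquiv L M e.hom, ?_⟩
    unfold IsCart
    rw [Equiv.symm_apply_apply]
    infer_instance
  · rintro ⟨α, hα⟩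
    unfold IsCart at hα
    exact ⟨asIso (((pullbackPushforwardAdjunction g).homEquiv L M).symm α)⟩

/-- universal property, over the identity -/
theorem IsCart.existsUnique_desc {α : L ⟶ (pushforward g).obj M} (hα : IsCart g α)
    (γ : L ⟶ (pushforward g).obj M') : ∃! φ : M ⟶ M', α ≫ (pushforward g).map φ = γ :=
  ((isCart_iff_bijective α).mp hα M').existsUnique γ

/-- universal property -/
theorem IsCart.existsUnique_fac {α : L ⟶ (pushforward g).obj M} (hα : IsCart g α)
    (γ : L ⟶ (pushforward (f ≫ g)).obj N) : ∃! β : M ⟶ (pushforward f).obj N, cComp α β = γ := by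
  obtain ⟨β, hβ, huniq⟩ := hα.existsUnique_desc (γ ≫ (pushforwardComp f g).inv.app N)
  refine ⟨β, ?_, fun β' hβ' => huniq β' ?_⟩
  · change α ≫ (pushforward g).map β ≫ (pushforwardComp f g).hom.app N = γ
    rw [← Category.assoc, hβ]
    simp
  · change α ≫ (pushforward g).map β' = γ ≫ (pushforwardComp f g).inv.app N
    rw [← hβ']
    simp [cComp]

theorem IsCart.comp {α : L ⟶ (pushforward g).obj M} {β : M ⟶ (pushforward f).obj N}
    (hα : IsCart g α) (hβ : IsCart f β) : IsCart (f ≫ g) (cComp α β) := by
  rw [isCart_iff_bijective]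
  intro N'
  have h : (fun ψ : N ⟶ N' => cComp α β ≫ (pushforward (f ≫ g)).map ψ) =
      (fun γ : L ⟶ (pushforward g).obj ((pushforward f).obj N') =>
          γ ≫ (pushforwardComp f g).hom.app N') ∘
        (fun φ : M ⟶ (pushforward f).obj N' => α ≫ (pushforward g).map φ) ∘
        (fun ψ : N ⟶ N' => β ≫ (pushforward f).map ψ) := by
    funext ψ
    rw [cComp_comp]
    simp [cComp]
  rw [h]
  refine Function.Bijective.comp ?_ (Function.Bijective.comp
    ((isCart_iff_bijective α).mp hα _) ((isCart_iff_bijective β).mp hβ _))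
  exact ⟨fun a b hab => (cancel_mono ((pushforwardComp f g).hom.app N')).mp hab,
    fun c => ⟨c ≫ (pushforwardComp f g).inv.app N', by simp⟩⟩

theorem IsCart.of_comp {α : L ⟶ (pushforward g).obj M} {β : M ⟶ (pushforward f).obj N}
    (hα : IsCart g α) (h : IsCart (f ≫ g) (cComp α β)) : IsCart f β := by
  rw [isCart_iff_bijective]
  intro N'
  have h1 := (isCart_iff_bijective _).mp h N'
  have h2 : (fun ψ : N ⟶ N' => cComp α β ≫ (pushforward (f ≫ g)).map ψ) =
      ((fun γ : L ⟶ (pushforward g).obj ((pushforward f).obj N') =>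
          γ ≫ (pushforwardComp f g).hom.app N') ∘
        (fun φ : M ⟶ (pushforward f).obj N' => α ≫ (pushforward g).map φ)) ∘
        (fun ψ : N ⟶ N' => β ≫ (pushforward f).map ψ) := by
    funext ψ
    rw [cComp_comp]
    simp [cComp]
  rw [h2] at h1
  have h3 : Function.Bijective ((fun γ : L ⟶ (pushforward g).obj ((pushforward f).obj N') =>
          γ ≫ (pushforwardComp f g).hom.app N') ∘
        (fun φ : M ⟶ (pushforward f).obj N' => α ≫ (pushforward g).map φ)) :=
    Function.Bijective.comp
      ⟨fun a b hab => (cancel_mono ((pushforwardComp f g).hom.app N')).mp hab,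
      fun c => ⟨c ≫ (pushforwardComp f g).inv.app N', by simp⟩⟩
      ((isCart_iff_bijective α).mp hα _)
  exact (Function.Bijective.of_comp_iff' h3 _).mp h1

theorem isCart_cCast_iff {g' : Y ⟶ Z} (h : g = g') (α : L ⟶ (pushforward g).obj M) :
    IsCart g' (cCast h α) ↔ IsCart g α := by
  subst h; rw [cCast_rfl]

theorem isCart_iso_comp_iff (e : L' ≅ L) (α : L ⟶ (pushforward g).obj M) :
    IsCart g (e.hom ≫ α) ↔ IsCart g α := by
  unfold IsCart
  rw [Adjunction.homEquiv_naturality_left_symm]
  exact isIso_comp_left_iff _ _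

theorem isCart_comp_iso_iff (α : L ⟶ (pushforward g).obj M) (e : M ≅ M') :
    IsCart g (α ≫ (pushforward g).map e.hom) ↔ IsCart g α := by
  unfold IsCart
  rw [Adjunction.homEquiv_naturality_right_symm]
  exact isIso_comp_right_iff _ _

/-- two cartesian morphisms with the same source differ by an isomorphism of the targets -/
theorem IsCart.exists_iso {α : L ⟶ (pushforward g).obj M} {α' : L ⟶ (pushforward g).obj M'}
    (hα : IsCart g α) (hα' : IsCart g α') :
    ∃ e : M ≅ M', α ≫ (pushforward g).map e.hom = α' := by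
  unfold IsCart at hα hα'
  refine ⟨(asIso (((pullbackPushforwardAdjunction g).homEquiv L M).symm α)).symm ≪≫
    asIso (((pullbackPushforwardAdjunction g).homEquiv L M').symm α'), ?_⟩
  apply ((pullbackPushforwardAdjunction g).homEquiv L M').symm.injective
  rw [Adjunction.homEquiv_naturality_right_symm]
  simp

/-- if `φ` intertwines two cartesian morphisms, it is an isomorphism -/
theorem IsCart.isIso_of_comp_eq {α : L ⟶ (pushforward g).obj M} {α' : L ⟶ (pushforward g).obj M'}
    (hα : IsCart g α) (hα' : IsCart g α') (φ : M ⟶ M') (h : α ≫ (pushforward g).map φ = α') :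
    IsIso φ := by
  unfold IsCart at hα hα'
  rw [← h, Adjunction.homEquiv_naturality_right_symm] at hα'
  exact (isIso_comp_left_iff _ _).mp hα'

/-- functoriality of "the" pullback: a morphism downstairs induces a morphism upstairs -/
theorem IsCart.existsUnique_map {α : L ⟶ (pushforward g).obj M} (hα : IsCart g α)
    (α' : L' ⟶ (pushforward g).obj M') (φ : L ⟶ L') :
    ∃! ψ : M ⟶ M', α ≫ (pushforward g).map ψ = φ ≫ α' :=
  hα.existsUnique_desc _

/-- every module downstairs is a pushforward, for `g` an isomorphism -/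
noncomputable def pushforwardInvIso (g : Y ⟶ Z) [IsIso g] (P : Z.Modules) :
    (pushforward g).obj ((pushforward (inv g)).obj P) ≅ P :=
  (pushforwardComp (inv g) g).app P ≪≫ (pushforwardCongr (IsIso.inv_hom_id g)).app P ≪≫
    (pushforwardId Z).app P

/-- over an isomorphism of schemes, cartesian = isomorphism -/
theorem isCart_iff_isIso_of_isIso [IsIso g] (α : L ⟶ (pushforward g).obj M) :
    IsCart g α ↔ IsIso α := by
  rw [isCart_iff_bijective]
  constructor
  · intro h
    rw [isIso_iff_coyoneda_map_bijective]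
    intro P
    have h1 := h ((pushforward (inv g)).obj P)
    have h2 : (fun ψ : (pushforward g).obj M ⟶ P => α ≫ ψ) =
        (fun γ : L ⟶ (pushforward g).obj ((pushforward (inv g)).obj P) =>
            γ ≫ (pushforwardInvIso g P).hom) ∘
          (fun φ : M ⟶ (pushforward (inv g)).obj P => α ≫ (pushforward g).map φ) ∘
          (fun ψ : (pushforward g).obj M ⟶ P =>
            (pushforward g).preimage (ψ ≫ (pushforwardInvIso g P).inv)) := by
      funext ψ
      simp
    rw [h2]
    refine Function.Bijective.comp ?_ (Function.Bijective.comp h1 ?_)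
    · exact ⟨fun a b hab => (cancel_mono _).mp hab,
        fun c => ⟨c ≫ (pushforwardInvIso g P).inv, by simp⟩⟩
    · refine ⟨fun a b hab => ?_, fun c => ⟨(pushforward g).map c ≫ (pushforwardInvIso g P).hom, ?_⟩⟩
      · have := congrArg (pushforward g).map hab
        simp only [Functor.map_preimage] at this
        exact (cancel_mono _).mp this
      · simp
  · intro h M'
    refine ⟨fun a b hab => ?_, fun c => ⟨(pushforward g).preimage (inv α ≫ c), by simp⟩⟩
    exact (pushforward g).map_injective ((cancel_epi α).mp hab)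

end cart

end Fermat.Agent.S25
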