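import Fermat.Agent.S25.S.Cart

/-!
# S25 / scheme side / T1c : cartesian morphisms over open immersions, locality
-/
set_option autoImplicit false
universe u
open CategoryTheory CategoryTheory.Limits AlgebraicGeometry AlgebraicGeometry.Scheme.Modules

namespace Fermat.Agent.S25

variable {W X Y Z : Scheme.{u}}

/-! ### T1c : open immersions, locality -/
section openImm
variable {g : Y ⟶ Z} {L L' : Z.Modules} {M : Y.Modules}

/-- the universal property characterisation of `IsCart`, for an arbitrary left adjoint -/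
theorem isIso_homEquiv_symm_iff_bijective {F : Z.Modules ⥤ Y.Modules} (adj : F ⊣ pushforward g)
    (α : L ⟶ (pushforward g).obj M) :
    IsIso ((adj.homEquiv L M).symm α) ↔ ∀ M' : Y.Modules,
      Function.Bijective (fun φ : M ⟶ M' => α ≫ (pushforward g).map φ) := by
  rw [isIso_iff_coyoneda_map_bijective]
  refine forall_congr' fun M' => ?_
  have h : (fun φ : M ⟶ M' => α ≫ (pushforward g).map φ) =
      (adj.homEquiv L M') ∘ (fun φ : M ⟶ M' => (adj.homEquiv L M).symm α ≫ φ) := by
    funext φ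
    simp [Adjunction.homEquiv_naturality_right]
  rw [h]
  exact (Equiv.comp_bijective _ _).symm

theorem isCart_iff_isIso_restrict [IsOpenImmersion g] (α : L ⟶ (pushforward g).obj M) :
    IsCart g α ↔ IsIso (((restrictAdjunction g).homEquiv L M).symm α) := by
  rw [isCart_iff_bijective, isIso_homEquiv_symm_iff_bijective]

theorem isCart_restrict_unit (g : Y ⟶ Z) [IsOpenImmersion g] (L : Z.Modules) :
    IsCart g ((restrictAdjunction g).unit.app L) := by
  rw [isCart_iff_isIso_restrict]
  have h : ((restrictAdjunction g).homEquiv L _).symm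
      ((restrictAdjunction g).unit.app L) = 𝟙 _ := by
    rw [Equiv.symm_apply_eq, Adjunction.homEquiv_id]
  change IsIso (((restrictAdjunction g).homEquiv L _).symm ((restrictAdjunction g).unit.app L))
  rw [h]
  infer_instance

theorem isCart_iff_isIso_restrictFunctor_map [IsOpenImmersion g] (α : L ⟶ (pushforward g).obj M) :
    IsCart g α ↔ IsIso ((restrictFunctor g).map α) := by
  rw [isCart_iff_isIso_restrict, Adjunction.homEquiv_counit]
  exact isIso_comp_right_iff _ _

theorem restrictFunctor_map_app [IsOpenImmersion g] (φ : L ⟶ L') (V : Y.Opens) :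
    ((restrictFunctor g).map φ).app V = φ.app (g ''ᵁ V) := rfl

theorem isIso_restrictFunctor_map_iff [IsOpenImmersion g] (φ : L ⟶ L') :
    IsIso ((restrictFunctor g).map φ) ↔ ∀ U : Z.Opens, U ≤ g.opensRange → IsIso (φ.app U) := by
  rw [Hom.isIso_iff_isIso_app]
  constructor
  · intro h U hU
    have hU' : g ''ᵁ g ⁻¹ᵁ U = U := by
      rw [Scheme.Hom.image_preimage_eq_opensRange_inf]
      exact inf_eq_right.mpr hU
    have h1 : IsIso (φ.app (g ''ᵁ g ⁻¹ᵁ U)) := h (g ⁻¹ᵁ U)
    rw [hU'] at h1
    exact h1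
  · intro h V
    exact h _ (g.image_le_opensRange V)

/-- sections level criterion -/
theorem isCart_iff_isIso_app [IsOpenImmersion g] (α : L ⟶ (pushforward g).obj M) :
    IsCart g α ↔ ∀ U : Z.Opens, U ≤ g.opensRange → IsIso (α.app U) := by
  rw [isCart_iff_isIso_restrictFunctor_map, isIso_restrictFunctor_map_iff]

/-- being an isomorphism is local -/
theorem isIso_of_cover {ι : Type*} {V : ι → Scheme.{u}} (j : ∀ i, V i ⟶ Z)
    [∀ i, IsOpenImmersion (j i)] (hj : ∀ z : Z, ∃ i, z ∈ Set.range (j i).base)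
    (φ : L ⟶ L') (h : ∀ i, IsIso ((restrictFunctor (j i)).map φ)) : IsIso φ := by
  rw [← isIso_iff_of_reflects_iso _ (toPresheaf Z)]
  let F : TopCat.Sheaf Ab Z := ⟨L.presheaf, L.isSheaf⟩
  let G : TopCat.Sheaf Ab Z := ⟨L'.presheaf, L'.isSheaf⟩
  let f : F ⟶ G := ⟨φ.mapPresheaf⟩
  have hs : ∀ z : Z, IsIso ((TopCat.Presheaf.stalkFunctor Ab z).map f.1) := by
    intro z
    obtain ⟨i, y, rfl⟩ := hj z
    have nat := (restrictStalkNatIso (j i) y).hom.naturality φ
    have h1 : IsIso ((restrictFunctor (j i) ⋙ toPresheaf _ ⋙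
        TopCat.Presheaf.stalkFunctor _ y).map φ) := by
      have := h i
      simp only [Functor.comp_map]
      infer_instance
    have h2 : IsIso ((toPresheaf _ ⋙ TopCat.Presheaf.stalkFunctor _ ((j i) y)).map φ) := by
      have h3 : (toPresheaf _ ⋙ TopCat.Presheaf.stalkFunctor _ ((j i) y)).map φ =
          (restrictStalkNatIso (j i) y).inv.app L ≫ ((restrictFunctor (j i) ⋙ toPresheaf _ ⋙
        TopCat.Presheaf.stalkFunctor _ y).map φ) ≫ (restrictStalkNatIso (j i) y).hom.app L' := by
        rw [nat, Iso.inv_hom_id_app_assoc]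
      rw [h3]
      infer_instance
    exact h2
  have := TopCat.Presheaf.isIso_of_stalkFunctor_map_iso f
  exact (TopCat.Sheaf.forget Ab Z).map_isIso f

/-- being an isomorphism is local (cartesian form) -/
theorem isIso_of_cover_cart {ι : Type*} {V : ι → Scheme.{u}} (j : ∀ i, V i ⟶ Z)
    [∀ i, IsOpenImmersion (j i)] (hj : ∀ z : Z, ∃ i, z ∈ Set.range (j i).base)
    (φ : L ⟶ L') (N : ∀ i, (V i).Modules) (a : ∀ i, L' ⟶ (pushforward (j i)).obj (N i))
    (ha : ∀ i, IsCart (j i) (a i)) (h : ∀ i, IsCart (j i) (φ ≫ a i)) : IsIso φ := by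
  refine isIso_of_cover j hj φ fun i => ?_
  rw [isIso_restrictFunctor_map_iff]
  intro U hU
  have h1 := (isCart_iff_isIso_app _).mp (ha i) U hU
  have h2 := (isCart_iff_isIso_app _).mp (h i) U hU
  rw [Hom.comp_app] at h2
  exact IsIso.of_isIso_comp_right _ ((a i).app U)

/-- being cartesian is local on the source -/
theorem isCart_of_cover {ι : Type*} {V : ι → Scheme.{u}} (j : ∀ i, V i ⟶ Y)
    [∀ i, IsOpenImmersion (j i)] (hj : ∀ y : Y, ∃ i, y ∈ Set.range (j i).base)
    (α : L ⟶ (pushforward g).obj M) (N : ∀ i, (V i).Modules)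
    (b : ∀ i, M ⟶ (pushforward (j i)).obj (N i)) (hb : ∀ i, IsCart (j i) (b i))
    (h : ∀ i, IsCart (j i ≫ g) (cComp α (b i))) : IsCart g α := by
  unfold IsCart
  refine isIso_of_cover_cart j hj _ N b hb fun i => ?_
  refine IsCart.of_comp (isCart_unit g L) ?_
  rw [← cComp_mid]
  have h1 : (pullbackPushforwardAdjunction g).unit.app L ≫ (pushforward g).map
      (((pullbackPushforwardAdjunction g).homEquiv L M).symm α) = α := by
    have h2 := (pullbackPushforwardAdjunction g).homEquiv_unit (X := L) (Y := M)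
      (f := ((pullbackPushforwardAdjunction g).homEquiv L M).symm α)
    rw [Equiv.apply_symm_apply] at h2
    exact h2.symm
  rw [h1]
  exact h i

/-- morphisms into a module are determined locally -/
theorem hom_ext_of_cover {ι : Type*} {V : ι → Scheme.{u}} (j : ∀ i, V i ⟶ Z)
    [∀ i, IsOpenImmersion (j i)] (hj : ∀ z : Z, ∃ i, z ∈ Set.range (j i).base)
    (N : ∀ i, (V i).Modules) (a : ∀ i, L' ⟶ (pushforward (j i)).obj (N i))
    (ha : ∀ i, IsCart (j i) (a i)) (φ ψ : L ⟶ L') (h : ∀ i, φ ≫ a i = ψ ≫ a i) : φ = ψ := by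
  have key : ∀ i (U : Z.Opens), U ≤ (j i).opensRange → φ.app U = ψ.app U := by
    intro i U hU
    have h1 := (isCart_iff_isIso_app _).mp (ha i) U hU
    have h2 := congrArg (fun χ => Hom.app χ U) (h i)
    simp only [Hom.comp_app] at h2
    exact (cancel_mono _).mp h2
  ext U s
  refine TopCat.Sheaf.eq_of_locally_eq' ⟨L'.presheaf, L'.isSheaf⟩
    (fun i => U ⊓ (j i).opensRange) U (fun i => homOfLE inf_le_left) ?_ _ _ fun i => ?_
  · intro z hz
    obtain ⟨i, hi⟩ := hj z
    exact TopologicalSpace.Opens.mem_iSup.mpr ⟨i, hz, hi⟩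
  · have n1 := φ.mapPresheaf.naturality (homOfLE (inf_le_left : U ⊓ (j i).opensRange ≤ U)).op
    have n2 := ψ.mapPresheaf.naturality (homOfLE (inf_le_left : U ⊓ (j i).opensRange ≤ U)).op
    have e1 := congrArg (fun χ => χ s) n1
    have e2 := congrArg (fun χ => χ s) n2
    simp only [mapPresheaf_app] at e1 e2
    rw [key i _ inf_le_right] at e1
    exact e1.symm.trans e2

end openImm

end Fermat.Agent.S25
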