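import Fermat.Agent.S25.S.Unit
import Fermat.Agent.S25.S.CartOpen

/-!
# S25 / scheme side / T4c : invertible modules
-/
set_option autoImplicit false
universe u
open CategoryTheory CategoryTheory.Limits AlgebraicGeometry AlgebraicGeometry.Scheme.Modules

namespace Fermat.Agent.S25

variable {X Y Z : Scheme.{u}}

/-! ### T4c : invertible modules -/

theorem IsInvertible.of_iso {L L' : X.Modules} (e : L ≅ L') (h : Scheme.Modules.IsInvertible L) :
    Scheme.Modules.IsInvertible L' := by
  refine ⟨fun x => ?_⟩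
  obtain ⟨U, hxU, ⟨eU⟩⟩ := h.1 x
  exact ⟨U, hxU, ⟨(Scheme.Modules.pullback U.ι).mapIso e.symm ≪≫ eU⟩⟩

theorem IsInvertible.of_isCart {f : X ⟶ Y} {L : Y.Modules} {M : X.Modules}
    {α : L ⟶ (pushforward f).obj M} (hα : IsCart f α) (h : Scheme.Modules.IsInvertible L) :
    Scheme.Modules.IsInvertible M := by
  unfold IsCart at hα
  exact IsInvertible.of_iso (asIso (((pullbackPushforwardAdjunction f).homEquiv L M).symm α))
    (h.pullback f)

/-- invertibility is local -/
theorem IsInvertible.of_cover {ι : Type*} {V : ι → Scheme.{u}} (j : ∀ i, V i ⟶ Y)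
    [∀ i, IsOpenImmersion (j i)] (hj : ∀ y : Y, ∃ i, y ∈ Set.range (j i).base)
    (L : Y.Modules) (N : ∀ i, (V i).Modules) (a : ∀ i, L ⟶ (pushforward (j i)).obj (N i))
    (ha : ∀ i, IsCart (j i) (a i)) (h : ∀ i, Scheme.Modules.IsInvertible (N i)) :
    Scheme.Modules.IsInvertible L := by
  refine ⟨fun y => ?_⟩
  obtain ⟨i, v, rfl⟩ := hj y
  obtain ⟨U, hvU, ⟨eU⟩⟩ := (h i).1 v
  refine ⟨(j i) ''ᵁ U, ⟨v, hvU, rfl⟩, ⟨?_⟩⟩
  have hai := ha i
  unfold IsCart at hai
  let e1 : (Scheme.Modules.pullback (j i)).obj L ≅ N i :=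
    asIso (((pullbackPushforwardAdjunction (j i)).homEquiv L (N i)).symm (a i))
  have hfact : ((j i) ''ᵁ U).ι = ((j i).isoImage U).inv ≫ U.ι ≫ j i :=
    ((j i).isoImage_inv_ι U).symm
  exact
    (Scheme.Modules.pullbackCongr hfact).app L ≪≫
    ((Scheme.Modules.pullbackComp _ _).app L).symm ≪≫
    (Scheme.Modules.pullback ((j i).isoImage U).inv).mapIso
      (((Scheme.Modules.pullbackComp _ _).app L).symm ≪≫
        (Scheme.Modules.pullback U.ι).mapIso e1 ≪≫ eU) ≪≫
    Scheme.Modules.pullbackUnitIso _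

theorem isQuasicoherent_OO (X : Scheme.{u}) : (OO X).IsQuasicoherent := by
  have h : (SheafOfModules.free (R := X.ringCatSheaf) PUnit.{u+1}).IsQuasicoherent := inferInstance
  exact (SheafOfModules.isQuasicoherent X.ringCatSheaf).prop_of_iso
    (coproductUniqueIso (fun _ : PUnit.{u+1} => SheafOfModules.unit X.ringCatSheaf)) h

/-- a trivialisation over `U` (in terms of `restrict`) gives an isomorphism of the `over`s -/
noncomputable def overIsoOfRestrictIso {L L' : X.Modules} (U : X.Opens)
    (e : (restrictFunctor U.ι).obj L ≅ (restrictFunctor U.ι).obj L') :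
    SheafOfModules.over L U ≅ SheafOfModules.over L' U :=
  (overEquiv U).fullyFaithfulFunctor.preimageIso
    ((overFunctorEquiv U).app L ≪≫ e ≪≫ ((overFunctorEquiv U).app L').symm)

theorem IsInvertible.isQuasicoherent {L : X.Modules} (h : Scheme.Modules.IsInvertible L) :
    L.IsQuasicoherent := by
  choose U hxU hU using h.1
  have hq : ∀ x, (SheafOfModules.over L (U x)).IsQuasicoherent := by
    intro x
    have h1 : (SheafOfModules.over (OO X) (U x)).IsQuasicoherent := by
      have := isQuasicoherent_OO X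
      exact SheafOfModules.isQuasicoherent_over (OO X) (U x)
    refine (SheafOfModules.isQuasicoherent (X.ringCatSheaf.over (U x))).prop_of_iso
      (overIsoOfRestrictIso (L := OO X) (L' := L) (U x) ?_) h1
    exact restrictUnitIso _ ≪≫ (hU x).some.symm ≪≫ ((restrictFunctorIsoPullback _).app L).symm
  refine SheafOfModules.IsQuasicoherent.of_coversTop L U ?_
  rw [Opens.coversTop_iff]
  exact TopologicalSpace.Opens.ext (Set.eq_univ_of_forall fun x =>
    TopologicalSpace.Opens.mem_iSup.mpr ⟨x, hxU x⟩)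

end Fermat.Agent.S25
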