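import Fermat.Agent.S25.S.Rig
import Fermat.Agent.S25.S.Glue
import Fermat.Agent.S25.S.Inv
import Fermat.Agent.S25.S.CEq

/-!
# S25 / scheme side / M1 : gluing two rigidified line bundles
-/
set_option autoImplicit false
universe u
open CategoryTheory CategoryTheory.Limits AlgebraicGeometry AlgebraicGeometry.RelPicard
  NeronModelInfra GoodReductionJacobian TensorProduct AlgebraicGeometry.Scheme.Modules

namespace Fermat.Agent.S25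

/-- the structure sheaf is glued from the structure sheaves of the charts: the datum -/
noncomputable def glueDatumOO {T : Scheme.{u}} (𝒱 : Cover₂ T) : GlueDatum 𝒱 where
  L₀ := OO _
  L₁ := OO _
  L₀₁ := OO _
  r₀ := unitMap 𝒱.p₀
  r₁ := unitMap 𝒱.p₁
  cart₀ := isCart_unitMap _
  cart₁ := isCart_unitMap _

/-- the structure sheaf is glued from the structure sheaves of the charts -/
noncomputable def isGlueOO {T : Scheme.{u}} (𝒱 : Cover₂ T) : IsGlue (glueDatumOO 𝒱) (OO T) where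
  a₀ := unitMap 𝒱.j₀
  a₁ := unitMap 𝒱.j₁
  cart₀ := isCart_unitMap _
  cart₁ := isCart_unitMap _
  compat := by
    show cCast _ (cComp (unitMap 𝒱.j₀) (unitMap 𝒱.p₀)) = cComp (unitMap 𝒱.j₁) (unitMap 𝒱.p₁)
    rw [cComp_unitMap, cComp_unitMap, cCast_unitMap]

/-- a morphism which becomes cartesian on the two charts is an isomorphism -/
theorem isIso_of_cover₂ {T : Scheme.{u}} (𝒱 : Cover₂ T) {N N' : T.Modules} (β : N ⟶ N')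
    {N₀ : 𝒱.Y₀.Modules} {N₁ : 𝒱.Y₁.Modules} (a₀ : N' ⟶ (pushforward 𝒱.j₀).obj N₀)
    (a₁ : N' ⟶ (pushforward 𝒱.j₁).obj N₁) (h₀ : IsCart _ a₀) (h₁ : IsCart _ a₁)
    (h₀' : IsCart _ (β ≫ a₀)) (h₁' : IsCart _ (β ≫ a₁)) : IsIso β := by
  let Nb : ∀ b, (GlueAux.chart 𝒱 b).Modules := fun b => match b with
    | false => N₀
    | true => N₁
  let ab : ∀ b, N' ⟶ (pushforward (GlueAux.chartMap 𝒱 b)).obj (Nb b) := fun b => match b with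
    | false => a₀
    | true => a₁
  refine isIso_of_cover_cart (GlueAux.chartMap 𝒱) (GlueAux.chartMap_cover 𝒱) β Nb ab ?_ ?_
  · rintro (_ | _)
    · exact h₀
    · exact h₁
  · rintro (_ | _)
    · exact h₀'
    · exact h₁'


/-- **abstract form of E3**: gluing two modules with cartesian maps to `O` along sections. -/
theorem exists_glue_rigidified {Y T : Scheme.{u}} (𝒰 : Cover₂ Y) (𝒱 : Cover₂ T)
    (s : T ⟶ Y) (s₀ : 𝒱.Y₀ ⟶ 𝒰.Y₀) (s₁ : 𝒱.Y₁ ⟶ 𝒰.Y₁) (s₀₁ : 𝒱.Y₀₁ ⟶ 𝒰.Y₀₁)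
    (π : 𝒰.Y₀₁ ⟶ 𝒱.Y₀₁)
    (hs₀ : s₀ ≫ 𝒰.j₀ = 𝒱.j₀ ≫ s) (hs₁ : s₁ ≫ 𝒰.j₁ = 𝒱.j₁ ≫ s)
    (hp₀ : s₀₁ ≫ 𝒰.p₀ = 𝒱.p₀ ≫ s₀) (hp₁ : s₀₁ ≫ 𝒰.p₁ = 𝒱.p₁ ≫ s₁) (hπ : s₀₁ ≫ π = 𝟙 _)
    (L₀ : 𝒰.Y₀.Modules) (L₁ : 𝒰.Y₁.Modules) (L₀₁ : 𝒰.Y₀₁.Modules)
    (r₀ : L₀ ⟶ (pushforward 𝒰.p₀).obj L₀₁) (r₁ : L₁ ⟶ (pushforward 𝒰.p₁).obj L₀₁)
    (hr₀ : IsCart _ r₀) (hr₁ : IsCart _ r₁)
    (ρ₀ : L₀ ⟶ (pushforward s₀).obj (OO _)) (ρ₁ : L₁ ⟶ (pushforward s₁).obj (OO _))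
    (hρ₀ : IsCart _ ρ₀) (hρ₁ : IsCart _ ρ₁) :
    ∃ (L : Y.Modules) (a₀ : L ⟶ (pushforward 𝒰.j₀).obj L₀) (a₁ : L ⟶ (pushforward 𝒰.j₁).obj L₁)
      (ρ : L ⟶ (pushforward s).obj (OO T)), IsCart _ a₀ ∧ IsCart _ a₁ ∧ IsCart _ ρ := by
  -- the induced rigidification on the overlap
  obtain ⟨ρ₀₁, hρ₀₁, -⟩ := hr₀.existsUnique_fac (f := s₀₁)
    (cCast hp₀.symm (cComp ρ₀ (unitMap 𝒱.p₀)))
  have cρ₀₁ : IsCart _ ρ₀₁ := by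
    apply hr₀.of_comp
    rw [hρ₀₁, isCart_cCast_iff]
    exact hρ₀.comp (isCart_unitMap _)
  -- the discrepancy unit
  have hA : IsCart _ (cComp r₁ ρ₀₁) := hr₁.comp cρ₀₁
  have hB : IsCart _ (cCast hp₁.symm (cComp ρ₁ (unitMap 𝒱.p₁))) := by
    rw [isCart_cCast_iff]
    exact hρ₁.comp (isCart_unitMap _)
  obtain ⟨a, ha, hab⟩ := IsCart.exists_unit_of_OO hA hB
  -- rescale
  have hiso : IsIso (mulEnd L₀₁ (π.appTop a)) := isIso_mulEnd _ (ha.map π.appTop.hom)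
  set r₁' : L₁ ⟶ (pushforward 𝒰.p₁).obj L₀₁ :=
    r₁ ≫ (pushforward 𝒰.p₁).map (mulEnd L₀₁ (π.appTop a)) with hr₁'def
  have hr₁' : IsCart _ r₁' := (isCart_comp_iso_iff r₁ (asIso (mulEnd L₀₁ (π.appTop a)))).mpr hr₁
  have key : cComp r₁' ρ₀₁ = cCast hp₁.symm (cComp ρ₁ (unitMap 𝒱.p₁)) := by
    rw [hr₁'def, cComp_mid, mulEnd_comp, mulEnd_pushforward, ← cComp_comp, ← hab]
    congr 3
    rw [← ConcreteCategory.comp_apply, ← Scheme.Hom.comp_appTop, hπ]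
    simp
  -- glue
  let D : GlueDatum 𝒰 :=
    { L₀ := L₀, L₁ := L₁, L₀₁ := L₀₁, r₀ := r₀, r₁ := r₁', cart₀ := hr₀, cart₁ := hr₁' }
  obtain ⟨L, ⟨G⟩⟩ := D.exists_isGlue
  have Gcompat : cCast 𝒰.isPullback.w (cComp G.a₀ r₀) = cComp G.a₁ r₁' := G.compat
  have ca₀ : IsCart 𝒰.j₀ (G.a₀ : L ⟶ (pushforward 𝒰.j₀).obj L₀) := G.cart₀
  have ca₁ : IsCart 𝒰.j₁ (G.a₁ : L ⟶ (pushforward 𝒰.j₁).obj L₁) := G.cart₁
  generalize (G.a₀ : L ⟶ (pushforward 𝒰.j₀).obj L₀) = a₀ at Gcompat ca₀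
  generalize (G.a₁ : L ⟶ (pushforward 𝒰.j₁).obj L₁) = a₁ at Gcompat ca₁
  -- the pullback of `L` along the section
  obtain ⟨N, η, hη⟩ : ∃ (N : T.Modules) (η : L ⟶ (pushforward s).obj N), IsCart s η :=
    ⟨_, _, isCart_unit s L⟩
  obtain ⟨β₀, hβ₀, -⟩ := hη.existsUnique_fac (f := 𝒱.j₀) (cCast hs₀ (cComp a₀ ρ₀))
  obtain ⟨β₁, hβ₁, -⟩ := hη.existsUnique_fac (f := 𝒱.j₁) (cCast hs₁ (cComp a₁ ρ₁))
  have cβ₀ : IsCart _ β₀ := by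
    apply hη.of_comp
    rw [hβ₀, isCart_cCast_iff]
    exact ca₀.comp hρ₀
  have cβ₁ : IsCart _ β₁ := by
    apply hη.of_comp
    rw [hβ₁, isCart_cCast_iff]
    exact ca₁.comp hρ₁
  -- compatibility on the overlap
  have compat : cCast 𝒱.isPullback.w (cComp β₀ (unitMap 𝒱.p₀)) = cComp β₁ (unitMap 𝒱.p₁) := by
    apply (hη.existsUnique_fac (f := 𝒱.p₁ ≫ 𝒱.j₁) (cComp η (cComp β₁ (unitMap 𝒱.p₁)))).unique _ rfl
    apply CEq.eq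
    -- left hand side
    have f0 : CEq (cComp η β₀) (cComp a₀ ρ₀) := by
      rw [hβ₀]; exact CEq.cast_left _ _
    have f1 : CEq (cComp η β₁) (cComp a₁ ρ₁) := by
      rw [hβ₁]; exact CEq.cast_left _ _
    have e1a : CEq (cComp η (cCast 𝒱.isPullback.w (cComp β₀ (unitMap 𝒱.p₀))))
        (cComp η (cComp β₀ (unitMap 𝒱.p₀))) := CEq.cComp_right η (CEq.cast_left _ _)
    have e1b : CEq (cComp η (cComp β₀ (unitMap 𝒱.p₀))) (cComp (cComp η β₀) (unitMap 𝒱.p₀)) :=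
      CEq.assoc _ _ _
    have e1c : CEq (cComp (cComp η β₀) (unitMap 𝒱.p₀)) (cComp (cComp a₀ ρ₀) (unitMap 𝒱.p₀)) :=
      CEq.cComp_left f0 _
    have e1d : CEq (cComp a₀ (cComp ρ₀ (unitMap 𝒱.p₀))) (cComp (cComp a₀ ρ₀) (unitMap 𝒱.p₀)) :=
      CEq.assoc _ _ _
    have e1 := e1a.trans (e1b.trans (e1c.trans e1d.symm))
    have e2b : CEq (cComp η (cComp β₁ (unitMap 𝒱.p₁))) (cComp (cComp η β₁) (unitMap 𝒱.p₁)) :=
      CEq.assoc _ _ _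
    have e2c : CEq (cComp (cComp η β₁) (unitMap 𝒱.p₁)) (cComp (cComp a₁ ρ₁) (unitMap 𝒱.p₁)) :=
      CEq.cComp_left f1 _
    have e2d : CEq (cComp a₁ (cComp ρ₁ (unitMap 𝒱.p₁))) (cComp (cComp a₁ ρ₁) (unitMap 𝒱.p₁)) :=
      CEq.assoc _ _ _
    have e2 := e2b.trans (e2c.trans e2d.symm)
    have g0 : CEq (cComp ρ₀ (unitMap 𝒱.p₀)) (cComp r₀ ρ₀₁) := by
      rw [hρ₀₁]; exact CEq.cast_right _ _
    have g1 : CEq (cComp ρ₁ (unitMap 𝒱.p₁)) (cComp r₁' ρ₀₁) := by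
      rw [key]; exact CEq.cast_right _ _
    have e3a : CEq (cComp a₀ (cComp ρ₀ (unitMap 𝒱.p₀))) (cComp a₀ (cComp r₀ ρ₀₁)) :=
      CEq.cComp_right a₀ g0
    have e3b : CEq (cComp a₀ (cComp r₀ ρ₀₁)) (cComp (cComp a₀ r₀) ρ₀₁) := CEq.assoc _ _ _
    have e3 := e3a.trans e3b
    have e4a : CEq (cComp a₁ (cComp ρ₁ (unitMap 𝒱.p₁))) (cComp a₁ (cComp r₁' ρ₀₁)) :=
      CEq.cComp_right a₁ g1
    have e4b : CEq (cComp a₁ (cComp r₁' ρ₀₁)) (cComp (cComp a₁ r₁') ρ₀₁) := CEq.assoc _ _ _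
    have e4 := e4a.trans e4b
    have g2 : CEq (cComp a₀ r₀) (cComp a₁ r₁') := by
      rw [← Gcompat]; exact CEq.cast_right _ _
    have e5 : CEq (cComp (cComp a₀ r₀) ρ₀₁) (cComp (cComp a₁ r₁') ρ₀₁) := CEq.cComp_left g2 _
    exact e1.trans (e3.trans (e5.trans (e4.symm.trans e2.symm)))
  obtain ⟨β, ⟨hβ0, hβ1⟩, -⟩ := (isGlueOO 𝒱).existsUnique_lift β₀ β₁ compat
  have hβiso : IsIso β := by
    refine isIso_of_cover₂ 𝒱 β (unitMap 𝒱.j₀) (unitMap 𝒱.j₁) (isCart_unitMap _) (isCart_unitMap _)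
      ?_ ?_
    · have : β ≫ unitMap 𝒱.j₀ = β₀ := hβ0
      rw [this]; exact cβ₀
    · have : β ≫ unitMap 𝒱.j₁ = β₁ := hβ1
      rw [this]; exact cβ₁
  exact ⟨L, a₀, a₁, η ≫ (pushforward s).map β, ca₀, ca₁,
    (isCart_comp_iso_iff η (asIso β)).mpr hη⟩


variable {k : Type u} [Field k] {C : Scheme.{u}} {c : C ⟶ Spec (CommRingCat.of k)}
  {ε : SchemeHomOver (𝟙 (Spec (CommRingCat.of k))) c}

/-- the cover of `T` by two opens -/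
noncomputable def coverOpens {T : Scheme.{u}} (U₁ U₂ : T.Opens) (hU : U₁ ⊔ U₂ = ⊤) : Cover₂ T where
  Y₀ := U₁
  Y₁ := U₂
  Y₀₁ := (U₁ ⊓ U₂ : T.Opens)
  j₀ := U₁.ι
  j₁ := U₂.ι
  p₀ := T.homOfLE inf_le_left
  p₁ := T.homOfLE inf_le_right
  open₀ := inferInstance
  open₁ := inferInstance
  isPullback := isPullback_opens_inf U₁ U₂
  cover := fun y => by
    have hy : y ∈ U₁ ⊔ U₂ := by rw [hU]; trivial
    rcases hy with h | h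
    · left; rw [Scheme.Opens.range_ι]; exact h
    · right; rw [Scheme.Opens.range_ι]; exact h

/-- the cover of `C × T` by `C × U₁`, `C × U₂` -/
noncomputable def coverProd (c : C ⟶ Spec (CommRingCat.of k)) {T : Scheme.{u}}
    (t : T ⟶ Spec (CommRingCat.of k)) (U₁ U₂ : T.Opens) (hU : U₁ ⊔ U₂ = ⊤) :
    Cover₂ (pullback c t) where
  Y₀ := pullback c (U₁.ι ≫ t)
  Y₁ := pullback c (U₂.ι ≫ t)
  Y₀₁ := pullback c ((U₁ ⊓ U₂).ι ≫ t)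
  j₀ := baseChangeSnd c (⟨U₁.ι, rfl⟩ : SchemeHomOver (U₁.ι ≫ t) t)
  j₁ := baseChangeSnd c (⟨U₂.ι, rfl⟩ : SchemeHomOver (U₂.ι ≫ t) t)
  p₀ := baseChangeSnd c (⟨T.homOfLE inf_le_left, by simp⟩ :
          SchemeHomOver ((U₁ ⊓ U₂).ι ≫ t) (U₁.ι ≫ t))
  p₁ := baseChangeSnd c (⟨T.homOfLE inf_le_right, by simp⟩ :
          SchemeHomOver ((U₁ ⊓ U₂).ι ≫ t) (U₂.ι ≫ t))
  open₀ := by
    have : IsOpenImmersion (⟨U₁.ι, rfl⟩ : SchemeHomOver (U₁.ι ≫ t) t).1 :=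
      inferInstanceAs (IsOpenImmersion U₁.ι)
    exact isOpenImmersion_baseChangeSnd _
  open₁ := by
    have : IsOpenImmersion (⟨U₂.ι, rfl⟩ : SchemeHomOver (U₂.ι ≫ t) t).1 :=
      inferInstanceAs (IsOpenImmersion U₂.ι)
    exact isOpenImmersion_baseChangeSnd _
  isPullback := isPullback_baseChangeSnd_of_isPullback _ _ _ _ (isPullback_opens_inf U₁ U₂)
  cover := fun y => by
    rw [range_baseChangeSnd, range_baseChangeSnd]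
    exact (coverOpens U₁ U₂ hU).cover ((pullback.snd c t).base y)

/-- **E3**. Gluing of rigidified line bundles on `C × (U₁ ∪ U₂)`. -/
theorem exists_glue_two {T : Scheme.{u}} (t : T ⟶ Spec (CommRingCat.of k)) (U₁ U₂ : T.Opens)
    (hU : U₁ ⊔ U₂ = ⊤) (M₁ : RigidifiedLineBundle c ε (U₁.ι ≫ t))
    (M₂ : RigidifiedLineBundle c ε (U₂.ι ≫ t))
    (h : Nonempty
      ((M₁.pullbackAlong (⟨T.homOfLE inf_le_left, by simp⟩ :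
          SchemeHomOver ((U₁ ⊓ U₂).ι ≫ t) (U₁.ι ≫ t))).L ≅
        (M₂.pullbackAlong (⟨T.homOfLE inf_le_right, by simp⟩ :
          SchemeHomOver ((U₁ ⊓ U₂).ι ≫ t) (U₂.ι ≫ t))).L)) :
    ∃ M : RigidifiedLineBundle c ε t,
      Nonempty ((M.pullbackAlong (⟨U₁.ι, rfl⟩ : SchemeHomOver (U₁.ι ≫ t) t)).L ≅ M₁.L) ∧
      Nonempty ((M.pullbackAlong (⟨U₂.ι, rfl⟩ : SchemeHomOver (U₂.ι ≫ t) t)).L ≅ M₂.L) := by
  obtain ⟨e⟩ := h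
  obtain ⟨ρ₁, hρ₁⟩ := (nonempty_pullback_iso_iff _ _ _).mp M₁.rigidified
  obtain ⟨ρ₂, hρ₂⟩ := (nonempty_pullback_iso_iff _ _ _).mp M₂.rigidified
  let 𝒰 := coverProd c t U₁ U₂ hU
  let 𝒱 := coverOpens U₁ U₂ hU
  obtain ⟨r₀, hr₀⟩ : ∃ r₀ : M₁.L ⟶ (pushforward 𝒰.p₀).obj ((Scheme.Modules.pullback 𝒰.p₀).obj M₁.L),
      IsCart _ r₀ := ⟨_, isCart_unit _ _⟩
  obtain ⟨r₁, hr₁⟩ : ∃ r₁ : M₂.L ⟶ (pushforward 𝒰.p₁).obj ((Scheme.Modules.pullback 𝒰.p₀).obj M₁.L),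
      IsCart _ r₁ := (nonempty_pullback_iso_iff _ _ _).mp ⟨e.symm⟩
  obtain ⟨L, a₀, a₁, ρ, ha₀, ha₁, hρ⟩ := exists_glue_rigidified 𝒰 𝒱 (rigSection c t ε)
    (rigSection c (U₁.ι ≫ t) ε) (rigSection c (U₂.ι ≫ t) ε) (rigSection c ((U₁ ⊓ U₂).ι ≫ t) ε)
    (pullback.snd c ((U₁ ⊓ U₂).ι ≫ t))
    (rigSection_baseChangeSnd c ε _) (rigSection_baseChangeSnd c ε _)
    (rigSection_baseChangeSnd c ε _) (rigSection_baseChangeSnd c ε _) (rigSection_snd _)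
    M₁.L M₂.L _ r₀ r₁ hr₀ hr₁ ρ₁ ρ₂ hρ₁ hρ₂
  have hinv : Scheme.Modules.IsInvertible L := by
    let Nb : ∀ b, (GlueAux.chart 𝒰 b).Modules := fun b => match b with
      | false => M₁.L
      | true => M₂.L
    let ab : ∀ b, L ⟶ (pushforward (GlueAux.chartMap 𝒰 b)).obj (Nb b) := fun b => match b with
      | false => a₀
      | true => a₁
    refine IsInvertible.of_cover (GlueAux.chartMap 𝒰) (GlueAux.chartMap_cover 𝒰) L Nb ab ?_ ?_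
    · rintro (_ | _)
      · exact ha₀
      · exact ha₁
    · rintro (_ | _)
      · exact M₁.isInvertible
      · exact M₂.isInvertible
  refine ⟨⟨L, hinv, (nonempty_pullback_iso_iff _ _ _).mpr ⟨ρ, hρ⟩⟩, ?_, ?_⟩
  · exact (nonempty_pullback_iso_iff _ _ _).mpr ⟨a₀, ha₀⟩
  · exact (nonempty_pullback_iso_iff _ _ _).mpr ⟨a₁, ha₁⟩

end Fermat.Agent.S25
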