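import Fermat.Agent.S25.SchemeDefs
import Fermat.Agent.S25.ReprDefs

/-!
# S25 / scheme side : the Picard functor cut out by a `SubPicCondition`, as a presheaf on `Over (Spec k)`
-/
set_option autoImplicit false
universe u
open CategoryTheory CategoryTheory.Limits AlgebraicGeometry AlgebraicGeometry.RelPicard
  NeronModelInfra GoodReductionJacobian Opposite

namespace Fermat.Agent.S25

variable {k : Type u} [Field k] {C : Scheme.{u}} {c : C ⟶ Spec (CommRingCat.of k)}
  {ε : SchemeHomOver (𝟙 (Spec (CommRingCat.of k))) c}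

/-- the `S`-scheme `Spec A`. -/
noncomputable abbrev oSpec (k : Type u) [Field k] (A : Type u) [CommRing A] [Algebra k A] :
    Over (Spec (CommRingCat.of k)) := Over.mk (tSpec k A)

/-- the morphism of `S`-schemes induced by a `k`-algebra map. -/
noncomputable def oMap {A A' : Type u} [CommRing A] [Algebra k A] [CommRing A'] [Algebra k A']
    (f : A →ₐ[k] A') : oSpec k A' ⟶ oSpec k A := Over.homMk (homOver f).1 (homOver f).2

/-- A class of rigidified line bundles satisfies the condition `P`. -/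
def ClassMem (P : SubPicCondition c ε) {T : Scheme.{u}} (t : T ⟶ Spec (CommRingCat.of k))
    (x : RigidifiedLineBundle.Classes c ε t) : Prop :=
  ∃ M : RigidifiedLineBundle c ε t, Quotient.mk _ M = x ∧ P.P t M

theorem classMem_mk (P : SubPicCondition c ε) {T : Scheme.{u}} (t : T ⟶ Spec (CommRingCat.of k))
    (M : RigidifiedLineBundle c ε t) :
    ClassMem P t (Quotient.mk _ M) ↔ P.P t M := by
  constructor
  · rintro ⟨M', h, hM'⟩
    exact P.congr t M' M (Quotient.exact h) hM'
  · intro h
    exact ⟨M, rfl, h⟩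

theorem ClassMem.map (P : SubPicCondition c ε) {T T' : Scheme.{u}}
    {t : T ⟶ Spec (CommRingCat.of k)} {t' : T' ⟶ Spec (CommRingCat.of k)}
    (ψ : SchemeHomOver t' t) {x : RigidifiedLineBundle.Classes c ε t} (hx : ClassMem P t x) :
    ClassMem P t' (RigidifiedLineBundle.classesMap ψ x) := by
  obtain ⟨M, rfl, hM⟩ := hx
  exact ⟨M.pullbackAlong ψ, rfl, P.pullback_mem t t' ψ M hM⟩

/-- The subfunctor of the Prelude's `relPicardPresheaf` cut out by `P`. -/
noncomputable def subPic (P : SubPicCondition c ε) :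
    (Over (Spec (CommRingCat.of k)))ᵒᵖ ⥤ Type (u + 1) where
  obj X := {x : (relPicardPresheaf c ε).obj X // ClassMem P X.unop.hom x}
  map {X X'} φ := TypeCat.ofHom fun x =>
    ⟨(relPicardPresheaf c ε).map φ x.1, ClassMem.map P ⟨φ.unop.left, Over.w φ.unop⟩ x.2⟩
  map_id X := TypeCat.homEquiv.injective (funext fun x => Subtype.ext (by
    change (relPicardPresheaf c ε).map (𝟙 X) x.1 = x.1
    rw [(relPicardPresheaf c ε).map_id]; rfl))
  map_comp {X X' X''} φ χ := TypeCat.homEquiv.injective (funext fun x => Subtype.ext (by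
    change (relPicardPresheaf c ε).map (φ ≫ χ) x.1 =
      (relPicardPresheaf c ε).map χ ((relPicardPresheaf c ε).map φ x.1)
    rw [(relPicardPresheaf c ε).map_comp]; rfl))

/-- The class in `subPic P` of a rigidified line bundle satisfying `P`. -/
noncomputable def subPic.mk (P : SubPicCondition c ε) (T : Over (Spec (CommRingCat.of k)))
    (M : RigidifiedLineBundle c ε T.hom) (hM : P.P T.hom M) : (subPic P).obj (op T) :=
  ⟨Quotient.mk _ M, (classMem_mk P T.hom M).2 hM⟩

theorem subPic.exists_rep (P : SubPicCondition c ε) (T : Over (Spec (CommRingCat.of k)))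
    (x : (subPic P).obj (op T)) :
    ∃ (M : RigidifiedLineBundle c ε T.hom) (hM : P.P T.hom M), subPic.mk P T M hM = x := by
  obtain ⟨x, M, rfl, hM⟩ := x
  exact ⟨M, hM, rfl⟩

theorem subPic.mk_eq_mk_iff (P : SubPicCondition c ε) (T : Over (Spec (CommRingCat.of k)))
    (M M' : RigidifiedLineBundle c ε T.hom) (hM : P.P T.hom M) (hM' : P.P T.hom M') :
    subPic.mk P T M hM = subPic.mk P T M' hM' ↔ Nonempty (M.L ≅ M'.L) := by
  constructor
  · intro h
    exact Quotient.exact (congrArg Subtype.val h)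
  · intro h
    exact Subtype.ext (Quotient.sound h)

theorem subPic.map_mk (P : SubPicCondition c ε) {T T' : Over (Spec (CommRingCat.of k))}
    (f : T' ⟶ T) (M : RigidifiedLineBundle c ε T.hom) (hM : P.P T.hom M) :
    (subPic P).map f.op (subPic.mk P T M hM) =
      subPic.mk P T' (M.pullbackAlong ⟨f.left, Over.w f⟩)
        (P.pullback_mem T.hom T'.hom ⟨f.left, Over.w f⟩ M hM) := rfl

/-- **Transfer**: a universal element of `subPic P` gives a `RepresentsRelSubPic`. -/
theorem exists_represents_of_isUniversal (P : SubPicCondition c ε)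
    (J : Over (Spec (CommRingCat.of k))) (ζ : (subPic P).obj (op J))
    (h : IsUniversal (subPic P) J ζ) :
    ∃ (z : Spec (CommRingCat.of k) ⟶ J.left) (hz : z ≫ J.hom = 𝟙 _),
      Nonempty (RepresentsRelSubPic c ε P ⟨J.left, J.hom, z, hz⟩) := by
  obtain ⟨M₀, hM₀, rfl⟩ := subPic.exists_rep P J ζ
  obtain ⟨g₀, hg₀, -⟩ := h (Over.mk (𝟙 _))
    (subPic.mk P (Over.mk (𝟙 _)) (RigidifiedLineBundle.unit _) (P.unit_mem _))
  refine ⟨g₀.left, Over.w g₀, ⟨{ poincare := M₀, poincare_mem := hM₀, univ := ?_, zero := ?_ }⟩⟩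
  · intro T t M hM
    obtain ⟨g, hg, huniq⟩ := h (Over.mk t) (subPic.mk P (Over.mk t) M hM)
    rw [subPic.map_mk, subPic.mk_eq_mk_iff] at hg
    refine ⟨⟨g.left, Over.w g⟩, hg, ?_⟩
    rintro ⟨g', hg'⟩ hiso
    have := huniq (Over.homMk g' hg') (by
      beta_reduce
      rw [subPic.map_mk, subPic.mk_eq_mk_iff]
      exact hiso)
    exact Subtype.ext (congrArg CommaMorphism.left this)
  · rw [subPic.map_mk, subPic.mk_eq_mk_iff] at hg₀
    exact hg₀

/-- `RepresentsRelSubPic` only depends on the predicate. -/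
def RepresentsRelSubPic.congrCut {P P' : SubPicCondition c ε} {D : RelativePic0Designation k c}
    (hPP' : ∀ {T : Scheme.{u}} (t : T ⟶ Spec (CommRingCat.of k)) (M : RigidifiedLineBundle c ε t),
      P.P t M ↔ P'.P t M) (h : RepresentsRelSubPic c ε P D) : RepresentsRelSubPic c ε P' D where
  poincare := h.poincare
  poincare_mem := (hPP' _ _).1 h.poincare_mem
  univ t M hM := h.univ t M ((hPP' _ _).2 hM)
  zero := h.zero

end Fermat.Agent.S25
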