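import Fermat.Agent.S25.S.Sep
import Fermat.Agent.S25.S.Glue2
import Fermat.Agent.S25.S.PicFunctor

/-!
# S25 / scheme side / M1 : the Picard functor cut out by a local condition is a "sheaf₂"
-/
set_option autoImplicit false
universe u
open CategoryTheory CategoryTheory.Limits AlgebraicGeometry AlgebraicGeometry.RelPicard
  NeronModelInfra GoodReductionJacobian TensorProduct Opposite

namespace Fermat.Agent.S25

variable {k : Type u} [Field k] [IsAlgClosed k] {C : Scheme.{u}} {c : C ⟶ Spec (CommRingCat.of k)}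
  {ε : SchemeHomOver (𝟙 (Spec (CommRingCat.of k))) c} {Γ : CurveAlg k}

/-- the condition can be checked locally on the base -/
def IsLocalCut (Q : SubPicCondition c ε) : Prop :=
  ∀ {T : Scheme.{u}} (t : T ⟶ Spec (CommRingCat.of k)) (M : RigidifiedLineBundle c ε t)
    {ι : Type u} (U : ι → T.Opens), ⨆ i, U i = ⊤ →
    (∀ i, Q.P ((U i).ι ≫ t) (M.pullbackAlong (⟨(U i).ι, rfl⟩ : SchemeHomOver ((U i).ι ≫ t) t))) →
    Q.P t M

/-- **M1**. -/
theorem isZariskiSheaf₂_subPic (P : Presentation c ε Γ) (hΓ : Γ.IsGood) (Q : SubPicCondition c ε)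
    (hQ : IsLocalCut Q) : IsZariskiSheaf₂ (subPic Q) := by
  constructor
  · intro T ι U hU η η' h
    obtain ⟨M, hM, rfl⟩ := subPic.exists_rep Q T η
    obtain ⟨M', hM', rfl⟩ := subPic.exists_rep Q T η'
    rw [subPic.mk_eq_mk_iff]
    refine iso_of_locally_iso P hΓ T.hom M M' U hU fun i => ?_
    have hi := h i
    rw [subPic.map_mk, subPic.map_mk, subPic.mk_eq_mk_iff] at hi
    exact hi
  · intro T U₁ U₂ hU η₁ η₂ h
    obtain ⟨M₁, hM₁, rfl⟩ := subPic.exists_rep Q _ η₁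
    obtain ⟨M₂, hM₂, rfl⟩ := subPic.exists_rep Q _ η₂
    rw [subPic.map_mk, subPic.map_mk, subPic.mk_eq_mk_iff] at h
    obtain ⟨M, ⟨e₁⟩, ⟨e₂⟩⟩ := exists_glue_two T.hom U₁ U₂ hU M₁ M₂ h
    have hM : Q.P T.hom M := by
      refine hQ T.hom M (ι := ULift Bool) (fun i => if i.down then U₁ else U₂) ?_ ?_
      · rw [eq_top_iff, ← hU]
        exact sup_le (le_iSup_of_le ⟨true⟩ (by simp)) (le_iSup_of_le ⟨false⟩ (by simp))
      · rintro ⟨_ | _⟩
        · exact Q.congr _ _ _ ⟨e₂.symm⟩ hM₂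
        · exact Q.congr _ _ _ ⟨e₁.symm⟩ hM₁
    refine ⟨subPic.mk Q T M hM, ?_, ?_⟩
    · rw [subPic.map_mk, subPic.mk_eq_mk_iff]
      exact ⟨e₁⟩
    · rw [subPic.map_mk, subPic.mk_eq_mk_iff]
      exact ⟨e₂⟩

end Fermat.Agent.S25
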