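import Fermat.Agent.S25.S.Pic
import Fermat.Agent.S25.S.Sheaf
import Fermat.Agent.S25.AlgInterface

/-!
# S25 / scheme side : the degree-0 cut, comparison `G(Spec A) ≃ G_alg(A)`
-/
set_option autoImplicit false
set_option linter.unusedSectionVars false
universe u
open CategoryTheory CategoryTheory.Limits AlgebraicGeometry AlgebraicGeometry.RelPicard
  NeronModelInfra GoodReductionJacobian Opposite

namespace Fermat.Agent.S25

variable {k : Type u} [Field k] {C : Scheme.{u}} {c : C ⟶ Spec (CommRingCat.of k)}
  {ε : SchemeHomOver (𝟙 (Spec (CommRingCat.of k))) c} {Γ : CurveAlg k}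

/-- the fibre of a module on `C × T` at a field valued point `s : Spec K → T`. -/
noncomputable def fibreMod {T : Scheme.{u}} {t : T ⟶ Spec (CommRingCat.of k)}
    (L : (pullback c t).Modules) (K : Type u) [Field K] [Algebra k K]
    (s : SchemeHomOver (tSpec k K) t) : (pullback c (tSpec k K)).Modules :=
  (Scheme.Modules.pullback (baseChangeSnd c s)).obj L

/-- the fibre of a pullback is the fibre at the composite point -/
theorem nonempty_fibreMod_pullback_iso {T T' : Scheme.{u}} {t : T ⟶ Spec (CommRingCat.of k)}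
    {t' : T' ⟶ Spec (CommRingCat.of k)} (ψ : SchemeHomOver t' t) (L : (pullback c t).Modules)
    (K : Type u) [Field K] [Algebra k K] (s : SchemeHomOver (tSpec k K) t') :
    Nonempty (fibreMod ((Scheme.Modules.pullback (baseChangeSnd c ψ)).obj L) K s ≅
      fibreMod L K (postComp ψ s)) :=
  ⟨(Scheme.Modules.pullbackComp _ _).app L ≪≫
    (Scheme.Modules.pullbackCongr (baseChangeSnd_comp c ψ s)).app L⟩

/-- every morphism `Spec A' ⟶ Spec A` over `Spec k` comes from an algebra map -/
theorem exists_homOver_eq {A A' : Type u} [CommRing A] [Algebra k A] [CommRing A'] [Algebra k A']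
    (s : SchemeHomOver (tSpec k A') (tSpec k A)) : ∃ f : A →ₐ[k] A', homOver f = s := by
  obtain ⟨s, hs⟩ := s
  have h1 : (Spec.preimage s).hom.comp (algebraMap k A) = algebraMap k A' := by
    have h2 : Spec.map (CommRingCat.ofHom (algebraMap k A) ≫ Spec.preimage s) =
        Spec.map (CommRingCat.ofHom (algebraMap k A')) := by
      rw [Spec.map_comp, Spec.map_preimage]
      exact hs
    have h3 := Spec.map_injective h2
    exact congrArg CommRingCat.Hom.hom h3
  refine ⟨{ (Spec.preimage s).hom with commutes' := fun a => DFunLike.congr_fun h1 a }, ?_⟩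
  apply Subtype.ext
  change Spec.map (CommRingCat.ofHom (Spec.preimage s).hom) = s
  simp

/-- a field valued point factors through a member of an open cover -/
theorem exists_fac_of_iSup_eq_top {T : Scheme.{u}} (t : T ⟶ Spec (CommRingCat.of k))
    {ι : Type u} (U : ι → T.Opens) (hU : ⨆ i, U i = ⊤) (K : Type u) [Field K] [Algebra k K]
    (s : SchemeHomOver (tSpec k K) t) :
    ∃ (i : ι) (s' : SchemeHomOver (tSpec k K) ((U i).ι ≫ t)),
      postComp (⟨(U i).ι, rfl⟩ : SchemeHomOver ((U i).ι ≫ t) t) s' = s := by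
  let x₀ : Spec (CommRingCat.of K) := (default : PrimeSpectrum K)
  have hx : s.1.base x₀ ∈ ⨆ i, U i := by rw [hU]; trivial
  obtain ⟨i, hi⟩ := TopologicalSpace.Opens.mem_iSup.mp hx
  have hr : Set.range s.1.base ⊆ Set.range (U i).ι.base := by
    rintro _ ⟨y, rfl⟩
    rw [Scheme.Opens.range_ι]
    have hy : y = x₀ := Subsingleton.elim (α := PrimeSpectrum K) _ _
    rw [hy]
    exact hi
  have hs' : IsOpenImmersion.lift (U i).ι s.1 hr ≫ (U i).ι = s.1 := IsOpenImmersion.lift_fac _ _ _
  exact ⟨i, ⟨IsOpenImmersion.lift (U i).ι s.1 hr, by rw [← Category.assoc, hs', s.2]⟩,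
    Subtype.ext hs'⟩

variable [hΓ : Fact Γ.IsGood] (P : Presentation c ε Γ)

/-- fibrewise of degree `0` (scheme level). -/
def Deg0Sch {T : Scheme.{u}} (t : T ⟶ Spec (CommRingCat.of k))
    (L : (pullback c t).Modules) (hL : Scheme.Modules.IsInvertible L) : Prop :=
  ∀ (K : Type u) [Field K] [Algebra k K] (s : SchemeHomOver (tSpec k K) t),
    PicAlg.deg (picClass P (fibreMod L K s) (hL.pullback _)) = 0

theorem Deg0Sch.congr {T : Scheme.{u}} {t : T ⟶ Spec (CommRingCat.of k)}
    {L L' : (pullback c t).Modules} {hL : Scheme.Modules.IsInvertible L}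
    (hL' : Scheme.Modules.IsInvertible L') (e : Nonempty (L ≅ L')) (h : Deg0Sch P t L hL) :
    Deg0Sch P t L' hL' := by
  intro K _ _ s
  rw [← h K s]
  congr 1
  exact (picClass_eq_iff P _ _ _ _).mpr
    ⟨(Scheme.Modules.pullback (baseChangeSnd c s)).mapIso e.some.symm⟩

theorem deg_picClass_fibreMod_pullback {T T' : Scheme.{u}} {t : T ⟶ Spec (CommRingCat.of k)}
    {t' : T' ⟶ Spec (CommRingCat.of k)} (ψ : SchemeHomOver t' t) (L : (pullback c t).Modules)
    (hL : Scheme.Modules.IsInvertible L)
    (K : Type u) [Field K] [Algebra k K] (s : SchemeHomOver (tSpec k K) t') :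
    picClass P (fibreMod ((Scheme.Modules.pullback (baseChangeSnd c ψ)).obj L) K s)
        ((hL.pullback _).pullback _) =
      picClass P (fibreMod L K (postComp ψ s)) (hL.pullback _) :=
  (picClass_eq_iff P _ _ _ _).mpr (nonempty_fibreMod_pullback_iso ψ L K s)

variable [IsAlgClosed k]

/-- **S-Cut-1**. The degree `0` cut. -/
noncomputable def deg0Cut : SubPicCondition c ε where
  P := fun t M => Deg0Sch P t M.L M.isInvertible
  unit_mem := by
    intro T t K _ _ s
    have h : picClass P (fibreMod (RigidifiedLineBundle.unit (c := c) (ε := ε) t).L K s)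
        ((RigidifiedLineBundle.unit (c := c) (ε := ε) t).isInvertible.pullback _) =
        picClass P (SheafOfModules.unit (pullback c (tSpec k K)).ringCatSheaf)
          (Scheme.Modules.isInvertible_unit _) :=
      (picClass_eq_iff P _ _ _ _).mpr ⟨Scheme.Modules.pullbackUnitIso _⟩
    rw [h, picClass_unit, deg_one]
  congr := fun t M M' e h => Deg0Sch.congr P M'.isInvertible e h
  pullback_mem := by
    intro T T' t t' ψ M h K _ _ s
    exact (congrArg PicAlg.deg (deg_picClass_fibreMod_pullback P ψ M.L M.isInvertible K s)).trans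
      (h K (postComp ψ s))

/-- **S-Cut-1**. -/
theorem isLocalCut_deg0Cut : IsLocalCut (deg0Cut P) := by
  intro T t M ι U hU h K _ _ s
  obtain ⟨i, s'', hs''⟩ := exists_fac_of_iSup_eq_top t U hU K s
  have h1 := h i K s''
  have h2 := deg_picClass_fibreMod_pullback P
    (⟨(U i).ι, rfl⟩ : SchemeHomOver ((U i).ι ≫ t) t) M.L M.isInvertible K s''
  rw [hs''] at h2
  exact (congrArg PicAlg.deg h2).symm.trans h1

/-- **S-Cut-2**. On `Spec A`, degree `0` in the scheme sense is `PicAlg.Deg0`. -/
theorem deg0Sch_iff (A : Type u) [CommRing A] [Algebra k A] (L : (pullback c (tSpec k A)).Modules)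
    (hL : Scheme.Modules.IsInvertible L) :
    Deg0Sch P (tSpec k A) L hL ↔ (picClass P L hL).Deg0 := by
  constructor
  · intro h K _ _ f
    rw [← picClass_pullback]
    exact h K (homOver f)
  · intro h K _ _ s
    obtain ⟨f, rfl⟩ := exists_homOver_eq s
    have := h K f
    rw [← picClass_pullback] at this
    exact this

/-- the class of a point of the scheme-level functor -/
noncomputable def classFun (A : Type u) [CommRing A] [Algebra k A]
    (x : (subPic (deg0Cut P)).obj (op (oSpec k A))) : {n : PicAlg Γ A // n.IsG} :=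
  ⟨picClass P (subPic.exists_rep (deg0Cut P) (oSpec k A) x).choose.L
      (subPic.exists_rep (deg0Cut P) (oSpec k A) x).choose.isInvertible,
    (rigid_picClass_iff P _ _).mpr (subPic.exists_rep (deg0Cut P) (oSpec k A) x).choose.rigidified,
    (deg0Sch_iff P A _ _).mp (subPic.exists_rep (deg0Cut P) (oSpec k A) x).choose_spec.choose⟩

theorem classFun_mk (A : Type u) [CommRing A] [Algebra k A]
    (M : RigidifiedLineBundle c ε (tSpec k A)) (hM : (deg0Cut P).P (tSpec k A) M) :
    (classFun P A (subPic.mk (deg0Cut P) (oSpec k A) M hM)).1 = picClass P M.L M.isInvertible := by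
  have h := (subPic.exists_rep (deg0Cut P) (oSpec k A)
    (subPic.mk (deg0Cut P) (oSpec k A) M hM)).choose_spec.choose_spec
  exact (picClass_eq_iff P _ _ (subPic.exists_rep (deg0Cut P) (oSpec k A)
    (subPic.mk (deg0Cut P) (oSpec k A) M hM)).choose.isInvertible _).mpr
      ((subPic.mk_eq_mk_iff _ _ _ _ _ _).mp h)

theorem classFun_bijective (A : Type u) [CommRing A] [Algebra k A] :
    Function.Bijective (classFun P A) := by
  constructor
  · intro x y hxy
    obtain ⟨M, hM, rfl⟩ := subPic.exists_rep (deg0Cut P) (oSpec k A) x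
    obtain ⟨M', hM', rfl⟩ := subPic.exists_rep (deg0Cut P) (oSpec k A) y
    have h := congrArg Subtype.val hxy
    rw [classFun_mk, classFun_mk] at h
    exact (subPic.mk_eq_mk_iff _ _ _ _ _ _).mpr ((picClass_eq_iff P _ _ _ _).mp h)
  · rintro ⟨n, hr, hd⟩
    obtain ⟨L, hL, rfl⟩ := picClass_surjective P n
    refine ⟨subPic.mk (deg0Cut P) (oSpec k A) ⟨L, hL, (rigid_picClass_iff P _ _).mp hr⟩
      ((deg0Sch_iff P A _ _).mpr hd), Subtype.ext ?_⟩
    exact classFun_mk P A _ _

/-- **S-Cut-2**. Comparison of the scheme-level functor on affines with the algebraic functor. -/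
theorem exists_classEquiv :
    ∃ e : ∀ (A : Type u) [CommRing A] [Algebra k A],
        (subPic (deg0Cut P)).obj (op (oSpec k A)) ≃ {n : PicAlg Γ A // n.IsG},
      (∀ (A A' : Type u) [CommRing A] [Algebra k A] [CommRing A'] [Algebra k A'] (f : A →ₐ[k] A')
        (x : (subPic (deg0Cut P)).obj (op (oSpec k A))),
        (e A' ((subPic (deg0Cut P)).map (oMap f).op x)).1 = PicAlg.map f (e A x).1) ∧
      (∀ (A : Type u) [CommRing A] [Algebra k A] (M : RigidifiedLineBundle c ε (tSpec k A))
        (hM : (deg0Cut P).P (tSpec k A) M),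
        (e A (subPic.mk (deg0Cut P) (oSpec k A) M hM)).1 = picClass P M.L M.isInvertible) := by
  refine ⟨fun A _ _ => Equiv.ofBijective (classFun P A) (classFun_bijective P A), ?_, ?_⟩
  · intro A A' _ _ _ _ f x
    obtain ⟨M, hM, rfl⟩ := subPic.exists_rep (deg0Cut P) (oSpec k A) x
    rw [subPic.map_mk]
    change (classFun P A' _).1 = PicAlg.map f (classFun P A _).1
    rw [classFun_mk, classFun_mk]
    exact picClass_pullback P f M.L M.isInvertible
  · intro A _ _ M hM
    exact classFun_mk P A M hM

end Fermat.Agent.S25
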