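import Fermat.Agent.S25.S.Tilde

/-!
# S25 / scheme side / T2c
-/
set_option autoImplicit false
set_option linter.style.haveILetI false
universe u
open CategoryTheory CategoryTheory.Limits AlgebraicGeometry AlgebraicGeometry.Scheme.Modules
open scoped TensorProduct

namespace Fermat.Agent.S25

variable {R S T : Type u} [CommRing R] [CommRing S] [CommRing T]
variable {M M' : Type u} [AddCommGroup M] [Module R M] [AddCommGroup M'] [Module R M']
  {N N' : Type u} [AddCommGroup N] [Module S N] [AddCommGroup N'] [Module S N']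
  {P : Type u} [AddCommGroup P] [Module T P]

/-! ### T2c : pure algebra about `IsSemiBaseChange` -/

/-- bridge to Mathlib's `IsBaseChange` -/
theorem isSemiBaseChange_iff_isBaseChange [Algebra R S] [Module R N] [IsScalarTower R S N]
    (r : M →ₛₗ[algebraMap R S] N) (f : M →ₗ[R] N) (hr : ∀ m, r m = f m) :
    IsSemiBaseChange (algebraMap R S) r ↔ IsBaseChange S f := by
  constructor
  · intro h
    -- the map `m ↦ 1 ⊗ m`
    let q : M →ₛₗ[algebraMap R S] S ⊗[R] M :=
      { toFun := fun m => 1 ⊗ₜ m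
        map_add' := fun a b => TensorProduct.tmul_add _ _ _
        map_smul' := fun a m => by
          simp only [TensorProduct.tmul_smul]
          rw [algebraMap_smul] }
    obtain ⟨l, hl, -⟩ := h (S ⊗[R] M) q
    let g : S ⊗[R] M →ₗ[S] N := TensorProduct.AlgebraTensorModule.lift
      ((LinearMap.lsmul S (M →ₗ[R] N)).flip f)
    have hg : ∀ (s : S) (m : M), g (s ⊗ₜ m) = s • f m := fun s m => rfl
    have h1 : l.comp g = LinearMap.id := by
      apply TensorProduct.AlgebraTensorModule.ext
      intro s m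
      simp only [LinearMap.comp_apply, hg, _root_.map_smul, ← hr, hl, LinearMap.id_apply]
      change s • ((1 : S) ⊗ₜ[R] m) = _
      rw [TensorProduct.smul_tmul', smul_eq_mul, mul_one]
    have h2 : g.comp l = LinearMap.id := by
      apply (h N r).unique
      · intro m
        simp only [LinearMap.comp_apply, hl]
        change g ((1 : S) ⊗ₜ[R] m) = _
        rw [hg, one_smul, hr]
      · intro m; rfl
    exact IsBaseChange.of_equiv (LinearEquiv.ofLinearMap g l h2 h1) (fun x => by
      simp [hg])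
  · intro hb Q _ _ q
    let _ : Module R Q := Module.compHom Q (algebraMap R S)
    have : IsScalarTower R S Q := ⟨fun a s x => by
      change (a • s) • x = (algebraMap R S a) • (s • x)
      rw [Algebra.smul_def, mul_smul]⟩
    let g : M →ₗ[R] Q :=
      { toFun := q
        map_add' := q.map_add
        map_smul' := fun a m => q.map_smulₛₗ a m }
    refine ⟨hb.lift g, fun m => by rw [hr, hb.lift_eq]; rfl, fun l hl => ?_⟩
    apply hb.algHom_ext
    intro x
    rw [hb.lift_eq, ← hr, hl]; rfl

/-- the `R`-linear map underlying a semilinear one, for the `compHom` structure -/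
theorem isSemiBaseChange_iff_aux (φ : R →+* S) (r : M →ₛₗ[φ] N) :
    IsSemiBaseChange φ r ↔
      @IsBaseChange R M N S _ _ _ _ φ.toAlgebra _ (Module.compHom N φ) _
        (@IsScalarTower.mk R S N φ.toAlgebra.toSMul _ (Module.compHom N φ).toSMul
          (fun a s x => mul_smul (φ a) s x))
        (@LinearMap.mk R R _ _ (RingHom.id R) M N _ _ _ (Module.compHom N φ)
          ⟨r, r.map_add⟩ (fun a m => r.map_smulₛₗ a m)) := by
  letI := φ.toAlgebra
  letI := Module.compHom N φ
  haveI : IsScalarTower R S N := ⟨fun a s x => mul_smul (φ a) s x⟩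
  exact isSemiBaseChange_iff_isBaseChange (R := R) (S := S) r
    { toFun := r, map_add' := r.map_add, map_smul' := fun a m => r.map_smulₛₗ a m } (fun _ => rfl)

theorem isSemiBaseChange_of_span (φ : R →+* S) [Module.Invertible R M] [Module.Invertible S N]
    (r : M →ₛₗ[φ] N) (h : Submodule.span S (Set.range r) = ⊤) : IsSemiBaseChange φ r := by
  rw [isSemiBaseChange_iff_aux]
  letI := φ.toAlgebra
  letI := Module.compHom N φ
  haveI : IsScalarTower R S N := ⟨fun a s x => mul_smul (φ a) s x⟩
  let f : M →ₗ[R] N :=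
    { toFun := r, map_add' := r.map_add, map_smul' := fun a m => r.map_smulₛₗ a m }
  let g : S ⊗[R] M →ₗ[S] N := TensorProduct.AlgebraTensorModule.lift
      ((LinearMap.lsmul S (M →ₗ[R] N)).flip f)
  have hg : ∀ (s : S) (m : M), g (s ⊗ₜ m) = s • f m := fun s m => rfl
  have hsurj : Function.Surjective g := by
    rw [← LinearMap.range_eq_top, eq_top_iff, ← h, Submodule.span_le]
    rintro _ ⟨m, rfl⟩
    exact ⟨1 ⊗ₜ m, by rw [hg, one_smul]; rfl⟩
  have hbij := Module.Invertible.bijective_of_surjective hsurj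
  exact IsBaseChange.of_equiv (LinearEquiv.ofBijective g hbij) (fun x => by
    simp only [LinearEquiv.ofBijective_apply, hg, one_smul]
    rfl)

theorem IsSemiBaseChange.span_eq_top {φ : R →+* S} {r : M →ₛₗ[φ] N} (h : IsSemiBaseChange φ r) :
    Submodule.span S (Set.range r) = ⊤ := by
  have h0 := (h (N ⧸ Submodule.span S (Set.range r)) 0).unique
    (y₁ := (Submodule.span S (Set.range r)).mkQ) (y₂ := 0)
    (fun m => by
      simp only [Submodule.mkQ_apply, LinearMap.zero_apply, Submodule.Quotient.mk_eq_zero]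
      exact Submodule.subset_span ⟨m, rfl⟩)
    (fun m => rfl)
  rw [← Submodule.ker_mkQ (Submodule.span S (Set.range r)), h0, LinearMap.ker_zero]

theorem IsSemiBaseChange.invertible {φ : R →+* S} {r : M →ₛₗ[φ] N} (h : IsSemiBaseChange φ r)
    [Module.Invertible R M] : Module.Invertible S N := by
  rw [isSemiBaseChange_iff_aux] at h
  letI := φ.toAlgebra
  letI := Module.compHom N φ
  haveI : IsScalarTower R S N := ⟨fun a s x => mul_smul (φ a) s x⟩
  exact Module.Invertible.congr h.equiv

theorem isSemiBaseChange_of_away (φ : R →+* S) (x : R)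
    (hφ : @IsLocalization.Away R _ x S _ φ.toAlgebra) (r : M →ₛₗ[φ] N)
    (h₁ : ∀ m, r m = 0 → ∃ n : ℕ, x ^ n • m = 0)
    (h₂ : ∀ y : N, ∃ (n : ℕ) (m : M), φ x ^ n • y = r m) : IsSemiBaseChange φ r := by
  rw [isSemiBaseChange_iff_aux]
  letI := φ.toAlgebra
  letI := Module.compHom N φ
  haveI : IsScalarTower R S N := ⟨fun a s x => mul_smul (φ a) s x⟩
  let f : M →ₗ[R] N :=
    { toFun := r, map_add' := r.map_add, map_smul' := fun a m => r.map_smulₛₗ a m }
  haveI : IsLocalization.Away x S := hφ
  have hsm : ∀ (a : R) (y : N), a • y = φ a • y := fun _ _ => rfl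
  rw [← isLocalizedModule_iff_isBaseChange (Submonoid.powers x) S]
  refine ⟨?_, ?_, ?_⟩
  · rintro ⟨_, n, rfl⟩
    have hu : IsUnit (φ (x ^ n)) := IsLocalization.map_units S (⟨x ^ n, n, rfl⟩ : Submonoid.powers x)
    rw [Module.End.isUnit_iff]
    obtain ⟨u, hu⟩ := hu
    constructor
    · intro a b hab
      simp only [Module.algebraMap_end_apply, hsm, ← hu] at hab
      have := congrArg (fun z => (↑u⁻¹ : S) • z) hab
      simpa [smul_smul] using this
    · intro b
      refine ⟨(↑u⁻¹ : S) • b, ?_⟩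
      simp only [Module.algebraMap_end_apply, hsm, ← hu, smul_smul]
      simp
  · intro y
    obtain ⟨n, m, hnm⟩ := h₂ y
    refine ⟨(m, ⟨x ^ n, n, rfl⟩), ?_⟩
    change (x ^ n) • y = r m
    rw [hsm, map_pow, hnm]
  · intro a b hab
    obtain ⟨n, hn⟩ := h₁ (a - b) (by rw [map_sub]; exact sub_eq_zero.mpr hab)
    refine ⟨⟨x ^ n, n, rfl⟩, ?_⟩
    change x ^ n • a = x ^ n • b
    rwa [smul_sub, sub_eq_zero] at hn

theorem IsSemiBaseChange.away {φ : R →+* S} {r : M →ₛₗ[φ] N} (h : IsSemiBaseChange φ r) (x : R)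
    (hφ : @IsLocalization.Away R _ x S _ φ.toAlgebra) :
    (∀ m, r m = 0 → ∃ n : ℕ, x ^ n • m = 0) ∧ ∀ y : N, ∃ (n : ℕ) (m : M), φ x ^ n • y = r m := by
  rw [isSemiBaseChange_iff_aux] at h
  letI := φ.toAlgebra
  letI := Module.compHom N φ
  haveI : IsScalarTower R S N := ⟨fun a s x => mul_smul (φ a) s x⟩
  let f : M →ₗ[R] N :=
    { toFun := r, map_add' := r.map_add, map_smul' := fun a m => r.map_smulₛₗ a m }
  haveI : IsLocalization.Away x S := hφ
  have hsm : ∀ (a : R) (y : N), a • y = φ a • y := fun _ _ => rfl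
  rw [← isLocalizedModule_iff_isBaseChange (Submonoid.powers x) S] at h
  constructor
  · intro m hm
    obtain ⟨⟨_, n, rfl⟩, hc⟩ := h.exists_of_eq (x₁ := m) (x₂ := 0) (by
      change r m = r 0
      rw [hm, map_zero])
    refine ⟨n, ?_⟩
    rw [smul_zero] at hc
    exact hc
  · intro y
    obtain ⟨⟨m, ⟨_, n, rfl⟩⟩, hc⟩ := h.surj y
    refine ⟨n, m, ?_⟩
    rw [← map_pow, ← hsm]
    exact hc

end Fermat.Agent.S25
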