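import Fermat.Agent.S25.S.TildeCart
import Fermat.Agent.S25.S.SemiBC
import Fermat.Agent.S25.S.Inv

/-!
# S25 / scheme side / T2d
-/
set_option autoImplicit false
universe u
open CategoryTheory CategoryTheory.Limits AlgebraicGeometry AlgebraicGeometry.Scheme.Modules
open scoped TensorProduct

namespace Fermat.Agent.S25

variable {R S T : Type u} [CommRing R] [CommRing S] [CommRing T]
variable {M M' : Type u} [AddCommGroup M] [Module R M] [AddCommGroup M'] [Module R M']
  {N N' : Type u} [AddCommGroup N] [Module S N] [AddCommGroup N'] [Module S N']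
  {P : Type u} [AddCommGroup P] [Module T P]

/-! ### pure algebra : locally free of rank one implies invertible -/

theorem contractLeft_smul_comm_of_rank_one
    (hb : ∀ (μ : Module.Dual R M) (x z : M), μ z • x = μ x • z)
    (t T : Module.Dual R M ⊗[R] M) :
    contractLeft R M T • t = contractLeft R M t • T := by
  induction t using TensorProduct.induction_on with
  | zero => simp
  | add t t' h h' => rw [smul_add, h, h', map_add, add_smul]
  | tmul μ x =>
    induction T using TensorProduct.induction_on with
    | zero => simp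
    | add T T' h h' => rw [map_add, add_smul, h, h', smul_add]
    | tmul l a =>
      rw [contractLeft_apply, contractLeft_apply]
      have h1 : l a • x = l x • a := hb l x a
      have h2 : l x • μ = μ x • l := by
        ext z
        have := congrArg l (hb μ x z)
        rw [_root_.map_smul, _root_.map_smul, smul_eq_mul, smul_eq_mul] at this
        simp only [LinearMap.smul_apply, smul_eq_mul]
        rw [mul_comm, this]
      calc l a • (μ ⊗ₜ[R] x) = μ ⊗ₜ[R] (l a • x) := by rw [TensorProduct.tmul_smul]
        _ = μ ⊗ₜ[R] (l x • a) := by rw [h1]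
        _ = (l x • μ) ⊗ₜ[R] a := by rw [TensorProduct.tmul_smul, TensorProduct.smul_tmul']
        _ = μ x • (l ⊗ₜ[R] a) := by rw [h2, TensorProduct.smul_tmul']

/-- trace criterion -/
theorem invertible_of_rank_one_of_trace
    (hb : ∀ (μ : Module.Dual R M) (x z : M), μ z • x = μ x • z)
    (h : ∃ T, contractLeft R M T = 1) :
    Module.Invertible R M := by
  obtain ⟨T, hT⟩ := h
  refine ⟨⟨?_, fun r => ⟨r • T, by rw [_root_.map_smul, hT, smul_eq_mul, mul_one]⟩⟩⟩
  rw [injective_iff_map_eq_zero]
  intro t ht
  have := contractLeft_smul_comm_of_rank_one hb t T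
  rwa [hT, ht, one_smul, zero_smul] at this

/-- the hypothesis "locally free of rank one" -/
def IsLocRankOne (R : Type u) [CommRing R] (M : Type u) [AddCommGroup M] [Module R M] : Prop :=
  ∀ p : PrimeSpectrum R, ∃ f : R, f ∉ p.asIdeal ∧
    ∃ r : M →ₛₗ[algebraMap R (Localization.Away f)] Localization.Away f,
      IsSemiBaseChange (algebraMap R (Localization.Away f)) r

theorem away_toAlgebra (f : R) :
    @IsLocalization.Away R _ f (Localization.Away f) _
      (algebraMap R (Localization.Away f)).toAlgebra := by
  have : (algebraMap R (Localization.Away f)).toAlgebra = (inferInstance : Algebra R (Localization.Away f)) := by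
    apply Algebra.algebra_ext
    intro r
    rfl
  rw [this]
  infer_instance

theorem eq_zero_of_isLocRankOne (h : IsLocRankOne R M) (w : M)
    (hw : ∀ (f : R) (r : M →ₛₗ[algebraMap R (Localization.Away f)] Localization.Away f),
      IsSemiBaseChange (algebraMap R (Localization.Away f)) r → r w = 0) : w = 0 := by
  rw [← Ideal.torsionOf_eq_top_iff (R := R)]
  by_contra hne
  obtain ⟨𝔪, hmax, hle⟩ := Ideal.exists_le_maximal _ hne
  obtain ⟨f, hf, r, hr⟩ := h ⟨𝔪, hmax.isPrime⟩
  obtain ⟨n, hn⟩ := (hr.away f (away_toAlgebra f)).1 w (hw f r hr)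
  exact hf (hmax.isPrime.mem_of_pow_mem n (hle ((Ideal.mem_torsionOf_iff _ _).2 hn)))

theorem rank_one_of_isLocRankOne (h : IsLocRankOne R M)
    (μ : Module.Dual R M) (x z : M) : μ z • x = μ x • z := by
  rw [← sub_eq_zero]
  apply eq_zero_of_isLocRankOne h
  intro f r hr
  let q : M →ₛₗ[algebraMap R (Localization.Away f)] Localization.Away f :=
    { toFun := fun m => algebraMap R _ (μ m)
      map_add' := fun a b => by simp
      map_smul' := fun a b => by simp }
  obtain ⟨l, hl, -⟩ := hr (Localization.Away f) q
  have hl1 : ∀ y : Localization.Away f, l y = y * l 1 := fun y => by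
    rw [← smul_eq_mul, ← _root_.map_smul, smul_eq_mul, mul_one]
  have hq : ∀ m, algebraMap R (Localization.Away f) (μ m) = r m * l 1 := fun m => by
    rw [← hl1, hl]; rfl
  rw [map_sub, map_smulₛₗ, map_smulₛₗ, hq, hq, smul_eq_mul, smul_eq_mul]
  ring

/-- the `R`-linear map underlying a semilinear map to `R_f` -/
def semiToLin (f : R) (r : M →ₛₗ[algebraMap R (Localization.Away f)] Localization.Away f) :
    M →ₗ[R] Localization.Away f :=
  { toFun := r
    map_add' := r.map_add
    map_smul' := fun a m => by
      rw [map_smulₛₗ, RingHom.id_apply, smul_eq_mul, Algebra.smul_def] }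

theorem isLocalizedModule_semiToLin (f : R)
    (r : M →ₛₗ[algebraMap R (Localization.Away f)] Localization.Away f)
    (hr : IsSemiBaseChange (algebraMap R (Localization.Away f)) r) :
    IsLocalizedModule (Submonoid.powers f) (semiToLin f r) := by
  rw [isLocalizedModule_iff_isBaseChange (Submonoid.powers f) (Localization.Away f)]
  exact (isSemiBaseChange_iff_isBaseChange r (semiToLin f r) (fun _ => rfl)).1 hr

theorem finitePresentation_of_isLocRankOne (h : IsLocRankOne R M) :
    Module.FinitePresentation R M := by
  let s : Set R := {f | ∃ r : M →ₛₗ[algebraMap R (Localization.Away f)] Localization.Away f,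
    IsSemiBaseChange (algebraMap R (Localization.Away f)) r}
  have hs : Ideal.span s = ⊤ := by
    by_contra hne
    obtain ⟨𝔪, hmax, hle⟩ := Ideal.exists_le_maximal _ hne
    obtain ⟨f, hf, r, hr⟩ := h ⟨𝔪, hmax.isPrime⟩
    exact hf (hle (Ideal.subset_span ⟨r, hr⟩))
  have : ∀ g : s, IsLocalizedModule (Submonoid.powers g.1) (semiToLin g.1 g.2.choose) :=
    fun g => isLocalizedModule_semiToLin _ _ g.2.choose_spec
  exact Module.FinitePresentation.of_localizationSpan' s hs
    (Rₚ := fun g => Localization.Away g.1) (fun g => semiToLin g.1 g.2.choose)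
    (fun g => inferInstance)

theorem exists_trace_of_isLocRankOne (h : IsLocRankOne R M) :
    ∃ T, contractLeft R M T = 1 := by
  have := finitePresentation_of_isLocRankOne h
  have htop : LinearMap.range (contractLeft R M) = ⊤ := by
    by_contra hne
    obtain ⟨𝔪, hmax, hle⟩ := Ideal.exists_le_maximal (LinearMap.range (contractLeft R M)) hne
    obtain ⟨f, hf, r, hr⟩ := h ⟨𝔪, hmax.isPrime⟩
    have := isLocalizedModule_semiToLin f r hr
    obtain ⟨g, s, hg⟩ := Module.FinitePresentation.exists_lift_of_isLocalizedModule
      (Submonoid.powers f) (Algebra.linearMap R (Localization.Away f)) (semiToLin f r)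
    obtain ⟨n, m₀, hm₀⟩ := (hr.away f (away_toAlgebra f)).2 1
    have h1 : algebraMap R (Localization.Away f) (g m₀) = algebraMap R _ ((s : R) * f ^ n) := by
      have h2 := LinearMap.congr_fun hg m₀
      have h3 : (semiToLin f r) m₀ = r m₀ := rfl
      rw [LinearMap.comp_apply, Algebra.linearMap_apply, LinearMap.smul_apply, h3, ← hm₀] at h2
      rw [h2, Submonoid.smul_def, Algebra.smul_def, smul_eq_mul, mul_one, map_mul, map_pow]
    obtain ⟨c, hc⟩ := (IsLocalization.eq_iff_exists (Submonoid.powers f) _).1 h1
    have hmem : (c : R) * ((s : R) * f ^ n) ∈ 𝔪 :=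
      hle ⟨((c : R) • g) ⊗ₜ m₀, by
        rw [contractLeft_apply, LinearMap.smul_apply, smul_eq_mul, hc]⟩
    obtain ⟨a, ha⟩ := c.2
    obtain ⟨b, hb⟩ := s.2
    rw [← ha, ← hb, ← pow_add, ← pow_add] at hmem
    exact hf (hmax.isPrime.mem_of_pow_mem _ hmem)
  have : (1 : R) ∈ LinearMap.range (contractLeft R M) := by rw [htop]; trivial
  exact this

theorem invertible_of_isLocRankOne (h : IsLocRankOne R M) : Module.Invertible R M :=
  invertible_of_rank_one_of_trace (rank_one_of_isLocRankOne h) (exists_trace_of_isLocRankOne h)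

/-! ### geometry -/

theorem range_spMap_away (f : R) :
    Set.range (spMap (algebraMap R (Localization.Away f))).base =
      (PrimeSpectrum.basicOpen f : Set (PrimeSpectrum R)) :=
  PrimeSpectrum.localization_away_comap_range (Localization.Away f) f

/-- a functional, composed with the localization map -/
def dualSemi (μ : Module.Dual R M) (f : R) :
    M →ₛₗ[algebraMap R (Localization.Away f)] Localization.Away f :=
  { toFun := fun m => algebraMap R _ (μ m)
    map_add' := fun a b => by simp
    map_smul' := fun a b => by simp }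

theorem isInvertible_til_of_invertible [Module.Invertible R M] :
    Scheme.Modules.IsInvertible (til R M) := by
  refine IsInvertible.of_cover (ι := Module.Dual R M × M)
    (V := fun i => sp (Localization.Away (i.1 i.2)))
    (fun i => spMap (algebraMap R (Localization.Away (i.1 i.2)))) ?_ (til R M)
    (fun i => til (Localization.Away (i.1 i.2)) (Localization.Away (i.1 i.2)))
    (fun i => tildeMap _ (dualSemi i.1 (i.1 i.2))) ?_ ?_
  · intro y
    by_contra hne
    push Not at hne
    have h1 : ∀ (μ : Module.Dual R M) (m : M), μ m ∈ (y : PrimeSpectrum R).asIdeal := by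
      intro μ m
      have := hne (μ, m)
      rw [range_spMap_away] at this
      by_contra hn
      exact this ((PrimeSpectrum.mem_basicOpen _ _).2 hn)
    have h2 : ∀ t : Module.Dual R M ⊗[R] M, contractLeft R M t ∈ (y : PrimeSpectrum R).asIdeal := by
      intro t
      induction t using TensorProduct.induction_on with
      | zero => simp
      | add a b ha hb => rw [map_add]; exact Ideal.add_mem _ ha hb
      | tmul μ m => rw [contractLeft_apply]; exact h1 μ m
    obtain ⟨t, ht⟩ := (Module.Invertible.bijective (R := R) (M := M)).2 1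
    exact (y : PrimeSpectrum R).isPrime.ne_top ((Ideal.eq_top_iff_one _).2 (ht ▸ h2 t))
  · intro i
    rw [isCart_tildeMap_iff]
    apply isSemiBaseChange_of_span
    rw [eq_top_iff]
    intro x _
    have hu : IsUnit (algebraMap R (Localization.Away (i.1 i.2)) (i.1 i.2)) :=
      IsLocalization.Away.algebraMap_isUnit _
    obtain ⟨v, hv⟩ := hu.exists_left_inv
    have : x = (x * v) • dualSemi i.1 (i.1 i.2) i.2 := by
      change x = (x * v) * algebraMap R _ (i.1 i.2)
      rw [mul_assoc, hv, mul_one]
    rw [this]
    exact Submodule.smul_mem _ _ (Submodule.subset_span ⟨_, rfl⟩)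
  · intro i
    exact Scheme.Modules.isInvertible_unit _

theorem isLocRankOne_of_isInvertible_til (h : Scheme.Modules.IsInvertible (til R M)) :
    IsLocRankOne R M := by
  intro p
  obtain ⟨U, hpU, ⟨e⟩⟩ := h.1 p
  obtain ⟨_, ⟨_, ⟨f, rfl⟩, rfl⟩, hpf, hfU⟩ :=
    PrimeSpectrum.isBasis_basic_opens.exists_subset_of_mem_open hpU U.2
  refine ⟨f, hpf, ?_⟩
  have hrange : Set.range (spMap (algebraMap R (Localization.Away f))).base ⊆
      Set.range U.ι.base := by
    rw [range_spMap_away, Scheme.Opens.range_ι]; exact hfU
  let k : sp (Localization.Away f) ⟶ U.toScheme :=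
    IsOpenImmersion.lift U.ι (spMap (algebraMap R (Localization.Away f))) hrange
  have hk : k ≫ U.ι = spMap (algebraMap R (Localization.Away f)) :=
    IsOpenImmersion.lift_fac _ _ _
  obtain ⟨α, hα⟩ := (nonempty_pullback_iso_iff U.ι (til R M) (OO U.toScheme)).1 ⟨e⟩
  have h1 : IsCart (k ≫ U.ι) (cComp α (unitMap k)) := hα.comp (isCart_unitMap k)
  have h2 : IsCart _ (cCast hk (cComp α (unitMap k))) := (isCart_cCast_iff hk _).2 h1
  obtain ⟨r, hr⟩ := (tildeMap_bijective (M := M) (N := Localization.Away f)
    (algebraMap R (Localization.Away f))).2 (cCast hk (cComp α (unitMap k)))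
  exact ⟨r, (isCart_tildeMap_iff _ r).1 (hr ▸ h2)⟩

theorem exists_til_iso_of_isQuasicoherent (L : (sp R).Modules) [L.IsQuasicoherent] :
    ∃ (M : Type u) (_ : AddCommGroup M) (_ : Module R M), Nonempty (L ≅ til R M) := by
  have : IsIso (Scheme.Modules.fromTildeΓ (R := CommRingCat.of R) L) :=
    Scheme.Modules.isIso_fromTildeΓ_of_isQuasicoherent (R := CommRingCat.of R) L
  exact ⟨((modulesSpecToSheaf (R := CommRingCat.of R)).obj L).presheaf.obj (.op ⊤),
    inferInstance, inferInstance,
    ⟨(asIso (Scheme.Modules.fromTildeΓ (R := CommRingCat.of R) L)).symm⟩⟩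

/-! ### T2d : invertible modules on affine schemes -/

theorem isInvertible_til_iff :
    Scheme.Modules.IsInvertible (til R M) ↔ Module.Invertible R M :=
  ⟨fun h => invertible_of_isLocRankOne (isLocRankOne_of_isInvertible_til h),
    fun _ => isInvertible_til_of_invertible⟩

theorem exists_til_iso_of_isInvertible (L : (sp R).Modules) (hL : Scheme.Modules.IsInvertible L) :
    ∃ (M : Type u) (_ : AddCommGroup M) (_ : Module R M),
      Module.Invertible R M ∧ Nonempty (L ≅ til R M) := by
  have := IsInvertible.isQuasicoherent hL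
  obtain ⟨M, _, _, ⟨e⟩⟩ := exists_til_iso_of_isQuasicoherent L
  exact ⟨M, _, _, isInvertible_til_iff.1 (IsInvertible.of_iso e hL), ⟨e⟩⟩

end Fermat.Agent.S25
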