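import Fermat.Agent.S25.S.Charts
import Fermat.Agent.S25.S.TildeInv
import Fermat.Agent.S25.L.IsoUnit

/-!
# S25 / scheme side / M2 : the dictionary between invertible modules on `C × Spec A` and `LB Γ A`
(definitions, D0)
-/
set_option autoImplicit false
universe u
open CategoryTheory CategoryTheory.Limits AlgebraicGeometry AlgebraicGeometry.RelPicard
  NeronModelInfra GoodReductionJacobian TensorProduct AlgebraicGeometry.Scheme.Modules

namespace Fermat.Agent.S25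

variable {k : Type u} [Field k] {C : Scheme.{u}} {c : C ⟶ Spec (CommRingCat.of k)}
  {ε : SchemeHomOver (𝟙 (Spec (CommRingCat.of k))) c} {Γ : CurveAlg k}
variable {A : Type u} [CommRing A] [Algebra k A]

/-- **D0**. The gluing datum attached to a line bundle datum. -/
noncomputable def LB.glueDatum (P : Presentation c ε Γ) (hΓ : Γ.IsGood) (𝒩 : LB Γ A) :
    GlueDatum (P.chartCover A) where
  L₀ := til (Γ.R₀ A) 𝒩.N₀
  L₁ := til (Γ.R₁ A) 𝒩.N₁
  L₀₁ := til (Γ.R₀₁ A) 𝒩.N₀₁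
  r₀ := tildeMap (Γ.φ₀ A).toRingHom 𝒩.r₀
  r₁ := tildeMap (Γ.φ₁ A).toRingHom 𝒩.r₁
  cart₀ := (isCart_tildeMap_iff _ _).2 (isSemiBaseChange_of_away _ (Γ.xA A)
    (CurveAlg.isLocalization_φ₀ hΓ A) _
    (fun m hm => ⟨0, by
      have : m = 0 := 𝒩.inj₀ (by rw [hm, map_zero])
      rw [this, smul_zero]⟩) 𝒩.span₀)
  cart₁ := (isCart_tildeMap_iff _ _).2 (isSemiBaseChange_of_away _ (Γ.yA A)
    (CurveAlg.isLocalization_φ₁ hΓ A) _
    (fun m hm => ⟨0, by
      have : m = 0 := 𝒩.inj₁ (by rw [hm, map_zero])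
      rw [this, smul_zero]⟩) 𝒩.span₁)

/-- `L` is the module on `C × Spec A` glued from `𝒩`. -/
def DRel (P : Presentation c ε Γ) (hΓ : Γ.IsGood) (L : (pullback c (tSpec k A)).Modules)
    (𝒩 : LB Γ A) : Prop :=
  Nonempty (IsGlue (𝒩.glueDatum P hΓ) L)

end Fermat.Agent.S25
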