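import Fermat.Agent.S25.S.Dict

/-!
# S25 / scheme side / M2 : D3, D7
-/
set_option autoImplicit false
universe u
open CategoryTheory CategoryTheory.Limits AlgebraicGeometry AlgebraicGeometry.RelPicard
  NeronModelInfra GoodReductionJacobian TensorProduct AlgebraicGeometry.Scheme.Modules

namespace Fermat.Agent.S25

/-! ### abstract lemmas on cartesian morphisms and gluing -/
section abstract

variable {W X Y Z : Scheme.{u}}

/-- composing with a cartesian morphism is injective -/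
theorem IsCart.cComp_injective {f : X ⟶ Y} {g : Y ⟶ Z} {L : Z.Modules} {M : Y.Modules}
    {N : X.Modules} {α : L ⟶ (pushforward g).obj M} (hα : IsCart g α) :
    Function.Injective (fun β : M ⟶ (pushforward f).obj N => cComp α β) :=
  fun _ β' h => (hα.existsUnique_fac (cComp α β')).unique h rfl

theorem cComp_assoc_symm {e : W ⟶ X} {f : X ⟶ Y} {g : Y ⟶ Z} {L : Z.Modules} {M : Y.Modules}
    {N : X.Modules} {P : W.Modules} (α : L ⟶ (pushforward g).obj M)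
    (β : M ⟶ (pushforward f).obj N) (γ : N ⟶ (pushforward e).obj P) :
    cComp α (cComp β γ) = cCast (Category.assoc e f g).symm (cComp (cComp α β) γ) := by
  rw [← cComp_assoc, cCast_cCast, cCast_rfl]

variable {𝒰 : Cover₂ Y}

/-- transport of a gluing along isomorphisms -/
noncomputable def IsGlue.transport {D D' : GlueDatum 𝒰} {L L' : Y.Modules} (h : IsGlue D L)
    (e : L ≅ L') (e₀ : D.L₀ ≅ D'.L₀) (e₁ : D.L₁ ≅ D'.L₁) (e₀₁ : D.L₀₁ ⟶ D'.L₀₁)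
    (hc₀ : D.r₀ ≫ (pushforward 𝒰.p₀).map e₀₁ = e₀.hom ≫ D'.r₀)
    (hc₁ : D.r₁ ≫ (pushforward 𝒰.p₁).map e₀₁ = e₁.hom ≫ D'.r₁) : IsGlue D' L' where
  a₀ := e.symm.hom ≫ h.a₀ ≫ (pushforward 𝒰.j₀).map e₀.hom
  a₁ := e.symm.hom ≫ h.a₁ ≫ (pushforward 𝒰.j₁).map e₁.hom
  cart₀ := (isCart_iso_comp_iff _ _).mpr ((isCart_comp_iso_iff _ _).mpr h.cart₀)
  cart₁ := (isCart_iso_comp_iff _ _).mpr ((isCart_comp_iso_iff _ _).mpr h.cart₁)
  compat := by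
    rw [← comp_cComp e.symm.hom (h.a₀ ≫ (pushforward 𝒰.j₀).map e₀.hom),
      ← comp_cComp e.symm.hom (h.a₁ ≫ (pushforward 𝒰.j₁).map e₁.hom), cComp_mid, cComp_mid,
      ← hc₀, ← hc₁, ← cComp_comp, ← cComp_comp, ← comp_cCast, ← cCast_comp, h.compat]

/-- two modules glued from the same datum are isomorphic -/
theorem IsGlue.nonempty_iso {D : GlueDatum 𝒰} {L L' : Y.Modules} (h : IsGlue D L)
    (h' : IsGlue D L') : Nonempty (L ≅ L') := by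
  obtain ⟨u, ⟨hu₀, hu₁⟩, -⟩ := h'.existsUnique_lift h.a₀ h.a₁ h.compat
  obtain ⟨v, ⟨hv₀, hv₁⟩, -⟩ := h.existsUnique_lift h'.a₀ h'.a₁ h'.compat
  refine ⟨⟨u, v, ?_, ?_⟩⟩
  · refine (h.existsUnique_lift h.a₀ h.a₁ h.compat).unique ⟨?_, ?_⟩ ⟨?_, ?_⟩ <;>
      simp [hu₀, hu₁, hv₀, hv₁]
  · refine (h'.existsUnique_lift h'.a₀ h'.a₁ h'.compat).unique ⟨?_, ?_⟩ ⟨?_, ?_⟩ <;>
      simp [hu₀, hu₁, hv₀, hv₁]

/-- two data with the same glued module are isomorphic -/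
theorem IsGlue.exists_iso_datum {D D' : GlueDatum 𝒰} {L : Y.Modules} (h : IsGlue D L)
    (h' : IsGlue D' L) :
    ∃ (e₀ : D.L₀ ≅ D'.L₀) (e₁ : D.L₁ ≅ D'.L₁) (e₀₁ : D.L₀₁ ≅ D'.L₀₁),
      D.r₀ ≫ (pushforward 𝒰.p₀).map e₀₁.hom = e₀.hom ≫ D'.r₀ ∧
      D.r₁ ≫ (pushforward 𝒰.p₁).map e₀₁.hom = e₁.hom ≫ D'.r₁ := by
  obtain ⟨e₀, he₀⟩ := h.cart₀.exists_iso h'.cart₀
  obtain ⟨e₁, he₁⟩ := h.cart₁.exists_iso h'.cart₁
  obtain ⟨e₀₁, he₀₁⟩ := (h.cart₀.comp D.cart₀).exists_iso (h'.cart₀.comp D'.cart₀)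
  refine ⟨e₀, e₁, e₀₁, h.cart₀.cComp_injective ?_, h.cart₁.cComp_injective ?_⟩
  · change cComp h.a₀ _ = cComp h.a₀ _
    rw [← cComp_comp, he₀₁, ← cComp_mid, he₀]
  · change cComp h.a₁ _ = cComp h.a₁ _
    rw [← cComp_comp, ← h.compat, cCast_comp, he₀₁, h'.compat, ← cComp_mid, he₁]

end abstract

/-! ### isomorphisms of tildes -/
section tilde
variable {R : Type u} [CommRing R]
  {M M' : Type u} [AddCommGroup M] [Module R M] [AddCommGroup M'] [Module R M']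

theorem tilMap_comp_tilMap {M'' : Type u} [AddCommGroup M''] [Module R M'']
    (l : M →ₗ[R] M') (l' : M' →ₗ[R] M'') : tilMap l ≫ tilMap l' = tilMap (l' ∘ₗ l) := by
  rw [← tilde.map_comp, ← ModuleCat.ofHom_comp]

theorem tilMap_id : tilMap (LinearMap.id : M →ₗ[R] M) = 𝟙 _ := tilde.map_id

/-- a linear equivalence induces an isomorphism of tildes -/
noncomputable def tilIso (l : M ≃ₗ[R] M') : til R M ≅ til R M' where
  hom := tilMap l.toLinearMap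
  inv := tilMap l.symm.toLinearMap
  hom_inv_id := by rw [tilMap_comp_tilMap, LinearEquiv.symm_comp, tilMap_id]
  inv_hom_id := by rw [tilMap_comp_tilMap, LinearEquiv.comp_symm, tilMap_id]

theorem exists_tilIso_eq (e : til R M ≅ til R M') :
    ∃ l : M ≃ₗ[R] M', tilMap l.toLinearMap = e.hom := by
  obtain ⟨l, hl⟩ := tilMap_bijective.2 e.hom
  obtain ⟨l', hl'⟩ := tilMap_bijective.2 e.inv
  refine ⟨LinearEquiv.ofLinearMap l l' ?_ ?_, hl⟩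
  · apply tilMap_bijective.1
    rw [← tilMap_comp_tilMap, hl, hl', e.inv_hom_id, tilMap_id]
  · apply tilMap_bijective.1
    rw [← tilMap_comp_tilMap, hl, hl', e.hom_inv_id, tilMap_id]

end tilde

variable {k : Type u} [Field k] {C : Scheme.{u}} {c : C ⟶ Spec (CommRingCat.of k)}
  {ε : SchemeHomOver (𝟙 (Spec (CommRingCat.of k))) c} {Γ : CurveAlg k}
variable {A : Type u} [CommRing A] [Algebra k A]
variable {P : Presentation c ε Γ} {hΓ : Γ.IsGood}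

/-- **D7**. -/
theorem DRel.congr {L L' : (pullback c (tSpec k A)).Modules} {𝒩 𝒩' : LB Γ A}
    (h : DRel P hΓ L 𝒩) (e : Nonempty (L ≅ L')) (e' : 𝒩.Equiv 𝒩') : DRel P hΓ L' 𝒩' := by
  obtain ⟨h⟩ := h
  obtain ⟨e⟩ := e
  obtain ⟨E⟩ := e'
  refine ⟨h.transport (D' := 𝒩'.glueDatum P hΓ) e (tilIso E.e₀) (tilIso E.e₁)
    (tilMap E.e₀₁.toLinearMap) ?_ ?_⟩
  · change tildeMap (Γ.φ₀ A).toRingHom 𝒩.r₀ ≫ (pushforward (spMap (Γ.φ₀ A).toRingHom)).map _ =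
      tilMap E.e₀.toLinearMap ≫ tildeMap (Γ.φ₀ A).toRingHom 𝒩'.r₀
    rw [tildeMap_comp_tilMap, tilMap_comp_tildeMap]
    congr 1
    ext n
    exact E.comm₀ n
  · change tildeMap (Γ.φ₁ A).toRingHom 𝒩.r₁ ≫ (pushforward (spMap (Γ.φ₁ A).toRingHom)).map _ =
      tilMap E.e₁.toLinearMap ≫ tildeMap (Γ.φ₁ A).toRingHom 𝒩'.r₁
    rw [tildeMap_comp_tilMap, tilMap_comp_tildeMap]
    congr 1
    ext n
    exact E.comm₁ n

/-- **D3**. -/
theorem DRel.iso_iff {L L' : (pullback c (tSpec k A)).Modules} {𝒩 𝒩' : LB Γ A}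
    (h : DRel P hΓ L 𝒩) (h' : DRel P hΓ L' 𝒩') : Nonempty (L ≅ L') ↔ 𝒩.Equiv 𝒩' := by
  constructor
  · rintro ⟨e⟩
    obtain ⟨h⟩ := h
    obtain ⟨h'⟩ := h'
    have h'' : IsGlue (𝒩'.glueDatum P hΓ) L :=
      h'.transport e.symm (Iso.refl _) (Iso.refl _) (𝟙 _) (by simp) (by simp)
    obtain ⟨e₀, e₁, e₀₁, hc₀, hc₁⟩ := h.exists_iso_datum h''
    obtain ⟨l₀, hl₀⟩ := exists_tilIso_eq (R := Γ.R₀ A) (M := 𝒩.N₀) (M' := 𝒩'.N₀) e₀
    obtain ⟨l₁, hl₁⟩ := exists_tilIso_eq (R := Γ.R₁ A) (M := 𝒩.N₁) (M' := 𝒩'.N₁) e₁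
    obtain ⟨l₀₁, hl₀₁⟩ := exists_tilIso_eq (R := Γ.R₀₁ A) (M := 𝒩.N₀₁) (M' := 𝒩'.N₀₁) e₀₁
    rw [← hl₀, ← hl₀₁] at hc₀
    rw [← hl₁, ← hl₀₁] at hc₁
    refine ⟨⟨l₀, l₁, l₀₁, fun n => ?_, fun n => ?_⟩⟩
    · change tildeMap (Γ.φ₀ A).toRingHom 𝒩.r₀ ≫ (pushforward (spMap (Γ.φ₀ A).toRingHom)).map _ =
        tilMap l₀.toLinearMap ≫ tildeMap (Γ.φ₀ A).toRingHom 𝒩'.r₀ at hc₀
      rw [tildeMap_comp_tilMap, tilMap_comp_tildeMap] at hc₀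
      exact DFunLike.congr_fun ((tildeMap_bijective _).1 hc₀) n
    · change tildeMap (Γ.φ₁ A).toRingHom 𝒩.r₁ ≫ (pushforward (spMap (Γ.φ₁ A).toRingHom)).map _ =
        tilMap l₁.toLinearMap ≫ tildeMap (Γ.φ₁ A).toRingHom 𝒩'.r₁ at hc₁
      rw [tildeMap_comp_tilMap, tilMap_comp_tildeMap] at hc₁
      exact DFunLike.congr_fun ((tildeMap_bijective _).1 hc₁) n
  · intro e'
    obtain ⟨h₂⟩ := h.congr ⟨Iso.refl L⟩ e'
    obtain ⟨h'⟩ := h'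
    exact h₂.nonempty_iso h'

end Fermat.Agent.S25
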