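import Fermat.Agent.S25.S.Tilde

/-!
# S25 / scheme side / T2b
-/
set_option autoImplicit false
universe u
open CategoryTheory CategoryTheory.Limits AlgebraicGeometry AlgebraicGeometry.Scheme.Modules

namespace Fermat.Agent.S25

variable {R S T : Type u} [CommRing R] [CommRing S] [CommRing T]
variable {M M' : Type u} [AddCommGroup M] [Module R M] [AddCommGroup M'] [Module R M']
  {N N' : Type u} [AddCommGroup N] [Module S N] [AddCommGroup N'] [Module S N']
  {P : Type u} [AddCommGroup P] [Module T P]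

/-! ### T2b : cartesian = base change -/

theorem isSemiBaseChange_of_isCart (φ : R →+* S) (r : M →ₛₗ[φ] N)
    (h : IsCart (spMap φ) (tildeMap φ r)) : IsSemiBaseChange φ r := by
  intro Q _ _ q
  have hb := (isCart_iff_bijective _).mp h (til S Q)
  obtain ⟨ψ, hψ⟩ := hb.2 (tildeMap φ q)
  obtain ⟨l, rfl⟩ := tilMap_bijective.2 ψ
  simp only at hψ
  rw [tildeMap_comp_tilMap] at hψ
  have hlq : l.comp r = q := (tildeMap_bijective φ).1 hψ
  refine ⟨l, fun m => by rw [← hlq]; rfl, ?_⟩
  intro l' hl'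
  apply tilMap_bijective.1
  apply hb.1
  simp only
  rw [tildeMap_comp_tilMap, tildeMap_comp_tilMap]
  congr 1
  ext m
  simp [hl', ← hlq]

theorem isCart_of_isSemiBaseChange (φ : R →+* S) (r : M →ₛₗ[φ] N)
    (h : IsSemiBaseChange φ r) : IsCart (spMap φ) (tildeMap φ r) := by
  let E : ModuleCat.{u} S := (ModuleCat.extendScalars φ).obj (ModuleCat.of R M)
  let e₀ : (Scheme.Modules.pullback (spMap φ)).obj (til R M) ≅ til S E :=
    (pullbackTildeIso (CommRingCat.ofHom φ)).app (ModuleCat.of R M)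
  obtain ⟨α₀, hα₀⟩ := (nonempty_pullback_iso_iff (spMap φ) (til R M) (til S E)).mp ⟨e₀⟩
  obtain ⟨r₀, rfl⟩ := (tildeMap_bijective φ).2 α₀
  have h₀ := isSemiBaseChange_of_isCart φ r₀ hα₀
  obtain ⟨l, hl, -⟩ := h₀ N r
  obtain ⟨l', hl', -⟩ := h E r₀
  have h1 : l.comp l' = LinearMap.id := by
    obtain ⟨x, -, hx⟩ := h N r
    rw [hx (l.comp l') (fun m => by simp [hl, hl']), hx LinearMap.id (fun m => rfl)]
  have h2 : l'.comp l = LinearMap.id := by
    obtain ⟨x, -, hx⟩ := h₀ E r₀
    rw [hx (l'.comp l) (fun m => by simp [hl, hl']), hx LinearMap.id (fun m => rfl)]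
  have h3 : tildeMap φ r = tildeMap φ r₀ ≫ (pushforward (spMap φ)).map (tilMap l) := by
    rw [tildeMap_comp_tilMap]
    congr 1
    ext m
    simp [hl]
  let e : til S E ≅ til S N :=
    { hom := tilMap l
      inv := tilMap l'
      hom_inv_id := by
        rw [← tilde.map_comp, ← ModuleCat.ofHom_comp, h2]
        exact tilde.map_id
      inv_hom_id := by
        rw [← tilde.map_comp, ← ModuleCat.ofHom_comp, h1]
        exact tilde.map_id }
  rw [h3]
  exact (isCart_comp_iso_iff _ e).mpr hα₀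

theorem isCart_tildeMap_iff (φ : R →+* S) (r : M →ₛₗ[φ] N) :
    IsCart (spMap φ) (tildeMap φ r) ↔ IsSemiBaseChange φ r :=
  ⟨isSemiBaseChange_of_isCart φ r, isCart_of_isSemiBaseChange φ r⟩

end Fermat.Agent.S25
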