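import Fermat.Agent.S25.S.Dict
import Fermat.Agent.S25.S.DictIso
import Fermat.Agent.S25.S.TildeCart
import Fermat.Agent.S25.S.SemiBC

/-!
# S25 / scheme side / M2 : D4
-/
set_option autoImplicit false
universe u
open CategoryTheory CategoryTheory.Limits AlgebraicGeometry AlgebraicGeometry.RelPicard
  NeronModelInfra GoodReductionJacobian TensorProduct AlgebraicGeometry.Scheme.Modules

namespace Fermat.Agent.S25

/-- base change of a gluing, abstractly -/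
theorem IsGlue.nonempty_baseChange {Y Y' : Scheme.{u}} {𝒰 : Cover₂ Y} {𝒰' : Cover₂ Y'}
    (g : Y' ⟶ Y) (g₀ : 𝒰'.Y₀ ⟶ 𝒰.Y₀) (g₁ : 𝒰'.Y₁ ⟶ 𝒰.Y₁) (g₀₁ : 𝒰'.Y₀₁ ⟶ 𝒰.Y₀₁)
    (hj₀ : 𝒰'.j₀ ≫ g = g₀ ≫ 𝒰.j₀) (hj₁ : 𝒰'.j₁ ≫ g = g₁ ≫ 𝒰.j₁)
    (hp₀ : 𝒰'.p₀ ≫ g₀ = g₀₁ ≫ 𝒰.p₀) (hp₁ : 𝒰'.p₁ ≫ g₁ = g₀₁ ≫ 𝒰.p₁)
    {D : GlueDatum 𝒰} {D' : GlueDatum 𝒰'}
    (b₀ : D.L₀ ⟶ (pushforward g₀).obj D'.L₀) (b₁ : D.L₁ ⟶ (pushforward g₁).obj D'.L₁)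
    (b₀₁ : D.L₀₁ ⟶ (pushforward g₀₁).obj D'.L₀₁)
    (hb₀ : IsCart g₀ b₀) (hb₁ : IsCart g₁ b₁)
    (hc₀ : cCast hp₀ (cComp b₀ D'.r₀) = cComp D.r₀ b₀₁)
    (hc₁ : cCast hp₁ (cComp b₁ D'.r₁) = cComp D.r₁ b₀₁)
    {L : Y.Modules} (h : IsGlue D L) {L' : Y'.Modules} (η : L ⟶ (pushforward g).obj L')
    (hη : IsCart g η) : Nonempty (IsGlue D' L') := by
  obtain ⟨a₀, ha₀, -⟩ := hη.existsUnique_fac (cCast hj₀.symm (cComp h.a₀ b₀))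
  obtain ⟨a₁, ha₁, -⟩ := hη.existsUnique_fac (cCast hj₁.symm (cComp h.a₁ b₁))
  have hc₀' : cComp b₀ D'.r₀ = cCast hp₀.symm (cComp D.r₀ b₀₁) := by
    rw [← hc₀, cCast_cCast, cCast_rfl]
  have hc₁' : cComp b₁ D'.r₁ = cCast hp₁.symm (cComp D.r₁ b₀₁) := by
    rw [← hc₁, cCast_cCast, cCast_rfl]
  refine ⟨⟨a₀, a₁, hη.of_comp ?_, hη.of_comp ?_, hη.cComp_injective ?_⟩⟩
  · rw [ha₀, isCart_cCast_iff]
    exact h.cart₀.comp hb₀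
  · rw [ha₁, isCart_cCast_iff]
    exact h.cart₁.comp hb₁
  · change cComp η _ = cComp η _
    rw [cComp_cCast_right, cComp_assoc_symm, cComp_assoc_symm η a₁, ha₀, ha₁,
      cComp_cCast_left, cComp_cCast_left, ← cComp_assoc, ← cComp_assoc, hc₀', hc₁',
      cComp_cCast_right, cComp_cCast_right, cComp_assoc_symm, cComp_assoc_symm h.a₁,
      ← h.compat, cComp_cCast_left]
    simp only [cCast_cCast]

variable {k : Type u} [Field k] {C : Scheme.{u}} {c : C ⟶ Spec (CommRingCat.of k)}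
  {ε : SchemeHomOver (𝟙 (Spec (CommRingCat.of k))) c} {Γ : CurveAlg k}
variable {A : Type u} [CommRing A] [Algebra k A]
variable {P : Presentation c ε Γ} {hΓ : Γ.IsGood}

theorem CurveAlg.φ₀_comp_ρ₀ {A' : Type u} [CommRing A'] [Algebra k A'] (f : A →ₐ[k] A') :
    (Γ.φ₀ A').toRingHom.comp (Γ.ρ₀ f).toRingHom =
      (Γ.ρ₀₁ f).toRingHom.comp (Γ.φ₀ A).toRingHom := by
  have h : ((Γ.φ₀ A').restrictScalars k).comp (Γ.ρ₀ f) =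
      (Γ.ρ₀₁ f).comp ((Γ.φ₀ A).restrictScalars k) := by
    apply Algebra.TensorProduct.ext'
    intro a b
    simp [CurveAlg.φ₀, CurveAlg.ρ₀, CurveAlg.ρ₀₁]
  exact RingHom.ext fun x => DFunLike.congr_fun h x

theorem CurveAlg.φ₁_comp_ρ₁ {A' : Type u} [CommRing A'] [Algebra k A'] (f : A →ₐ[k] A') :
    (Γ.φ₁ A').toRingHom.comp (Γ.ρ₁ f).toRingHom =
      (Γ.ρ₀₁ f).toRingHom.comp (Γ.φ₁ A).toRingHom := by
  have h : ((Γ.φ₁ A').restrictScalars k).comp (Γ.ρ₁ f) =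
      (Γ.ρ₀₁ f).comp ((Γ.φ₁ A).restrictScalars k) := by
    apply Algebra.TensorProduct.ext'
    intro a b
    simp [CurveAlg.φ₁, CurveAlg.ρ₁, CurveAlg.ρ₀₁]
  exact RingHom.ext fun x => DFunLike.congr_fun h x

/-- a commutative square of semilinear maps gives a commutative square of `tildeMap`s -/
theorem cCast_cComp_tildeMap_square {R S S' T : Type u} [CommRing R] [CommRing S] [CommRing S']
    [CommRing T] {M N N' Q : Type u} [AddCommGroup M] [Module R M] [AddCommGroup N] [Module S N]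
    [AddCommGroup N'] [Module S' N'] [AddCommGroup Q] [Module T Q]
    (φ : R →+* S) (ψ : S →+* T) (φ' : R →+* S') (ψ' : S' →+* T) (h : ψ.comp φ = ψ'.comp φ')
    (r : M →ₛₗ[φ] N) (s : N →ₛₗ[ψ] Q) (r' : M →ₛₗ[φ'] N') (s' : N' →ₛₗ[ψ'] Q)
    (hrs : ∀ m, s' (r' m) = s (r m))
    (hsp : spMap ψ ≫ spMap φ = spMap ψ' ≫ spMap φ') :
    cCast hsp (cComp (tildeMap φ r) (tildeMap ψ s)) = cComp (tildeMap φ' r') (tildeMap ψ' s') := by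
  let q : M →ₛₗ[ψ.comp φ] Q :=
    { toFun := fun m => s (r m)
      map_add' := fun a b => by rw [map_add, map_add]
      map_smul' := fun a m => by rw [r.map_smulₛₗ, s.map_smulₛₗ]; rfl }
  rw [cComp_tildeMap φ ψ (ψ.comp φ) rfl r s q (fun _ => rfl),
    cComp_tildeMap φ' ψ' (ψ.comp φ) h r' s' q (fun m => (hrs m).symm), cCast_cCast]

/-- **D4**. -/
theorem DRel.baseChange {A' : Type u} [CommRing A'] [Algebra k A'] (f : A →ₐ[k] A')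
    {L : (pullback c (tSpec k A)).Modules} {𝒩 : LB Γ A} {𝒩' : LB Γ A'}
    (h : DRel P hΓ L 𝒩) (hf : Nonempty (LB.BC f 𝒩 𝒩')) :
    DRel P hΓ ((Scheme.Modules.pullback (baseChangeSnd c (homOver f))).obj L) 𝒩' := by
  obtain ⟨h⟩ := h
  obtain ⟨B⟩ := hf
  have hp₀ : spMap (Γ.φ₀ A').toRingHom ≫ spMap (Γ.ρ₀ f).toRingHom =
      spMap (Γ.ρ₀₁ f).toRingHom ≫ spMap (Γ.φ₀ A).toRingHom := by
    rw [← spMap_comp _ _ _ rfl, ← spMap_comp _ _ _ rfl, CurveAlg.φ₀_comp_ρ₀]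
  have hp₁ : spMap (Γ.φ₁ A').toRingHom ≫ spMap (Γ.ρ₁ f).toRingHom =
      spMap (Γ.ρ₀₁ f).toRingHom ≫ spMap (Γ.φ₁ A).toRingHom := by
    rw [← spMap_comp _ _ _ rfl, ← spMap_comp _ _ _ rfl, CurveAlg.φ₁_comp_ρ₁]
  exact IsGlue.nonempty_baseChange (𝒰 := P.chartCover A) (𝒰' := P.chartCover A')
    (D := 𝒩.glueDatum P hΓ) (D' := 𝒩'.glueDatum P hΓ)
    (baseChangeSnd c (homOver f)) (spMap (Γ.ρ₀ f).toRingHom) (spMap (Γ.ρ₁ f).toRingHom)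
    (spMap (Γ.ρ₀₁ f).toRingHom) (P.J₀_baseChange f) (P.J₁_baseChange f) hp₀ hp₁
    (tildeMap (Γ.ρ₀ f).toRingHom B.b₀) (tildeMap (Γ.ρ₁ f).toRingHom B.b₁)
    (tildeMap (Γ.ρ₀₁ f).toRingHom B.b₀₁)
    ((isCart_tildeMap_iff _ _).mpr (isSemiBaseChange_of_span _ _ B.span₀))
    ((isCart_tildeMap_iff _ _).mpr (isSemiBaseChange_of_span _ _ B.span₁))
    (cCast_cComp_tildeMap_square _ _ _ _ (CurveAlg.φ₀_comp_ρ₀ f) _ _ _ _ B.comm₀ hp₀)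
    (cCast_cComp_tildeMap_square _ _ _ _ (CurveAlg.φ₁_comp_ρ₁ f) _ _ _ _ B.comm₁ hp₁)
    h _ (isCart_unit _ _)

end Fermat.Agent.S25
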