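import Fermat.Agent.S25.S.Dict

/-!
# S25 / scheme side / M2 : D1
-/
set_option autoImplicit false
universe u
open CategoryTheory CategoryTheory.Limits AlgebraicGeometry AlgebraicGeometry.RelPicard
  NeronModelInfra GoodReductionJacobian TensorProduct AlgebraicGeometry.Scheme.Modules

namespace Fermat.Agent.S25

variable {k : Type u} [Field k] {C : Scheme.{u}} {c : C ⟶ Spec (CommRingCat.of k)}
  {ε : SchemeHomOver (𝟙 (Spec (CommRingCat.of k))) c} {Γ : CurveAlg k}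
variable {A : Type u} [CommRing A] [Algebra k A]

namespace DictDataAux

/-- one chart: a cartesian morphism of tildes over a localisation `R → R[1/x]`, `x` a
nonzerodivisor, the source invertible. -/
theorem exists_semilinear {R S : Type u} [CommRing R] [CommRing S] (φ : R →+* S) (x : R)
    (hφ : @IsLocalization.Away R _ x S _ φ.toAlgebra) (hx : x ∈ nonZeroDivisors R)
    {N : Type u} [AddCommGroup N] [Module R N] [Module.Invertible R N]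
    {N' : Type u} [AddCommGroup N'] [Module S N']
    (ρ : til R N ⟶ (pushforward (spMap φ)).obj (til S N')) (hρ : IsCart (spMap φ) ρ) :
    ∃ r : N →ₛₗ[φ] N', tildeMap φ r = ρ ∧ Function.Injective r ∧
      ∀ n : N', ∃ (m : ℕ) (n₀ : N), φ x ^ m • n = r n₀ := by
  obtain ⟨r, rfl⟩ := (tildeMap_bijective φ).2 ρ
  have hb := (isCart_tildeMap_iff φ r).1 hρ
  obtain ⟨h1, h2⟩ := hb.away x hφ
  refine ⟨r, rfl, ?_, h2⟩
  rw [injective_iff_map_eq_zero]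
  intro m hm
  obtain ⟨n, hn⟩ := h1 m hm
  have hreg : IsSMulRegular N (x ^ n) :=
    Module.Flat.isSMulRegular_of_nonZeroDivisors (pow_mem hx n)
  exact hreg (by simp only [hn, smul_zero])

/-- transport of a gluing along isomorphisms of the gluing data. -/
theorem isGlue_transport {Y : Scheme.{u}} {𝒰 : Cover₂ Y} (D : GlueDatum 𝒰) {L : Y.Modules}
    (G : IsGlue D L) (D' : GlueDatum 𝒰)
    (e₀ : D.L₀ ≅ D'.L₀) (e₁ : D.L₁ ≅ D'.L₁) (e₀₁ : D.L₀₁ ≅ D'.L₀₁)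
    (h₀ : D'.r₀ = e₀.inv ≫ D.r₀ ≫ (pushforward 𝒰.p₀).map e₀₁.hom)
    (h₁ : D'.r₁ = e₁.inv ≫ D.r₁ ≫ (pushforward 𝒰.p₁).map e₀₁.hom) : Nonempty (IsGlue D' L) := by
  refine ⟨{ a₀ := G.a₀ ≫ (pushforward 𝒰.j₀).map e₀.hom
            a₁ := G.a₁ ≫ (pushforward 𝒰.j₁).map e₁.hom
            cart₀ := (isCart_comp_iso_iff G.a₀ e₀).2 G.cart₀
            cart₁ := (isCart_comp_iso_iff G.a₁ e₁).2 G.cart₁
            compat := ?_ }⟩
  rw [cComp_mid, cComp_mid, h₀, h₁, e₀.hom_inv_id_assoc, e₁.hom_inv_id_assoc, ← cComp_comp,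
    ← cComp_comp, ← cCast_comp, G.compat]

end DictDataAux

open DictDataAux

/-- **D1**. -/
theorem DRel.exists_data (P : Presentation c ε Γ) (hΓ : Γ.IsGood)
    (L : (pullback c (tSpec k A)).Modules) (hL : Scheme.Modules.IsInvertible L) :
    ∃ 𝒩 : LB Γ A, DRel P hΓ L 𝒩 := by
  obtain ⟨D, ⟨G⟩⟩ := exists_glueDatum (P.chartCover A) L
  have i₀ : Scheme.Modules.IsInvertible D.L₀ := IsInvertible.of_isCart G.cart₀ hL
  have i₁ : Scheme.Modules.IsInvertible D.L₁ := IsInvertible.of_isCart G.cart₁ hL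
  have i₀₁ : Scheme.Modules.IsInvertible D.L₀₁ := IsInvertible.of_isCart D.cart₀ i₀
  obtain ⟨N₀, _, _, v₀, ⟨e₀⟩⟩ := exists_til_iso_of_isInvertible (R := Γ.R₀ A) D.L₀ i₀
  obtain ⟨N₁, _, _, v₁, ⟨e₁⟩⟩ := exists_til_iso_of_isInvertible (R := Γ.R₁ A) D.L₁ i₁
  obtain ⟨N₀₁, _, _, v₀₁, ⟨e₀₁⟩⟩ := exists_til_iso_of_isInvertible (R := Γ.R₀₁ A) D.L₀₁ i₀₁
  -- the transported restriction maps
  let ρ₀ : til (Γ.R₀ A) N₀ ⟶ (pushforward (spMap (Γ.φ₀ A).toRingHom)).obj (til (Γ.R₀₁ A) N₀₁) :=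
    e₀.inv ≫ D.r₀ ≫ (pushforward (spMap (Γ.φ₀ A).toRingHom)).map e₀₁.hom
  let ρ₁ : til (Γ.R₁ A) N₁ ⟶ (pushforward (spMap (Γ.φ₁ A).toRingHom)).obj (til (Γ.R₀₁ A) N₀₁) :=
    e₁.inv ≫ D.r₁ ≫ (pushforward (spMap (Γ.φ₁ A).toRingHom)).map e₀₁.hom
  have c₀ : IsCart (spMap (Γ.φ₀ A).toRingHom) ρ₀ :=
    (isCart_iso_comp_iff e₀.symm _).2 ((isCart_comp_iso_iff D.r₀ e₀₁).2 D.cart₀)
  have c₁ : IsCart (spMap (Γ.φ₁ A).toRingHom) ρ₁ :=
    (isCart_iso_comp_iff e₁.symm _).2 ((isCart_comp_iso_iff D.r₁ e₀₁).2 D.cart₁)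
  obtain ⟨r₀, hr₀, inj₀, span₀⟩ := exists_semilinear (Γ.φ₀ A).toRingHom (Γ.xA A)
    (CurveAlg.isLocalization_φ₀ hΓ A) (CurveAlg.xA_mem_nonZeroDivisors hΓ A) ρ₀ c₀
  obtain ⟨r₁, hr₁, inj₁, span₁⟩ := exists_semilinear (Γ.φ₁ A).toRingHom (Γ.yA A)
    (CurveAlg.isLocalization_φ₁ hΓ A) (CurveAlg.yA_mem_nonZeroDivisors hΓ A) ρ₁ c₁
  let 𝒩 : LB Γ A :=
    { N₀ := N₀, N₁ := N₁, N₀₁ := N₀₁, r₀ := r₀, r₁ := r₁, inv₀ := v₀, inv₁ := v₁,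
      inj₀ := inj₀, inj₁ := inj₁, span₀ := span₀, span₁ := span₁ }
  exact ⟨𝒩, isGlue_transport D G (𝒩.glueDatum P hΓ) e₀ e₁ e₀₁ hr₀ hr₁⟩

end Fermat.Agent.S25
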