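import Fermat.Agent.S25.S.Dict

/-!
# S25 / scheme side / M2 : D5
-/
set_option autoImplicit false
universe u
open CategoryTheory CategoryTheory.Limits AlgebraicGeometry AlgebraicGeometry.RelPicard
  NeronModelInfra GoodReductionJacobian TensorProduct AlgebraicGeometry.Scheme.Modules

namespace Fermat.Agent.S25

variable {k : Type u} [Field k] {C : Scheme.{u}} {c : C ⟶ Spec (CommRingCat.of k)}
  {ε : SchemeHomOver (𝟙 (Spec (CommRingCat.of k))) c} {Γ : CurveAlg k}
variable {A : Type u} [CommRing A] [Algebra k A]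
variable {P : Presentation c ε Γ} {hΓ : Γ.IsGood}

/-- a semilinear map to `A` over the section `eA` whose image spans is surjective. -/
theorem surjective_of_span_eq_top_eA {N : Type u} [AddCommGroup N] [Module (Γ.R₀ A) N]
    (ℓ : N →ₛₗ[(Γ.eA A).toRingHom] A) (h : Submodule.span A (Set.range ℓ) = ⊤) :
    Function.Surjective ℓ := by
  let S : Submodule A A :=
    { carrier := Set.range ℓ
      add_mem' := by
        rintro _ _ ⟨a, rfl⟩ ⟨b, rfl⟩
        exact ⟨a + b, map_add _ _ _⟩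
      zero_mem' := ⟨0, map_zero _⟩
      smul_mem' := by
        rintro a _ ⟨n, rfl⟩
        refine ⟨algebraMap A (Γ.R₀ A) a • n, ?_⟩
        rw [ℓ.map_smulₛₗ]
        congr 1
        exact (Γ.eA A).commutes a }
  have hS : S = ⊤ := by
    rw [eq_top_iff, ← h, Submodule.span_le]
    exact fun x hx => hx
  intro a
  have : a ∈ S := hS ▸ Submodule.mem_top
  exact this

/-- **D5**. -/
theorem DRel.rigid_iff {L : (pullback c (tSpec k A)).Modules} {𝒩 : LB Γ A}
    (h : DRel P hΓ L 𝒩) :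
    Nonempty ((Scheme.Modules.pullback (rigSection c (tSpec k A) ε)).obj L ≅
        SheafOfModules.unit (Spec (CommRingCat.of A)).ringCatSheaf) ↔ 𝒩.Rigid := by
  obtain ⟨G⟩ := h
  have hs := P.rigSection_eq A
  have ha₀ : IsCart (P.J₀ A) G.a₀ := G.cart₀
  refine (nonempty_pullback_iso_iff (rigSection c (tSpec k A) ε) L (OO (sp A))).trans ?_
  constructor
  · rintro ⟨α, hα⟩
    have hα' : IsCart _ (cCast hs α) := (isCart_cCast_iff hs α).mpr hα
    obtain ⟨β, hβ, -⟩ := ha₀.existsUnique_fac (f := spMap (Γ.eA A).toRingHom) (cCast hs α)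
    have hβc : IsCart (spMap (Γ.eA A).toRingHom) β := ha₀.of_comp (hβ ▸ hα')
    obtain ⟨ℓ, rfl⟩ := (tildeMap_bijective (M := 𝒩.N₀) (N := A) (Γ.eA A).toRingHom).2 β
    have hbc := (isCart_tildeMap_iff _ ℓ).mp hβc
    exact ⟨ℓ, surjective_of_span_eq_top_eA ℓ hbc.span_eq_top⟩
  · rintro ⟨ℓ, hℓ⟩
    have hspan : Submodule.span A (Set.range ℓ) = ⊤ := by
      rw [hℓ.range_eq, Submodule.span_univ]
    have hbc := isSemiBaseChange_of_span (Γ.eA A).toRingHom ℓ hspan
    have hc := (isCart_tildeMap_iff _ ℓ).mpr hbc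
    have hcomp := ha₀.comp hc
    exact ⟨cCast hs.symm (cComp G.a₀ (tildeMap (Γ.eA A).toRingHom ℓ)),
      (isCart_cCast_iff hs.symm _).mpr hcomp⟩

end Fermat.Agent.S25
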