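import Fermat.Agent.S25.S.Dict

/-!
# S25 / scheme side / M2 : D2, D8
-/
set_option autoImplicit false
universe u
open CategoryTheory CategoryTheory.Limits AlgebraicGeometry AlgebraicGeometry.RelPicard
  NeronModelInfra GoodReductionJacobian TensorProduct AlgebraicGeometry.Scheme.Modules

namespace Fermat.Agent.S25

variable {k : Type u} [Field k] {C : Scheme.{u}} {c : C ⟶ Spec (CommRingCat.of k)}
  {ε : SchemeHomOver (𝟙 (Spec (CommRingCat.of k))) c} {Γ : CurveAlg k}
variable {A : Type u} [CommRing A] [Algebra k A]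

/-- a module glued from invertible modules is invertible -/
theorem IsGlue.isInvertible {Y : Scheme.{u}} {𝒰 : Cover₂ Y} {D : GlueDatum 𝒰} {L : Y.Modules}
    (h : IsGlue D L) (h₀ : Scheme.Modules.IsInvertible D.L₀)
    (h₁ : Scheme.Modules.IsInvertible D.L₁) : Scheme.Modules.IsInvertible L := by
  let V : Bool → Scheme.{u} := fun i => match i with
    | false => 𝒰.Y₀
    | true => 𝒰.Y₁
  let j : ∀ i, V i ⟶ Y := fun i => match i with
    | false => 𝒰.j₀
    | true => 𝒰.j₁
  have hj : ∀ i, IsOpenImmersion (j i) := by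
    rintro (_ | _)
    · exact 𝒰.open₀
    · exact 𝒰.open₁
  let N : ∀ i, (V i).Modules := fun i => match i with
    | false => D.L₀
    | true => D.L₁
  let a : ∀ i, L ⟶ (pushforward (j i)).obj (N i) := fun i => match i with
    | false => h.a₀
    | true => h.a₁
  refine IsInvertible.of_cover j ?_ L N a ?_ ?_
  · intro y
    rcases 𝒰.cover y with hy | hy
    · exact ⟨false, hy⟩
    · exact ⟨true, hy⟩
  · rintro (_ | _)
    · exact h.cart₀
    · exact h.cart₁
  · rintro (_ | _)
    · exact h₀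
    · exact h₁

/-- **D8**. -/
theorem DRel.isInvertible {P : Presentation c ε Γ} {hΓ : Γ.IsGood}
    {L : (pullback c (tSpec k A)).Modules} {𝒩 : LB Γ A}
    (h : DRel P hΓ L 𝒩) : Scheme.Modules.IsInvertible L := by
  obtain ⟨hg⟩ := h
  exact hg.isInvertible (isInvertible_til_iff.2 𝒩.inv₀) (isInvertible_til_iff.2 𝒩.inv₁)

/-- **D2**. -/
theorem DRel.exists_sheaf (P : Presentation c ε Γ) (hΓ : Γ.IsGood) (𝒩 : LB Γ A) :
    ∃ L : (pullback c (tSpec k A)).Modules, Scheme.Modules.IsInvertible L ∧ DRel P hΓ L 𝒩 := by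
  obtain ⟨L, hL⟩ := (𝒩.glueDatum P hΓ).exists_isGlue
  exact ⟨L, DRel.isInvertible hL, hL⟩

end Fermat.Agent.S25
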