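import Fermat.Agent.S25.S.Dict

/-!
# S25 / scheme side / M2 : D6
-/
set_option autoImplicit false
universe u
open CategoryTheory CategoryTheory.Limits AlgebraicGeometry AlgebraicGeometry.RelPicard
  NeronModelInfra GoodReductionJacobian TensorProduct AlgebraicGeometry.Scheme.Modules

namespace Fermat.Agent.S25

variable {k : Type u} [Field k] {C : Scheme.{u}} {c : C ⟶ Spec (CommRingCat.of k)}
  {ε : SchemeHomOver (𝟙 (Spec (CommRingCat.of k))) c} {Γ : CurveAlg k}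
variable {A : Type u} [CommRing A] [Algebra k A]

/-- general: the unit is glued from the units -/
theorem isGlue_unit_aux {Y : Scheme.{u}} (𝒰 : Cover₂ Y) (D : GlueDatum 𝒰)
    (h₀ : D.L₀ = OO 𝒰.Y₀) (h₁ : D.L₁ = OO 𝒰.Y₁) (h₀₁ : D.L₀₁ = OO 𝒰.Y₀₁)
    (hr₀ : HEq D.r₀ (unitMap 𝒰.p₀)) (hr₁ : HEq D.r₁ (unitMap 𝒰.p₁)) :
    Nonempty (IsGlue D (OO Y)) := by
  obtain ⟨L₀, L₁, L₀₁, r₀, r₁, c₀, c₁⟩ := D
  dsimp only at h₀ h₁ h₀₁ hr₀ hr₁
  subst h₀ h₁ h₀₁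
  rw [heq_iff_eq] at hr₀ hr₁
  subst hr₀ hr₁
  refine ⟨{ a₀ := unitMap 𝒰.j₀, a₁ := unitMap 𝒰.j₁, cart₀ := isCart_unitMap _,
            cart₁ := isCart_unitMap _, compat := ?_ }⟩
  dsimp only
  rw [cComp_unitMap, cComp_unitMap, cCast_unitMap]

theorem unit_r₀_heq (P : Presentation c ε Γ) (hΓ : Γ.IsGood) (A : Type u) [CommRing A]
    [Algebra k A] :
    HEq ((LB.unit hΓ A).glueDatum P hΓ).r₀ (unitMap (P.chartCover A).p₀) :=
  (heq_of_eq (unitMap_spMap (Γ.φ₀ A).toRingHom)).symm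

theorem unit_r₁_heq (P : Presentation c ε Γ) (hΓ : Γ.IsGood) (A : Type u) [CommRing A]
    [Algebra k A] :
    HEq ((LB.unit hΓ A).glueDatum P hΓ).r₁ (unitMap (P.chartCover A).p₁) :=
  (heq_of_eq (unitMap_spMap (Γ.φ₁ A).toRingHom)).symm

/-- **D6**. -/
theorem DRel.unit (P : Presentation c ε Γ) (hΓ : Γ.IsGood) (A : Type u) [CommRing A] [Algebra k A] :
    DRel P hΓ (SheafOfModules.unit (pullback c (tSpec k A)).ringCatSheaf) (LB.unit hΓ A) :=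
  isGlue_unit_aux (P.chartCover A) _ rfl rfl rfl (unit_r₀_heq P hΓ A) (unit_r₁_heq P hΓ A)

end Fermat.Agent.S25
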