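import Fermat.Agent.S25.S.CartOpen

/-!
# S25 / scheme side / T3d : gluing of morphisms of modules on an arbitrary open cover
-/
set_option autoImplicit false
universe u
open CategoryTheory CategoryTheory.Limits AlgebraicGeometry AlgebraicGeometry.Scheme.Modules
open Opposite TopologicalSpace

namespace Fermat.Agent.S25

variable {Y : Scheme.{u}}

/-- a morphism of modules from a morphism of abelian presheaves which is linear -/
noncomputable def modHomMk {M L : Y.Modules} (φ : M.presheaf ⟶ L.presheaf)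
    (hφ : ∀ (U : Y.Opens) (r : Γ(Y, U)) (x : Γ(M, U)), φ.app (op U) (r • x) = r • φ.app (op U) x) :
    M ⟶ L :=
  ⟨PresheafOfModules.homMk (M₁ := M.val) (M₂ := L.val) φ (fun U r x => hφ U.unop r x)⟩

theorem modHomMk_app {M L : Y.Modules} (φ : M.presheaf ⟶ L.presheaf)
    (hφ : ∀ (U : Y.Opens) (r : Γ(Y, U)) (x : Γ(M, U)), φ.app (op U) (r • x) = r • φ.app (op U) x)
    (U : Y.Opens) : (modHomMk φ hφ).app U = φ.app (op U) := by
  ext x
  rfl

theorem exists_hom_of_basis {M L : Y.Modules} (ℬ : Set Y.Opens) (hℬ : Opens.IsBasis ℬ)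
    (b : ∀ U : Y.Opens, U ∈ ℬ → (Γ(M, U) ⟶ Γ(L, U)))
    (hnat : ∀ (U V : Y.Opens) (hU : U ∈ ℬ) (hV : V ∈ ℬ) (i : V ⟶ U),
      b U hU ≫ L.presheaf.map i.op = M.presheaf.map i.op ≫ b V hV)
    (hlin : ∀ (U : Y.Opens) (hU : U ∈ ℬ) (r : Γ(Y, U)) (x : Γ(M, U)),
      b U hU (r • x) = r • b U hU x) :
    ∃ β₀ : M ⟶ L, ∀ (U : Y.Opens) (hU : U ∈ ℬ), β₀.app U = b U hU := by
  let B : ℬ → Y.Opens := Subtype.val
  have hB : Opens.IsBasis (Set.range B) := by
    rw [Subtype.range_val]; exact hℬ
  let α : (inducedFunctor B).op ⋙ M.presheaf ⟶ (inducedFunctor B).op ⋙ L.presheaf :=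
    { app := fun U => b U.unop.1 U.unop.2
      naturality := fun U V f => (hnat U.unop.1 V.unop.1 U.unop.2 V.unop.2 _).symm }
  let φ : M.presheaf ⟶ L.presheaf :=
    TopCat.Sheaf.restrictHomEquivHom M.presheaf ⟨L.presheaf, L.isSheaf⟩ hB α
  have hφ : ∀ (U : Y.Opens) (hU : U ∈ ℬ), φ.app (op U) = b U hU := fun U hU =>
    TopCat.Sheaf.extend_hom_app M.presheaf ⟨L.presheaf, L.isSheaf⟩ hB α ⟨U, hU⟩
  have hlinφ : ∀ (U : Y.Opens) (r : Γ(Y, U)) (x : Γ(M, U)),
      φ.app (op U) (r • x) = r • φ.app (op U) x := by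
    intro U r x
    refine TopCat.Sheaf.eq_of_locally_eq' (⟨L.presheaf, L.isSheaf⟩ : TopCat.Sheaf Ab Y)
      (fun V : {V : Y.Opens // V ∈ ℬ ∧ V ≤ U} => V.1) U (fun V => homOfLE V.2.2) ?_ _ _ ?_
    · intro y hy
      obtain ⟨V, hV, hyV, hVU⟩ := Opens.isBasis_iff_nbhd.mp hℬ hy
      exact Opens.mem_iSup.mpr ⟨⟨V, hV, hVU⟩, hyV⟩
    · intro V
      have h1 : ∀ z : Γ(M, U), L.presheaf.map (homOfLE V.2.2).op (φ.app (op U) z)
          = b V.1 V.2.1 (M.presheaf.map (homOfLE V.2.2).op z) := by
        intro z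
        rw [← hφ V.1 V.2.1]
        exact (CategoryTheory.congr_fun (φ.naturality (homOfLE V.2.2).op) z).symm
      show L.presheaf.map (homOfLE V.2.2).op (φ.app (op U) (r • x))
        = L.presheaf.map (homOfLE V.2.2).op (r • φ.app (op U) x)
      rw [h1, Scheme.Modules.map_smul, Scheme.Modules.map_smul, hlin, h1]
  exact ⟨modHomMk φ hlinφ, fun U hU => by rw [modHomMk_app, hφ U hU]⟩

theorem Hom_naturality' {M L : Y.Modules} (φ : M ⟶ L) {U V : Y.Opens} (i : V ⟶ U) :
    M.presheaf.map i.op ≫ φ.app V = φ.app U ≫ L.presheaf.map i.op :=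
  φ.mapPresheaf.naturality i.op

theorem isIso_map_of_eq' {X : TopCat} (F : TopCat.Presheaf Ab X) {U W : Opens X} (k : W ⟶ U)
    (h : W = U) : IsIso (F.map k.op) := by
  subst h
  have : k = 𝟙 _ := Subsingleton.elim _ _
  rw [this, op_id, F.map_id]
  infer_instance

section glue
variable {ι : Type*} {V : ι → Scheme.{u}} (j : ∀ i, V i ⟶ Y) [∀ i, IsOpenImmersion (j i)]
  {M L : Y.Modules} {N : ∀ i, (V i).Modules} (a : ∀ i, L ⟶ (pushforward (j i)).obj (N i))
  (ha : ∀ i, IsCart (j i) (a i)) (β : ∀ i, M ⟶ (pushforward (j i)).obj (N i))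

/-- the local solution on an open contained in the `i`-th chart -/
noncomputable def locHom (i : ι) (U : Y.Opens) (hU : U ≤ (j i).opensRange) : Γ(M, U) ⟶ Γ(L, U) :=
  (β i).app U ≫ @inv _ _ _ _ ((a i).app U) ((isCart_iff_isIso_app (a i)).mp (ha i) U hU)

theorem locHom_comp (i : ι) (U : Y.Opens) (hU : U ≤ (j i).opensRange) :
    locHom j a ha β i U hU ≫ (a i).app U = (β i).app U := by
  have := (isCart_iff_isIso_app (a i)).mp (ha i) U hU
  rw [locHom, Category.assoc, IsIso.inv_hom_id, Category.comp_id]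

theorem locHom_comp' (i : ι) (U : Y.Opens) (hU : U ≤ (j i).opensRange) {K : Y.Modules}
    (T : (pushforward (j i)).obj (N i) ⟶ K) :
    locHom j a ha β i U hU ≫ (a i ≫ T).app U = (β i ≫ T).app U := by
  rw [Hom.comp_app, Hom.comp_app, ← Category.assoc, locHom_comp]

include ha in
theorem locHom_unique (i : ι) (U : Y.Opens) (hU : U ≤ (j i).opensRange) {A : Ab}
    (f g : A ⟶ Γ(L, U)) (h : f ≫ (a i).app U = g ≫ (a i).app U) : f = g := by
  have := (isCart_iff_isIso_app (a i)).mp (ha i) U hU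
  exact (cancel_mono ((a i).app U)).mp h

theorem locHom_nat (i : ι) (U W : Y.Opens) (hU : U ≤ (j i).opensRange)
    (hW : W ≤ (j i).opensRange) (k : W ⟶ U) :
    locHom j a ha β i U hU ≫ L.presheaf.map k.op = M.presheaf.map k.op ≫ locHom j a ha β i W hW := by
  apply locHom_unique j a ha i W hW
  rw [Category.assoc, Category.assoc, locHom_comp, Hom_naturality', ← Category.assoc, locHom_comp,
    Hom_naturality']

theorem locHom_smul (i : ι) (U : Y.Opens) (hU : U ≤ (j i).opensRange) (r : Γ(Y, U)) (x : Γ(M, U)) :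
    locHom j a ha β i U hU (r • x) = r • locHom j a ha β i U hU x := by
  have := (isCart_iff_isIso_app (a i)).mp (ha i) U hU
  have hinj : Function.Injective ((a i).app U) := by
    have := (AddCommGrpCat.mono_iff_injective ((a i).app U)).mp inferInstance
    exact this
  apply hinj
  have h1 : ∀ z, (a i).app U (locHom j a ha β i U hU z) = (β i).app U z := fun z =>
    CategoryTheory.congr_fun (locHom_comp j a ha β i U hU) z
  rw [h1, Hom.app_smul, Hom.app_smul, h1]

theorem locHom_compat
    (hβ : ∀ (i i' : ι) (Q : (pullback (j i) (j i')).Modules)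
      (u : N i ⟶ (pushforward (pullback.fst (j i) (j i'))).obj Q)
      (u' : N i' ⟶ (pushforward (pullback.snd (j i) (j i'))).obj Q),
      IsCart _ u → IsCart _ u' →
      cCast pullback.condition (cComp (a i) u) = cComp (a i') u' →
      cCast pullback.condition (cComp (β i) u) = cComp (β i') u')
    (i i' : ι) (U : Y.Opens) (hU : U ≤ (j i).opensRange) (hU' : U ≤ (j i').opensRange) :
    locHom j a ha β i U hU = locHom j a ha β i' U hU' := by
  let p : pullback (j i) (j i') ⟶ Y := pullback.fst (j i) (j i') ≫ j i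
  let Q : (pullback (j i) (j i')).Modules := (restrictFunctor p).obj L
  let η : L ⟶ (pushforward p).obj Q := (restrictAdjunction p).unit.app L
  have hη : IsCart p η := isCart_restrict_unit p L
  obtain ⟨u, hu, -⟩ := (ha i).existsUnique_fac (f := pullback.fst (j i) (j i')) η
  have hucart : IsCart _ u := (ha i).of_comp (by rw [hu]; exact hη)
  obtain ⟨u', hu', -⟩ := (ha i').existsUnique_fac (f := pullback.snd (j i) (j i'))
    (cCast pullback.condition η)
  have hE : IsCart _ (cComp (a i') u') := by rw [hu', isCart_cCast_iff]; exact hη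
  have hu'cart : IsCart _ u' := (ha i').of_comp hE
  have keya : cCast pullback.condition (cComp (a i) u) = cComp (a i') u' := by rw [hu, hu']
  have keyb := hβ i i' Q u u' hucart hu'cart keya
  have hUr : U ≤ (pullback.snd (j i) (j i') ≫ j i').opensRange := by
    intro y hy
    have h1 : y ∈ Set.range (j i) ∩ Set.range (j i') := ⟨hU hy, hU' hy⟩
    rw [← IsOpenImmersion.range_pullback_to_base_of_left, pullback.condition] at h1
    exact h1
  have hiso : IsIso ((cComp (a i') u').app U) := (isCart_iff_isIso_app _).mp hE U hUr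
  rw [← cancel_mono ((cComp (a i') u').app U)]
  have e1 : locHom j a ha β i' U hU' ≫ (cComp (a i') u').app U = (cComp (β i') u').app U :=
    locHom_comp' j a ha β i' U hU' _
  have e2 : locHom j a ha β i U hU ≫ (cCast pullback.condition (cComp (a i) u)).app U
      = (cCast pullback.condition (cComp (β i) u)).app U := by
    have := locHom_comp' j a ha β i U hU (((pushforward (j i)).map u ≫
      (pushforwardComp (pullback.fst (j i) (j i')) (j i)).hom.app Q) ≫
      (pushforwardCongr pullback.condition).hom.app Q)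
    simpa only [cCast, cComp, Category.assoc] using this
  rw [e1, ← keyb, ← e2, keya]

end glue

/-- **T3d**. Gluing of morphisms on an arbitrary open cover. The compatibility is tested on the
fibre products of the charts, against cartesian morphisms. -/
theorem existsUnique_glueHom {ι : Type*} {V : ι → Scheme.{u}} (j : ∀ i, V i ⟶ Y)
    [∀ i, IsOpenImmersion (j i)] (hj : ∀ y : Y, ∃ i, y ∈ Set.range (j i).base)
    (M L : Y.Modules) (N : ∀ i, (V i).Modules) (a : ∀ i, L ⟶ (pushforward (j i)).obj (N i))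
    (ha : ∀ i, IsCart (j i) (a i)) (β : ∀ i, M ⟶ (pushforward (j i)).obj (N i))
    (hβ : ∀ (i i' : ι) (Q : (pullback (j i) (j i')).Modules)
      (u : N i ⟶ (pushforward (pullback.fst (j i) (j i'))).obj Q)
      (u' : N i' ⟶ (pushforward (pullback.snd (j i) (j i'))).obj Q),
      IsCart _ u → IsCart _ u' →
      cCast pullback.condition (cComp (a i) u) = cComp (a i') u' →
      cCast pullback.condition (cComp (β i) u) = cComp (β i') u') :
    ∃! β₀ : M ⟶ L, ∀ i, β₀ ≫ a i = β i := by
  let ℬ : Set Y.Opens := {U | ∃ i, U ≤ (j i).opensRange}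
  have hℬ : Opens.IsBasis ℬ := by
    rw [Opens.isBasis_iff_nbhd]
    intro U y hy
    obtain ⟨i, hi⟩ := hj y
    exact ⟨U ⊓ (j i).opensRange, ⟨i, inf_le_right⟩, ⟨hy, hi⟩, inf_le_left⟩
  obtain ⟨β₀, hβ₀⟩ := exists_hom_of_basis (M := M) (L := L) ℬ hℬ
    (fun U hU => locHom j a ha β hU.choose U hU.choose_spec)
    (fun U W hU hW k => by
      rw [locHom_nat j a ha β hU.choose U W hU.choose_spec (k.le.trans hU.choose_spec) k,
        locHom_compat j a ha β hβ hU.choose hW.choose W (k.le.trans hU.choose_spec)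
          hW.choose_spec])
    (fun U hU r x => locHom_smul j a ha β _ U _ r x)
  have hex : ∀ i, β₀ ≫ a i = β i := by
    intro i
    ext U : 1
    -- reduce to `U ⊓ range (j i)`
    let W : Y.Opens := U ⊓ (j i).opensRange
    have hW : W ∈ ℬ := ⟨i, inf_le_right⟩
    let k : W ⟶ U := homOfLE inf_le_left
    have hpre : (j i) ⁻¹ᵁ W = (j i) ⁻¹ᵁ U := by
      ext y
      simp [W]
    have hmono : Mono (((pushforward (j i)).obj (N i)).presheaf.map k.op) := by
      have h1 := isIso_map_of_eq' (N i).presheaf ((Opens.map (j i).base).map k) hpre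
      exact @IsIso.mono_of_iso _ _ _ _ _ h1
    rw [← cancel_mono (((pushforward (j i)).obj (N i)).presheaf.map k.op)]
    rw [← Hom_naturality', ← Hom_naturality', Hom.comp_app, hβ₀ W hW,
      locHom_compat j a ha β hβ hW.choose i W hW.choose_spec inf_le_right, locHom_comp]
  exact ⟨β₀, hex, fun β₁ hβ₁ => hom_ext_of_cover j hj N a ha β₁ β₀ (fun i => by
    rw [hβ₁ i, hex i])⟩

end Fermat.Agent.S25
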