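import Fermat.Agent.S25.S.DictData
import Fermat.Agent.S25.S.DictSheaf
import Fermat.Agent.S25.S.DictIso
import Fermat.Agent.S25.S.DictBC
import Fermat.Agent.S25.S.DictRigid
import Fermat.Agent.S25.S.DictUnit
import Fermat.Agent.S25.L.PicAlg

/-!
# S25 / scheme side : `Pic (C × Spec A) = PicAlg Γ A`
-/
set_option autoImplicit false
universe u
open CategoryTheory CategoryTheory.Limits AlgebraicGeometry AlgebraicGeometry.RelPicard
  NeronModelInfra GoodReductionJacobian TensorProduct AlgebraicGeometry.Scheme.Modules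

namespace Fermat.Agent.S25

variable {k : Type u} [Field k] {C : Scheme.{u}} {c : C ⟶ Spec (CommRingCat.of k)}
  {ε : SchemeHomOver (𝟙 (Spec (CommRingCat.of k))) c} {Γ : CurveAlg k}

/-- The dictionary (in the packaging of `SchemeDefs.lean`). -/
noncomputable def theDictionary (P : Presentation c ε Γ) (hΓ : Γ.IsGood) : Dictionary c ε Γ where
  Rel := fun _ _ _ L 𝒩 => DRel P hΓ L 𝒩
  exists_data := fun _ _ _ L hL => DRel.exists_data P hΓ L hL
  exists_sheaf := fun _ _ _ 𝒩 => DRel.exists_sheaf P hΓ 𝒩
  iso_iff := fun _ _ _ _ _ _ _ h h' => h.iso_iff h'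
  baseChange := fun _ _ _ _ _ _ f _ _ _ h hf => h.baseChange f hf
  rigid_iff := fun _ _ _ _ _ h => h.rigid_iff

variable [hΓ : Fact Γ.IsGood] (P : Presentation c ε Γ)
variable {A A' : Type u} [CommRing A] [Algebra k A] [CommRing A'] [Algebra k A']

/-- the class in `PicAlg Γ A` of an invertible module on `C × Spec A`. -/
noncomputable def picClass (L : (pullback c (tSpec k A)).Modules)
    (hL : Scheme.Modules.IsInvertible L) : PicAlg Γ A :=
  PicAlg.mk (DRel.exists_data P hΓ.out L hL).choose

theorem picClass_spec (L : (pullback c (tSpec k A)).Modules)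
    (hL : Scheme.Modules.IsInvertible L) :
    DRel P hΓ.out L (DRel.exists_data P hΓ.out L hL).choose :=
  (DRel.exists_data P hΓ.out L hL).choose_spec

theorem picClass_eq_mk_iff (L : (pullback c (tSpec k A)).Modules)
    (hL : Scheme.Modules.IsInvertible L) (𝒩 : LB Γ A) :
    picClass P L hL = PicAlg.mk 𝒩 ↔ DRel P hΓ.out L 𝒩 := by
  have h0 := picClass_spec P L hL
  unfold picClass
  rw [PicAlg.mk_eq_mk]
  constructor
  · intro e
    exact h0.congr ⟨Iso.refl L⟩ e
  · intro h
    exact (h0.iso_iff h).mp ⟨Iso.refl L⟩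

theorem picClass_eq_iff (L L' : (pullback c (tSpec k A)).Modules)
    (hL : Scheme.Modules.IsInvertible L) (hL' : Scheme.Modules.IsInvertible L') :
    picClass P L hL = picClass P L' hL' ↔ Nonempty (L ≅ L') := by
  have h0 := picClass_spec P L hL
  have h0' := picClass_spec P L' hL'
  unfold picClass
  rw [PicAlg.mk_eq_mk]
  exact (h0.iso_iff h0').symm

theorem picClass_surjective (n : PicAlg Γ A) :
    ∃ (L : (pullback c (tSpec k A)).Modules) (hL : Scheme.Modules.IsInvertible L),
      picClass P L hL = n := by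
  obtain ⟨𝒩, rfl⟩ := PicAlg.exists_rep n
  obtain ⟨L, hL, h⟩ := DRel.exists_sheaf P hΓ.out 𝒩
  exact ⟨L, hL, (picClass_eq_mk_iff P L hL 𝒩).mpr h⟩

theorem picClass_pullback (f : A →ₐ[k] A') (L : (pullback c (tSpec k A)).Modules)
    (hL : Scheme.Modules.IsInvertible L) :
    picClass P ((Scheme.Modules.pullback (baseChangeSnd c (homOver f))).obj L) (hL.pullback _) =
      PicAlg.map f (picClass P L hL) := by
  have h0 := picClass_spec P L hL
  obtain ⟨𝒩', h𝒩'⟩ := PicAlg.exists_rep (PicAlg.map f (picClass P L hL))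
  rw [← h𝒩', picClass_eq_mk_iff]
  exact h0.baseChange f (PicAlg.map_mk_eq_iff.mp h𝒩'.symm)

theorem picClass_unit :
    picClass P (SheafOfModules.unit (pullback c (tSpec k A)).ringCatSheaf)
      (Scheme.Modules.isInvertible_unit _) = 1 := by
  rw [PicAlg.one_def, picClass_eq_mk_iff]
  exact DRel.unit P hΓ.out A

theorem rigid_picClass_iff (L : (pullback c (tSpec k A)).Modules)
    (hL : Scheme.Modules.IsInvertible L) :
    (picClass P L hL).Rigid ↔
      Nonempty ((Scheme.Modules.pullback (rigSection c (tSpec k A) ε)).obj L ≅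
        SheafOfModules.unit (Spec (CommRingCat.of A)).ringCatSheaf) := by
  have h0 := picClass_spec P L hL
  unfold picClass
  rw [PicAlg.rigid_mk]
  exact h0.rigid_iff.symm

end Fermat.Agent.S25
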