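import Fermat.Agent.S25.S.Unit
import Fermat.Agent.S25.S.BaseOpen

/-!
# S25 / scheme side / M1 : rigidity.
A rigidification of `L` on `C × T` is a cartesian morphism `ρ : L ⇒ O_T` over the section
`rigSection c t ε : T ⟶ C × T`.
-/
set_option autoImplicit false
universe u
open CategoryTheory CategoryTheory.Limits AlgebraicGeometry AlgebraicGeometry.RelPicard
  NeronModelInfra GoodReductionJacobian TensorProduct AlgebraicGeometry.Scheme.Modules

namespace Fermat.Agent.S25

variable {k : Type u} [Field k] {C : Scheme.{u}} {c : C ⟶ Spec (CommRingCat.of k)}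
  {ε : SchemeHomOver (𝟙 (Spec (CommRingCat.of k))) c} {Γ : CurveAlg k}

/-- two cartesian morphisms to `O` over the same map differ by a unit -/
theorem IsCart.exists_unit_of_OO {X Y : Scheme.{u}} {f : X ⟶ Y} {L : Y.Modules}
    {ρ ρ' : L ⟶ (pushforward f).obj (OO X)} (hρ : IsCart f ρ) (hρ' : IsCart f ρ') :
    ∃ a : Γ(X, ⊤), IsUnit a ∧ ρ ≫ (pushforward f).map (mulEnd (OO X) a) = ρ' := by
  obtain ⟨e, he⟩ := hρ.exists_iso hρ'
  obtain ⟨a, ha⟩ := exists_mulEnd_eq e.hom
  refine ⟨a, isUnit_of_isIso_mulEnd_OO (by rw [← ha]; infer_instance), ?_⟩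
  rw [← ha, he]

/-- **RigB**. An isomorphism can be rescaled so as to respect given rigidifications. -/
theorem exists_rigidified_iso {T : Scheme.{u}} (t : T ⟶ Spec (CommRingCat.of k))
    {L L' : (pullback c t).Modules} (e₀ : L ≅ L')
    (ρ : L ⟶ (pushforward (rigSection c t ε)).obj (OO T))
    (ρ' : L' ⟶ (pushforward (rigSection c t ε)).obj (OO T))
    (hρ : IsCart _ ρ) (hρ' : IsCart _ ρ') : ∃ e : L ≅ L', e.hom ≫ ρ' = ρ := by
  have h1 : IsCart _ (e₀.hom ≫ ρ') := (isCart_iso_comp_iff e₀ ρ').2 hρ'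
  obtain ⟨a, ha, hρa⟩ := h1.exists_unit_of_OO hρ
  have hb : IsUnit ((pullback.snd c t).appTop a) := ha.map _
  have := isIso_mulEnd L' hb
  refine ⟨e₀ ≪≫ asIso (mulEnd L' ((pullback.snd c t).appTop a)), ?_⟩
  have h2 : (rigSection c t ε).appTop ((pullback.snd c t).appTop a) = a := by
    rw [← ConcreteCategory.comp_apply, ← Scheme.Hom.comp_appTop, rigSection_snd]
    simp
  rw [Iso.trans_hom, asIso_hom, Category.assoc, mulEnd_comp, mulEnd_pushforward, h2,
    ← Category.assoc]
  exact hρa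

end Fermat.Agent.S25
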