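import Fermat.Agent.S25.S.Rig
import Fermat.Agent.S25.S.DictData
import Fermat.Agent.S25.S.AlgNeeds

/-!
# S25 / scheme side / M1 : rigidity, affine base
-/
set_option autoImplicit false
universe u
open CategoryTheory CategoryTheory.Limits AlgebraicGeometry AlgebraicGeometry.RelPicard
  NeronModelInfra GoodReductionJacobian TensorProduct AlgebraicGeometry.Scheme.Modules

namespace Fermat.Agent.S25

/-- an endomorphism of an invertible module is a homothety -/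
theorem exists_eq_smul_id_of_invertible {R : Type u} [CommRing R] {M : Type u} [AddCommGroup M]
    [Module R M] [Module.Invertible R M] (l : M →ₗ[R] M) :
    ∃ a : R, l = a • (LinearMap.id : M →ₗ[R] M) := by
  obtain ⟨a, ha⟩ := (Module.Invertible.toModuleEnd_bijective R M).2 l
  refine ⟨a, ?_⟩
  rw [← ha]
  ext m
  simp

/-- global functions on affine schemes, and `spMap` -/
theorem spMap_appTop_ΓSpecIso_inv {R S : Type u} [CommRing R] [CommRing S] (φ : R →+* S) (a : R) :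
    (spMap φ).appTop ((Scheme.ΓSpecIso (CommRingCat.of R)).inv a) =
      (Scheme.ΓSpecIso (CommRingCat.of S)).inv (φ a) := by
  have := Scheme.ΓSpecIso_inv_naturality (CommRingCat.ofHom φ)
  exact (congr($this a)).symm

/-- morphisms into a glued module are determined on the charts -/
theorem IsGlue.hom_ext {Y : Scheme.{u}} {𝒰 : Cover₂ Y} {D : GlueDatum 𝒰} {L : Y.Modules}
    (h : IsGlue D L) {M : Y.Modules} {β β' : M ⟶ L} (h₀ : β ≫ h.a₀ = β' ≫ h.a₀)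
    (h₁ : β ≫ h.a₁ = β' ≫ h.a₁) : β = β' :=
  (h.existsUnique_lift (β' ≫ h.a₀) (β' ≫ h.a₁)
    (by rw [← comp_cComp, ← comp_cComp, ← comp_cCast, h.compat])).unique ⟨h₀, h₁⟩ ⟨rfl, rfl⟩

/-- the two descriptions on the overlap of an endomorphism of a glued module agree -/
theorem IsGlue.overlap_eq {Y : Scheme.{u}} {𝒰 : Cover₂ Y} {D : GlueDatum 𝒰} {L : Y.Modules}
    (h : IsGlue D L) (e : L ⟶ L) (ψ₀ : D.L₀ ⟶ D.L₀) (ψ₁ : D.L₁ ⟶ D.L₁) (χ₀ χ₁ : D.L₀₁ ⟶ D.L₀₁)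
    (hψ₀ : h.a₀ ≫ (pushforward 𝒰.j₀).map ψ₀ = e ≫ h.a₀)
    (hψ₁ : h.a₁ ≫ (pushforward 𝒰.j₁).map ψ₁ = e ≫ h.a₁)
    (hχ₀ : ψ₀ ≫ D.r₀ = D.r₀ ≫ (pushforward 𝒰.p₀).map χ₀)
    (hχ₁ : ψ₁ ≫ D.r₁ = D.r₁ ≫ (pushforward 𝒰.p₁).map χ₁) : χ₀ = χ₁ := by
  refine ((h.cart₁.comp D.cart₁).existsUnique_desc (e ≫ cComp h.a₁ D.r₁)).unique ?_ ?_
  · rw [← h.compat, cCast_comp, cComp_comp, ← hχ₀, ← cComp_mid, hψ₀, ← comp_cComp, comp_cCast]
  · rw [cComp_comp, ← hχ₁, ← cComp_mid, hψ₁, ← comp_cComp]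

/-- homotheties commute with semilinear maps -/
theorem tilMap_smul_id_comp_tildeMap {R S : Type u} [CommRing R] [CommRing S] {M N : Type u}
    [AddCommGroup M] [Module R M] [AddCommGroup N] [Module S N] (φ : R →+* S) (r : M →ₛₗ[φ] N)
    (a : R) :
    tilMap (a • (LinearMap.id : M →ₗ[R] M)) ≫ tildeMap φ r =
      tildeMap φ r ≫ (pushforward (spMap φ)).map (tilMap (φ a • (LinearMap.id : N →ₗ[S] N))) := by
  rw [tildeMap_comp_tilMap, tilMap_comp_tildeMap]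
  congr 1
  ext m
  simp

variable {k : Type u} [Field k] {C : Scheme.{u}} {c : C ⟶ Spec (CommRingCat.of k)}
  {ε : SchemeHomOver (𝟙 (Spec (CommRingCat.of k))) c} {Γ : CurveAlg k}

variable [IsAlgClosed k]

/-- **RigA, affine case**. An endomorphism of an invertible module on `C × Spec A` is the
multiplication by an element of `A`. -/
theorem exists_eq_mulEnd_of_affine (P : Presentation c ε Γ) (hΓ : Γ.IsGood)
    (A : Type u) [CommRing A] [Algebra k A] (L : (pullback c (tSpec k A)).Modules)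
    (hL : Scheme.Modules.IsInvertible L) (e : L ⟶ L) :
    ∃ a : Γ(sp A, ⊤), e = mulEnd L ((pullback.snd c (tSpec k A)).appTop a) := by
  obtain ⟨𝒩, ⟨h⟩⟩ := DRel.exists_data P hΓ L hL
  -- the endomorphisms on the two charts
  obtain ⟨ψ₀, hψ₀, -⟩ := h.cart₀.existsUnique_desc (e ≫ h.a₀)
  obtain ⟨ψ₁, hψ₁, -⟩ := h.cart₁.existsUnique_desc (e ≫ h.a₁)
  obtain ⟨l₀, rfl⟩ := (tilMap_bijective (R := Γ.R₀ A) (M := 𝒩.N₀) (M' := 𝒩.N₀)).2 ψ₀
  obtain ⟨l₁, rfl⟩ := (tilMap_bijective (R := Γ.R₁ A) (M := 𝒩.N₁) (M' := 𝒩.N₁)).2 ψ₁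
  obtain ⟨u₀, rfl⟩ := exists_eq_smul_id_of_invertible l₀
  obtain ⟨u₁, rfl⟩ := exists_eq_smul_id_of_invertible l₁
  -- they agree on the overlap
  have hχ := h.overlap_eq e _ _
    (tilMap ((Γ.φ₀ A).toRingHom u₀ • (LinearMap.id : 𝒩.N₀₁ →ₗ[Γ.R₀₁ A] 𝒩.N₀₁)))
    (tilMap ((Γ.φ₁ A).toRingHom u₁ • (LinearMap.id : 𝒩.N₀₁ →ₗ[Γ.R₀₁ A] 𝒩.N₀₁))) hψ₀ hψ₁
    (tilMap_smul_id_comp_tildeMap (Γ.φ₀ A).toRingHom 𝒩.r₀ u₀)
    (tilMap_smul_id_comp_tildeMap (Γ.φ₁ A).toRingHom 𝒩.r₁ u₁)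
  have hinv : Module.Invertible (Γ.R₀₁ A) 𝒩.N₀₁ :=
    ((isCart_tildeMap_iff _ _).mp (𝒩.glueDatum P hΓ).cart₀).invertible
  have hu : Γ.φ₀ A u₀ = Γ.φ₁ A u₁ := by
    have h1 := tilMap_bijective.1 hχ
    apply FaithfulSMul.eq_of_smul_eq_smul (α := 𝒩.N₀₁)
    intro n
    exact DFunLike.congr_fun h1 n
  obtain ⟨a, rfl, rfl⟩ := CurveAlg.exists_algebraMap_of_φ₀_eq_φ₁ hΓ A u₀ u₁ hu
  refine ⟨(Scheme.ΓSpecIso (CommRingCat.of A)).inv a, h.hom_ext ?_ ?_⟩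
  · rw [← hψ₀, mulEnd_comp, mulEnd_pushforward]
    congr 2
    rw [← mulEnd_til, ← spMap_appTop_ΓSpecIso_inv, ← P.J₀_snd A, Scheme.Hom.comp_appTop]
    rfl
  · rw [← hψ₁, mulEnd_comp, mulEnd_pushforward]
    congr 2
    rw [← mulEnd_til, ← spMap_appTop_ΓSpecIso_inv, ← P.J₁_snd A, Scheme.Hom.comp_appTop]
    rfl

/-- **RigA, affine case**. -/
theorem eq_id_of_rigidified_affine (P : Presentation c ε Γ) (hΓ : Γ.IsGood)
    (A : Type u) [CommRing A] [Algebra k A] (L : (pullback c (tSpec k A)).Modules)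
    (hL : Scheme.Modules.IsInvertible L)
    (ρ : L ⟶ (pushforward (rigSection c (tSpec k A) ε)).obj (OO (sp A))) (hρ : IsCart _ ρ)
    (e : L ⟶ L) (he : e ≫ ρ = ρ) : e = 𝟙 L := by
  obtain ⟨a, rfl⟩ := exists_eq_mulEnd_of_affine P hΓ A L hL e
  have hs : rigSection c (tSpec k A) ε ≫ pullback.snd c (tSpec k A) = 𝟙 _ :=
    pullback.lift_snd _ _ _
  have h1 : (rigSection c (tSpec k A) ε).appTop ((pullback.snd c (tSpec k A)).appTop a) = a := by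
    have : (rigSection c (tSpec k A) ε ≫ pullback.snd c (tSpec k A)).appTop a = a := by
      rw [hs]; simp
    rw [Scheme.Hom.comp_appTop] at this
    exact this
  rw [mulEnd_comp, mulEnd_pushforward, h1] at he
  have h2 : mulEnd (OO (sp A)) a = 𝟙 _ :=
    (hρ.existsUnique_desc ρ).unique he (by simp)
  rw [← mulEnd_one] at h2
  rw [mulEnd_OO_injective h2, map_one, mulEnd_one]

end Fermat.Agent.S25
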