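import Fermat.Agent.S25.S.Total
import Fermat.Agent.S25.S.Rig

/-!
# S25 / scheme side / M1 : restriction of rigidifications along a change of base
-/
set_option autoImplicit false
universe u
open CategoryTheory CategoryTheory.Limits AlgebraicGeometry AlgebraicGeometry.RelPicard
  NeronModelInfra GoodReductionJacobian TensorProduct AlgebraicGeometry.Scheme.Modules

namespace Fermat.Agent.S25

open ModPair

variable {k : Type u} [Field k] {C : Scheme.{u}} {c : C ⟶ Spec (CommRingCat.of k)}
  {ε : SchemeHomOver (𝟙 (Spec (CommRingCat.of k))) c}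

/-- restriction of a rigidification along a change of base -/
theorem exists_restrict_rig {T T' : Scheme.{u}} {t : T ⟶ Spec (CommRingCat.of k)}
    {t' : T' ⟶ Spec (CommRingCat.of k)} (v : SchemeHomOver t' t)
    {L : (pullback c t).Modules} {L' : (pullback c t').Modules}
    (R : OM T ⟶ ModPair.mk _ L) (hR : base R = rigSection c t ε) (hRc : IsCartM R)
    (A : ModPair.mk _ L' ⟶ ModPair.mk _ L) (hA : base A = baseChangeSnd c v) (hAc : IsCartM A) :
    ∃ R' : OM T' ⟶ ModPair.mk _ L', base R' = rigSection c t' ε ∧ IsCartM R' ∧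
      R' ≫ A = unitM v.1 ≫ R := by
  obtain ⟨R', h1, h2⟩ := hAc.exists_lift (unitM v.1 ≫ R) (rigSection c t' ε) (by
    rw [hA, base_comp, base_unitM, hR, rigSection_baseChangeSnd])
  exact ⟨R', h1, hAc.of_comp (by rw [h2]; exact (isCartM_unitM _).comp hRc), h2⟩

end Fermat.Agent.S25
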