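import Fermat.Agent.S25.S.RigAff
import Fermat.Agent.S25.S.GlueHom
import Fermat.Agent.S25.S.RigRes

/-!
# S25 / scheme side / M1 : rigidity, general base
-/
set_option autoImplicit false
universe u
open CategoryTheory CategoryTheory.Limits AlgebraicGeometry AlgebraicGeometry.RelPicard
  NeronModelInfra GoodReductionJacobian TensorProduct AlgebraicGeometry.Scheme.Modules

namespace Fermat.Agent.S25

variable {k : Type u} [Field k] {C : Scheme.{u}} {c : C ⟶ Spec (CommRingCat.of k)}
  {ε : SchemeHomOver (𝟙 (Spec (CommRingCat.of k))) c} {Γ : CurveAlg k}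

variable [IsAlgClosed k]

open ModPair in
/-- an endomorphism respecting a rigidification is trivial on every affine chart of the base -/
theorem comp_eq_of_affine (P : Presentation c ε Γ) (hΓ : Γ.IsGood)
    {T : Scheme.{u}} (t : T ⟶ Spec (CommRingCat.of k)) (L : (pullback c t).Modules)
    (hL : Scheme.Modules.IsInvertible L)
    (ρ : L ⟶ (pushforward (rigSection c t ε)).obj (OO T)) (hρ : IsCart _ ρ)
    (e : L ⟶ L) (he : e ≫ ρ = ρ) (A : Type u) [CommRing A] [Algebra k A]
    (v : SchemeHomOver (tSpec k A) t) (L' : (pullback c (tSpec k A)).Modules)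
    (a : L ⟶ (pushforward (baseChangeSnd c v)).obj L') (ha : IsCart _ a) :
    e ≫ a = a := by
  obtain ⟨e', he', -⟩ := ha.existsUnique_desc (e ≫ a)
  have hAe : vert e' ≫ mkHom _ a = mkHom _ a ≫ vert e := by
    rw [vert_comp_mkHom, mkHom_comp_vert, he']
  have hRe : mkHom _ ρ ≫ vert e = mkHom _ ρ := by rw [mkHom_comp_vert, he]
  obtain ⟨R', hR'b, hR'c, hR'⟩ := exists_restrict_rig v (mkHom _ ρ) rfl hρ (mkHom _ a) rfl ha
  have h1 : R' ≫ vert e' = R' :=
    IsCartM.lift_fix (isCartM_mkHom.mpr ha) (base_vert e') hAe hRe hR'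
  obtain ⟨ρ', rfl⟩ := exists_eq_mkHom R' _ hR'b
  rw [mkHom_comp_vert, mkHom_inj] at h1
  have h2 := eq_id_of_rigidified_affine P hΓ A _ (IsInvertible.of_isCart ha hL) ρ' hR'c e' h1
  rw [← he', h2, CategoryTheory.Functor.map_id, Category.comp_id]

/-- **RigA**. A rigidified invertible module on `C × T` has no nontrivial automorphism. -/
theorem eq_id_of_rigidified (P : Presentation c ε Γ) (hΓ : Γ.IsGood)
    {T : Scheme.{u}} (t : T ⟶ Spec (CommRingCat.of k)) (L : (pullback c t).Modules)
    (hL : Scheme.Modules.IsInvertible L)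
    (ρ : L ⟶ (pushforward (rigSection c t ε)).obj (OO T)) (hρ : IsCart _ ρ)
    (e : L ⟶ L) (he : e ≫ ρ = ρ) : e = 𝟙 L := by
  have hal : ∀ i : T.affineOpenCover.I₀, ∃ inst : Algebra k (T.affineOpenCover.X i),
      T.affineOpenCover.f i ≫ t = @tSpec k _ (T.affineOpenCover.X i) _ inst :=
    fun i => exists_algebra_eq_tSpec _ _
  choose inst hinst using hal
  let v : ∀ i, SchemeHomOver (@tSpec k _ (T.affineOpenCover.X i) _ (inst i)) t :=
    fun i => ⟨T.affineOpenCover.f i, hinst i⟩
  have hopen : ∀ i, IsOpenImmersion (baseChangeSnd c (v i)) := fun i => by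
    have : IsOpenImmersion (v i).1 := inferInstanceAs (IsOpenImmersion (T.affineOpenCover.f i))
    exact isOpenImmersion_baseChangeSnd _
  refine hom_ext_of_cover (fun i => baseChangeSnd c (v i)) (fun z => ?_)
    (fun i => (Scheme.Modules.pullback (baseChangeSnd c (v i))).obj L)
    (fun i => (pullbackPushforwardAdjunction (baseChangeSnd c (v i))).unit.app L)
    (fun i => isCart_unit _ _) e (𝟙 L) (fun i => ?_)
  · refine ⟨T.affineOpenCover.idx ((pullback.snd c t).base z), ?_⟩
    rw [range_baseChangeSnd]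
    exact T.affineOpenCover.covers _
  · rw [Category.id_comp]
    exact @comp_eq_of_affine k _ C c ε Γ _ P hΓ T t L hL ρ hρ e he _ _ (inst i) (v i) _ _
      (isCart_unit _ _)

end Fermat.Agent.S25
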