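import Fermat.Agent.S25.S.RigGen

/-!
# S25 / scheme side / M1 : separatedness of the rigidified Picard functor
-/
set_option autoImplicit false
universe u
open CategoryTheory CategoryTheory.Limits AlgebraicGeometry AlgebraicGeometry.RelPicard
  NeronModelInfra GoodReductionJacobian TensorProduct AlgebraicGeometry.Scheme.Modules

namespace Fermat.Agent.S25

variable {k : Type u} [Field k] [IsAlgClosed k] {C : Scheme.{u}} {c : C ⟶ Spec (CommRingCat.of k)}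
  {ε : SchemeHomOver (𝟙 (Spec (CommRingCat.of k))) c} {Γ : CurveAlg k}

open ModPair

/-- **RigA** in the total category -/
theorem eq_id_of_rigidifiedM (P : Presentation c ε Γ) (hΓ : Γ.IsGood)
    {T : Scheme.{u}} (t : T ⟶ Spec (CommRingCat.of k)) (Q : (pullback c t).Modules)
    (hQ : Scheme.Modules.IsInvertible Q) (r : OM T ⟶ ModPair.mk _ Q)
    (hr : base r = rigSection c t ε) (hrc : IsCartM r) (φ : ModPair.mk _ Q ⟶ ModPair.mk _ Q)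
    (hφ : base φ = 𝟙 _) (h : r ≫ φ = r) : φ = 𝟙 _ := by
  obtain ⟨ρ, rfl⟩ := exists_eq_mkHom r _ hr
  obtain ⟨e, rfl⟩ := exists_eq_vert φ hφ
  rw [mkHom_comp_vert, mkHom_inj] at h
  rw [eq_id_of_rigidified P hΓ t Q hQ ρ hrc e h, vert_id]

omit [IsAlgClosed k] in
/-- one half of the chase -/
theorem rig_chase_one {T T₁ W : Scheme.{u}} {t : T ⟶ Spec (CommRingCat.of k)}
    {t₁ : T₁ ⟶ Spec (CommRingCat.of k)} {tW : W ⟶ Spec (CommRingCat.of k)}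
    (v₁ : SchemeHomOver t₁ t) (p : SchemeHomOver tW t₁) {w : W ⟶ T} (hw : p.1 ≫ v₁.1 = w)
    {L L' : (pullback c t).Modules} {L₁ L₁' : (pullback c t₁).Modules}
    {Q : (pullback c tW).Modules}
    (R : OM T ⟶ ModPair.mk _ L) (R' : OM T ⟶ ModPair.mk _ L')
    (a₁ : ModPair.mk _ L₁ ⟶ ModPair.mk _ L) (a₁' : ModPair.mk _ L₁' ⟶ ModPair.mk _ L')
    (ha₁' : IsCartM a₁')
    (R₁ : OM T₁ ⟶ ModPair.mk _ L₁) (R₁' : OM T₁ ⟶ ModPair.mk _ L₁')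
    (hR₁'b : base R₁' = rigSection c t₁ ε)
    (hR₁ : R₁ ≫ a₁ = unitM v₁.1 ≫ R) (hR₁' : R₁' ≫ a₁' = unitM v₁.1 ≫ R')
    (E₁ : ModPair.mk _ L₁' ⟶ ModPair.mk _ L₁) (hE₁ : R₁' ≫ E₁ = R₁)
    (u : ModPair.mk _ Q ⟶ ModPair.mk _ L₁') (hu : base u = baseChangeSnd c p)
    (r : OM W ⟶ ModPair.mk _ Q) (hr : base r = rigSection c tW ε)
    (hru : r ≫ u ≫ a₁' = unitM w ≫ R') :
    r ≫ u ≫ E₁ ≫ a₁ = unitM w ≫ R := by
  have h1 : r ≫ u = unitM p.1 ≫ R₁' := ha₁'.lift_unique _ _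
    (by rw [base_comp, base_comp, hr, hu, base_unitM, hR₁'b, rigSection_baseChangeSnd])
    (by rw [Category.assoc, hru, Category.assoc, hR₁', ← Category.assoc, unitM_comp, hw])
  rw [← Category.assoc, h1, Category.assoc, ← Category.assoc R₁', hE₁, hR₁, ← Category.assoc,
    unitM_comp, hw]

/-- the chase: rigidified isomorphisms on two charts agree on the overlap -/
theorem rig_chase (P : Presentation c ε Γ) (hΓ : Γ.IsGood) {T T₁ T₂ W : Scheme.{u}}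
    {t : T ⟶ Spec (CommRingCat.of k)} {t₁ : T₁ ⟶ Spec (CommRingCat.of k)}
    {t₂ : T₂ ⟶ Spec (CommRingCat.of k)} {tW : W ⟶ Spec (CommRingCat.of k)}
    (v₁ : SchemeHomOver t₁ t) (v₂ : SchemeHomOver t₂ t) (p : SchemeHomOver tW t₁)
    (q : SchemeHomOver tW t₂) (hpq : p.1 ≫ v₁.1 = q.1 ≫ v₂.1)
    {L L' : (pullback c t).Modules} {L₁ L₁' : (pullback c t₁).Modules}
    {L₂ L₂' : (pullback c t₂).Modules} {Q : (pullback c tW).Modules}
    (hQ : Scheme.Modules.IsInvertible Q)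
    (R : OM T ⟶ ModPair.mk _ L) (R' : OM T ⟶ ModPair.mk _ L')
    (hR'b : base R' = rigSection c t ε) (hR'c : IsCartM R')
    (a₁ : ModPair.mk _ L₁ ⟶ ModPair.mk _ L) (a₁' : ModPair.mk _ L₁' ⟶ ModPair.mk _ L')
    (a₂ : ModPair.mk _ L₂ ⟶ ModPair.mk _ L) (a₂' : ModPair.mk _ L₂' ⟶ ModPair.mk _ L')
    (ha₁b : base a₁ = baseChangeSnd c v₁) (ha₁'b : base a₁' = baseChangeSnd c v₁)
    (ha₂b : base a₂ = baseChangeSnd c v₂) (ha₂'b : base a₂' = baseChangeSnd c v₂)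
    (ha₁ : IsCartM a₁) (ha₁' : IsCartM a₁') (ha₂' : IsCartM a₂')
    (R₁ : OM T₁ ⟶ ModPair.mk _ L₁) (R₁' : OM T₁ ⟶ ModPair.mk _ L₁')
    (R₂ : OM T₂ ⟶ ModPair.mk _ L₂) (R₂' : OM T₂ ⟶ ModPair.mk _ L₂')
    (hR₁'b : base R₁' = rigSection c t₁ ε) (hR₂'b : base R₂' = rigSection c t₂ ε)
    (hR₁ : R₁ ≫ a₁ = unitM v₁.1 ≫ R) (hR₁' : R₁' ≫ a₁' = unitM v₁.1 ≫ R')
    (hR₂ : R₂ ≫ a₂ = unitM v₂.1 ≫ R) (hR₂' : R₂' ≫ a₂' = unitM v₂.1 ≫ R')
    (E₁ : ModPair.mk _ L₁' ⟶ ModPair.mk _ L₁) (E₂ : ModPair.mk _ L₂' ⟶ ModPair.mk _ L₂)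
    (hE₁b : base E₁ = 𝟙 _) (hE₂b : base E₂ = 𝟙 _) (hE₁c : IsCartM E₁)
    (hE₁ : R₁' ≫ E₁ = R₁) (hE₂ : R₂' ≫ E₂ = R₂)
    (u : ModPair.mk _ Q ⟶ ModPair.mk _ L₁') (u' : ModPair.mk _ Q ⟶ ModPair.mk _ L₂')
    (hu : base u = baseChangeSnd c p) (hu' : base u' = baseChangeSnd c q) (huc : IsCartM u)
    (huu : u ≫ a₁' = u' ≫ a₂') :
    u ≫ E₁ ≫ a₁ = u' ≫ E₂ ≫ a₂ := by
  have hm : IsCartM (u ≫ E₁ ≫ a₁) := huc.comp (hE₁c.comp ha₁)
  have hbase : base (u' ≫ E₂ ≫ a₂) = base (u ≫ E₁ ≫ a₁) := by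
    have h0 := congrArg base huu
    simp only [base_comp] at h0 ⊢
    rw [hE₁b, hE₂b, Category.id_comp, Category.id_comp, ha₁b, ha₂b]
    rw [ha₁'b, ha₂'b] at h0
    exact h0.symm
  obtain ⟨φ, hφb, hφ⟩ := hm.exists_lift (u' ≫ E₂ ≫ a₂) (𝟙 _) (by rw [Category.id_comp, hbase])
  obtain ⟨r, hrb, hr⟩ := (huc.comp ha₁').exists_lift (unitM (p.1 ≫ v₁.1) ≫ R')
    (rigSection c tW ε) (by
      rw [base_comp, base_comp, hu, ha₁'b, base_unitM, hR'b, ← Category.assoc,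
        rigSection_baseChangeSnd, Category.assoc, rigSection_baseChangeSnd, Category.assoc])
  have hrc : IsCartM r := (huc.comp ha₁').of_comp (by rw [hr]; exact (isCartM_unitM _).comp hR'c)
  have e1 := rig_chase_one v₁ p rfl R R' a₁ a₁' ha₁' R₁ R₁' hR₁'b hR₁ hR₁' E₁ hE₁ u hu r hrb hr
  have e2 := rig_chase_one v₂ q hpq.symm R R' a₂ a₂' ha₂' R₂ R₂' hR₂'b hR₂ hR₂' E₂ hE₂ u' hu' r hrb
    (by rw [← huu]; exact hr)
  have hfix : r ≫ φ = r := hm.lift_unique _ _ (by rw [base_comp, hφb, Category.comp_id])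
    (by rw [Category.assoc, hφ, e2, e1])
  have hid := eq_id_of_rigidifiedM P hΓ tW Q hQ r hrb hrc φ hφb hfix
  rw [← hφ, hid, Category.id_comp]

/-- the chase, on a scheme `Z` isomorphic to `C × W` -/
theorem rig_compat (P : Presentation c ε Γ) (hΓ : Γ.IsGood) {T T₁ T₂ W Z : Scheme.{u}}
    {t : T ⟶ Spec (CommRingCat.of k)} {t₁ : T₁ ⟶ Spec (CommRingCat.of k)}
    {t₂ : T₂ ⟶ Spec (CommRingCat.of k)} {tW : W ⟶ Spec (CommRingCat.of k)}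
    (v₁ : SchemeHomOver t₁ t) (v₂ : SchemeHomOver t₂ t) (p : SchemeHomOver tW t₁)
    (q : SchemeHomOver tW t₂) (hpq : p.1 ≫ v₁.1 = q.1 ≫ v₂.1)
    (θ : pullback c tW ⟶ Z) (hθ : IsIso θ) (f₁ : Z ⟶ pullback c t₁) (f₂ : Z ⟶ pullback c t₂)
    (hf₁ : θ ≫ f₁ = baseChangeSnd c p) (hf₂ : θ ≫ f₂ = baseChangeSnd c q)
    {L L' : (pullback c t).Modules} {L₁ L₁' : (pullback c t₁).Modules}
    {L₂ L₂' : (pullback c t₂).Modules} {Q : Z.Modules}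
    (hL' : Scheme.Modules.IsInvertible L')
    (R : OM T ⟶ ModPair.mk _ L) (R' : OM T ⟶ ModPair.mk _ L')
    (hR'b : base R' = rigSection c t ε) (hR'c : IsCartM R')
    (a₁ : ModPair.mk _ L₁ ⟶ ModPair.mk _ L) (a₁' : ModPair.mk _ L₁' ⟶ ModPair.mk _ L')
    (a₂ : ModPair.mk _ L₂ ⟶ ModPair.mk _ L) (a₂' : ModPair.mk _ L₂' ⟶ ModPair.mk _ L')
    (ha₁b : base a₁ = baseChangeSnd c v₁) (ha₁'b : base a₁' = baseChangeSnd c v₁)
    (ha₂b : base a₂ = baseChangeSnd c v₂) (ha₂'b : base a₂' = baseChangeSnd c v₂)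
    (ha₁ : IsCartM a₁) (ha₁' : IsCartM a₁') (ha₂' : IsCartM a₂')
    (R₁ : OM T₁ ⟶ ModPair.mk _ L₁) (R₁' : OM T₁ ⟶ ModPair.mk _ L₁')
    (R₂ : OM T₂ ⟶ ModPair.mk _ L₂) (R₂' : OM T₂ ⟶ ModPair.mk _ L₂')
    (hR₁'b : base R₁' = rigSection c t₁ ε) (hR₂'b : base R₂' = rigSection c t₂ ε)
    (hR₁ : R₁ ≫ a₁ = unitM v₁.1 ≫ R) (hR₁' : R₁' ≫ a₁' = unitM v₁.1 ≫ R')
    (hR₂ : R₂ ≫ a₂ = unitM v₂.1 ≫ R) (hR₂' : R₂' ≫ a₂' = unitM v₂.1 ≫ R')
    (E₁ : ModPair.mk _ L₁' ⟶ ModPair.mk _ L₁) (E₂ : ModPair.mk _ L₂' ⟶ ModPair.mk _ L₂)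
    (hE₁b : base E₁ = 𝟙 _) (hE₂b : base E₂ = 𝟙 _) (hE₁c : IsCartM E₁)
    (hE₁ : R₁' ≫ E₁ = R₁) (hE₂ : R₂' ≫ E₂ = R₂)
    (u : ModPair.mk _ Q ⟶ ModPair.mk _ L₁') (u' : ModPair.mk _ Q ⟶ ModPair.mk _ L₂')
    (hu : base u = f₁) (hu' : base u' = f₂) (huc : IsCartM u)
    (huu : u ≫ a₁' = u' ≫ a₂') :
    u ≫ E₁ ≫ a₁ = u' ≫ E₂ ≫ a₂ := by
  obtain ⟨Q', w, hw⟩ : ∃ (Q' : (pullback c tW).Modules) (w : Q ⟶ (pushforward θ).obj Q'),
    IsCart θ w := ⟨_, _, isCart_unit θ Q⟩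
  have hwM : IsCartM (mkHom θ w) := hw
  refine hwM.cancel_left hθ ?_
  have hQ' : Scheme.Modules.IsInvertible Q' :=
    IsInvertible.of_isCart ((hwM.comp huc).comp ha₁') hL'
  have key := rig_chase P hΓ v₁ v₂ p q hpq hQ' R R' hR'b hR'c a₁ a₁' a₂ a₂' ha₁b ha₁'b ha₂b ha₂'b
    ha₁ ha₁' ha₂' R₁ R₁' R₂ R₂' hR₁'b hR₂'b hR₁ hR₁' hR₂ hR₂' E₁ E₂ hE₁b hE₂b hE₁c hE₁ hE₂
    (mkHom θ w ≫ u) (mkHom θ w ≫ u') (by rw [base_comp, base_mkHom, hu, hf₁])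
    (by rw [base_comp, base_mkHom, hu', hf₂]) (hwM.comp huc)
    (by rw [Category.assoc, Category.assoc, huu])
  rw [Category.assoc, Category.assoc] at key
  exact key

/-- **E2**, in terms of cartesian morphisms -/
theorem iso_of_locally_iso_aux (P : Presentation c ε Γ) (hΓ : Γ.IsGood)
    {T : Scheme.{u}} (t : T ⟶ Spec (CommRingCat.of k)) (L L' : (pullback c t).Modules)
    (hL' : Scheme.Modules.IsInvertible L')
    (ρ : L ⟶ (pushforward (rigSection c t ε)).obj (OO T))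
    (ρ' : L' ⟶ (pushforward (rigSection c t ε)).obj (OO T))
    (hρ : IsCart _ ρ) (hρ' : IsCart _ ρ')
    {ι : Type u} (T_ : ι → Scheme.{u}) (t_ : ∀ i, T_ i ⟶ Spec (CommRingCat.of k))
    (v : ∀ i, SchemeHomOver (t_ i) t) (hv : ∀ i, IsOpenImmersion (v i).1)
    (hcov : ∀ x : T, ∃ i, x ∈ Set.range (v i).1.base)
    (N N' : ∀ i, (pullback c (t_ i)).Modules)
    (a : ∀ i, L ⟶ (pushforward (baseChangeSnd c (v i))).obj (N i))
    (a' : ∀ i, L' ⟶ (pushforward (baseChangeSnd c (v i))).obj (N' i))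
    (ha : ∀ i, IsCart _ (a i)) (ha' : ∀ i, IsCart _ (a' i)) (e₀ : ∀ i, N i ≅ N' i) :
    Nonempty (L ≅ L') := by
  have hopen : ∀ i, IsOpenImmersion (baseChangeSnd c (v i)) := fun i =>
    isOpenImmersion_baseChangeSnd _
  have hj : ∀ y : ↥(pullback c t), ∃ i, y ∈ Set.range (baseChangeSnd c (v i)).base := by
    intro y
    obtain ⟨i, hi⟩ := hcov ((pullback.snd c t).base y)
    exact ⟨i, by rw [range_baseChangeSnd]; exact hi⟩
  have hR : ∀ i, ∃ Ri : OM (T_ i) ⟶ ModPair.mk _ (N i), base Ri = rigSection c (t_ i) ε ∧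
      IsCartM Ri ∧ Ri ≫ mkHom _ (a i) = unitM (v i).1 ≫ mkHom _ ρ := fun i =>
    exists_restrict_rig (v i) (mkHom _ ρ) rfl hρ (mkHom _ (a i)) rfl (ha i)
  choose R hRb hRc hRe using hR
  have hR' : ∀ i, ∃ Ri : OM (T_ i) ⟶ ModPair.mk _ (N' i), base Ri = rigSection c (t_ i) ε ∧
      IsCartM Ri ∧ Ri ≫ mkHom _ (a' i) = unitM (v i).1 ≫ mkHom _ ρ' := fun i =>
    exists_restrict_rig (v i) (mkHom _ ρ') rfl hρ' (mkHom _ (a' i)) rfl (ha' i)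
  choose R' hR'b hR'c hR'e using hR'
  have he : ∀ i, ∃ e : N i ≅ N' i, R' i ≫ vert e.hom = R i := by
    intro i
    obtain ⟨ρi, h1⟩ := exists_eq_mkHom (R i) _ (hRb i)
    obtain ⟨ρi', h2⟩ := exists_eq_mkHom (R' i) _ (hR'b i)
    have c1 := hRc i
    have c2 := hR'c i
    rw [h1] at c1
    rw [h2] at c2
    obtain ⟨e, he⟩ := exists_rigidified_iso (t_ i) (e₀ i) ρi ρi' c1 c2
    exact ⟨e, by rw [h1, h2, mkHom_comp_vert, he]⟩
  choose e he using he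
  obtain ⟨β₀, hβ₀, -⟩ := existsUnique_glueHom (fun i => baseChangeSnd c (v i)) hj L L' N' a' ha'
    (fun i => a i ≫ (pushforward _).map (e i).hom) (by
      intro i i' Q u u' hu hu' huu
      have huuM : mkHom _ u ≫ mkHom _ (a' i) = mkHom _ u' ≫ mkHom _ (a' i') := by
        rw [mkHom_comp, mkHom_comp, mkHom_eq_iff]
        exact ⟨pullback.condition, huu⟩
      suffices hs : mkHom _ u ≫ mkHom _ (a i ≫ (pushforward _).map (e i).hom) =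
          mkHom _ u' ≫ mkHom _ (a i' ≫ (pushforward _).map (e i').hom) by
        rw [mkHom_comp, mkHom_comp] at hs
        exact cCast_eq_of_mkHom_eq hs _
      rw [← vert_comp_mkHom, ← vert_comp_mkHom]
      have hq : pullback.snd (v i).1 (v i').1 ≫ t_ i' = pullback.fst (v i).1 (v i').1 ≫ t_ i := by
        have h1 := (v i).2
        have h2 := (v i').2
        calc pullback.snd (v i).1 (v i').1 ≫ t_ i'
            = pullback.snd (v i).1 (v i').1 ≫ (v i').1 ≫ t := by rw [h2]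
          _ = (pullback.fst (v i).1 (v i').1 ≫ (v i).1) ≫ t := by
              rw [pullback.condition, Category.assoc]
          _ = pullback.fst (v i).1 (v i').1 ≫ t_ i := by rw [Category.assoc, h1]
      have hpb := isPullback_baseChangeSnd_of_isPullback (c := c) (v i) (v i')
        (⟨pullback.fst (v i).1 (v i').1, rfl⟩ :
          SchemeHomOver (pullback.fst (v i).1 (v i').1 ≫ t_ i) (t_ i))
        (⟨pullback.snd (v i).1 (v i').1, hq⟩ :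
          SchemeHomOver (pullback.fst (v i).1 (v i').1 ≫ t_ i) (t_ i'))
        (IsPullback.of_hasPullback _ _)
      exact rig_compat P hΓ (v i) (v i') _ _ pullback.condition hpb.isoPullback.hom inferInstance
        _ _ hpb.isoPullback_hom_fst hpb.isoPullback_hom_snd hL' (mkHom _ ρ) (mkHom _ ρ') rfl hρ'
        (mkHom _ (a i)) (mkHom _ (a' i)) (mkHom _ (a i')) (mkHom _ (a' i')) rfl rfl rfl rfl
        (ha i) (ha' i) (ha' i') (R i) (R' i) (R i') (R' i') (hR'b i) (hR'b i') (hRe i) (hR'e i)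
        (hRe i') (hR'e i') (vert (e i).hom) (vert (e i').hom) rfl rfl
        ((isCartM_vert_iff _).mpr inferInstance) (he i) (he i') (mkHom _ u) (mkHom _ u') rfl rfl
        hu huuM)
  have hiso : IsIso β₀ := isIso_of_cover_cart (fun i => baseChangeSnd c (v i)) hj β₀ N' a' ha'
    (fun i => by rw [hβ₀ i]; exact (isCart_comp_iso_iff _ _).mpr (ha i))
  exact ⟨asIso β₀⟩

/-- **E2**. Two rigidified line bundles on `C × T` which are isomorphic locally on `T` are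
isomorphic. -/
theorem iso_of_locally_iso (P : Presentation c ε Γ) (hΓ : Γ.IsGood)
    {T : Scheme.{u}} (t : T ⟶ Spec (CommRingCat.of k)) (M M' : RigidifiedLineBundle c ε t)
    {ι : Type u} (U : ι → T.Opens) (hU : ⨆ i, U i = ⊤)
    (h : ∀ i, Nonempty
      ((M.pullbackAlong (⟨(U i).ι, rfl⟩ : SchemeHomOver ((U i).ι ≫ t) t)).L ≅
        (M'.pullbackAlong (⟨(U i).ι, rfl⟩ : SchemeHomOver ((U i).ι ≫ t) t)).L)) :
    Nonempty (M.L ≅ M'.L) := by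
  obtain ⟨ρ, hρ⟩ := (nonempty_pullback_iso_iff _ _ _).mp M.rigidified
  obtain ⟨ρ', hρ'⟩ := (nonempty_pullback_iso_iff _ _ _).mp M'.rigidified
  refine iso_of_locally_iso_aux P hΓ t M.L M'.L M'.isInvertible ρ ρ' hρ hρ'
    (fun i => (U i).toScheme) (fun i => (U i).ι ≫ t) (fun i => ⟨(U i).ι, rfl⟩)
    (fun i => inferInstanceAs (IsOpenImmersion (U i).ι)) (fun x => ?_) _ _
    (fun i => (pullbackPushforwardAdjunction _).unit.app M.L)
    (fun i => (pullbackPushforwardAdjunction _).unit.app M'.L)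
    (fun i => isCart_unit _ _) (fun i => isCart_unit _ _) (fun i => (h i).some)
  have hx : x ∈ ⨆ i, U i := by rw [hU]; trivial
  obtain ⟨i, hi⟩ := TopologicalSpace.Opens.mem_iSup.mp hx
  exact ⟨i, ⟨⟨x, hi⟩, rfl⟩⟩

end Fermat.Agent.S25
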