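import Fermat.Agent.S25.S.Unit

/-!
# S25 / scheme side : the total category of modules over schemes

Objects are pairs `(X, M)` with `M : X.Modules`; a morphism `(X, M) ⟶ (Y, L)` is a pair
`(f : X ⟶ Y, α : L ⟶ f_* M)`.  Composition is `cComp`.  In this category the transports `cCast`
disappear: an equality of morphisms contains the equality of the underlying morphisms of schemes.
-/
set_option autoImplicit false
universe u
open CategoryTheory CategoryTheory.Limits AlgebraicGeometry AlgebraicGeometry.Scheme.Modules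

namespace Fermat.Agent.S25

variable {X Y Z : Scheme.{u}}

theorem presheaf_map_endo (M : X.Modules) (V : X.Opensᵒᵖ) (i : V ⟶ V) :
    M.presheaf.map i = 𝟙 _ := by
  rw [Subsingleton.elim i (𝟙 V), M.presheaf.map_id]

theorem cCast_cComp_id_right {g : Y ⟶ Z} {L : Z.Modules} {M : Y.Modules}
    (α : L ⟶ (pushforward g).obj M) :
    cCast (Category.id_comp g) (cComp α ((pushforwardId Y).inv.app M)) = α := by
  refine Scheme.Modules.hom_ext _ _ fun U => ?_
  simp only [cCast, cComp_app, Hom.comp_app, pushforwardCongr_hom_app_app,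
    pushforwardId_inv_app_app]
  exact (congrArg (fun z => α.app U ≫ 𝟙 _ ≫ z) (presheaf_map_endo M _ _)).trans (by simp)

theorem cCast_cComp_id_left {g : Y ⟶ Z} {L : Z.Modules} {M : Y.Modules}
    (α : L ⟶ (pushforward g).obj M) :
    cCast (Category.comp_id g) (cComp ((pushforwardId Z).inv.app L) α) = α := by
  refine Scheme.Modules.hom_ext _ _ fun U => ?_
  simp only [cCast, cComp_app, Hom.comp_app, pushforwardCongr_hom_app_app,
    pushforwardId_inv_app_app]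
  exact (congrArg (fun z => 𝟙 _ ≫ α.app U ≫ z) (presheaf_map_endo M _ _)).trans (by simp)

/-- pairs (scheme, module) -/
structure ModPair : Type (u + 1) where
  /-- the scheme -/
  X : Scheme.{u}
  /-- the module -/
  M : X.Modules

namespace ModPair

/-- morphisms of pairs -/
structure Hom (A B : ModPair.{u}) : Type u where
  /-- the morphism of schemes -/
  f : A.X ⟶ B.X
  /-- the morphism of modules over it -/
  α : B.M ⟶ (pushforward f).obj A.M

theorem Hom.mk_eq_mk_iff {A B : ModPair.{u}} {f f' : A.X ⟶ B.X}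
    {α : B.M ⟶ (pushforward f).obj A.M} {α' : B.M ⟶ (pushforward f').obj A.M} :
    (Hom.mk f α : Hom A B) = Hom.mk f' α' ↔ ∃ h : f = f', cCast h α = α' := by
  constructor
  · intro h
    have hf : f = f' := congrArg Hom.f h
    subst hf
    exact ⟨rfl, by rw [cCast_rfl]; simpa using h⟩
  · rintro ⟨rfl, h⟩
    rw [cCast_rfl] at h
    rw [h]

noncomputable instance : Category ModPair.{u} where
  Hom := Hom
  id A := ⟨𝟙 _, (pushforwardId A.X).inv.app A.M⟩
  comp φ ψ := ⟨φ.f ≫ ψ.f, cComp ψ.α φ.α⟩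
  id_comp _ := Hom.mk_eq_mk_iff.mpr ⟨Category.id_comp _, cCast_cComp_id_right _⟩
  comp_id _ := Hom.mk_eq_mk_iff.mpr ⟨Category.comp_id _, cCast_cComp_id_left _⟩
  assoc _ _ _ := Hom.mk_eq_mk_iff.mpr ⟨Category.assoc _ _ _, cComp_assoc _ _ _⟩

/-- the morphism of schemes under a morphism of pairs -/
def base {A B : ModPair.{u}} (φ : A ⟶ B) : A.X ⟶ B.X := Hom.f φ

@[simp] theorem base_comp {A B D : ModPair.{u}} (φ : A ⟶ B) (ψ : B ⟶ D) :
    base (φ ≫ ψ) = base φ ≫ base ψ := rfl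

@[simp] theorem base_id (A : ModPair.{u}) : base (𝟙 A) = 𝟙 A.X := rfl

/-- constructor of morphisms of pairs -/
def mkHom {M : X.Modules} {L : Y.Modules} (f : X ⟶ Y) (α : L ⟶ (pushforward f).obj M) :
    (ModPair.mk X M) ⟶ (ModPair.mk Y L) := Hom.mk f α

@[simp] theorem base_mkHom {M : X.Modules} {L : Y.Modules} (f : X ⟶ Y)
    (α : L ⟶ (pushforward f).obj M) : base (mkHom f α) = f := rfl

theorem mkHom_comp {N : X.Modules} {M : Y.Modules} {L : Z.Modules} (f : X ⟶ Y) (g : Y ⟶ Z)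
    (β : M ⟶ (pushforward f).obj N) (α : L ⟶ (pushforward g).obj M) :
    mkHom f β ≫ mkHom g α = mkHom (f ≫ g) (cComp α β) := rfl

theorem mkHom_eq_iff {M : X.Modules} {L : Y.Modules} {f f' : X ⟶ Y}
    {α : L ⟶ (pushforward f).obj M} {α' : L ⟶ (pushforward f').obj M} :
    mkHom f α = mkHom f' α' ↔ ∃ h : f = f', cCast h α = α' :=
  Hom.mk_eq_mk_iff

theorem mkHom_inj {M : X.Modules} {L : Y.Modules} {f : X ⟶ Y}
    {α α' : L ⟶ (pushforward f).obj M} : mkHom f α = mkHom f α' ↔ α = α' := by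
  rw [mkHom_eq_iff]
  constructor
  · rintro ⟨_, h⟩
    rwa [cCast_rfl] at h
  · intro h
    exact ⟨rfl, by rw [cCast_rfl, h]⟩

theorem cCast_eq_of_mkHom_eq {M : X.Modules} {L : Y.Modules} {f f' : X ⟶ Y}
    {α : L ⟶ (pushforward f).obj M} {α' : L ⟶ (pushforward f').obj M}
    (h : mkHom f α = mkHom f' α') (hf : f = f') : cCast hf α = α' :=
  (mkHom_eq_iff.mp h).2

theorem exists_eq_mkHom {M : X.Modules} {L : Y.Modules} (φ : ModPair.mk X M ⟶ ModPair.mk Y L)
    (f : X ⟶ Y) (h : base φ = f) : ∃ α : L ⟶ (pushforward f).obj M, φ = mkHom f α := by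
  subst h
  exact ⟨Hom.α φ, rfl⟩

/-- a morphism of modules on `X`, as a (contravariant) morphism of pairs over `𝟙 X` -/
noncomputable def vert {L L' : X.Modules} (φ : L ⟶ L') : ModPair.mk X L' ⟶ ModPair.mk X L :=
  mkHom (𝟙 X) (φ ≫ (pushforwardId X).inv.app L')

@[simp] theorem base_vert {L L' : X.Modules} (φ : L ⟶ L') : base (vert φ) = 𝟙 X := rfl

theorem mkHom_comp_vert {M : X.Modules} {L L' : Y.Modules} (f : X ⟶ Y)
    (α : L ⟶ (pushforward f).obj M) (φ : L' ⟶ L) :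
    mkHom f α ≫ vert φ = mkHom f (φ ≫ α) := by
  rw [vert, mkHom_comp, mkHom_eq_iff]
  refine ⟨Category.comp_id f, ?_⟩
  rw [← comp_cComp, ← comp_cCast, cCast_cComp_id_left]

theorem vert_comp_mkHom {M M' : X.Modules} {L : Y.Modules} (f : X ⟶ Y)
    (α : L ⟶ (pushforward f).obj M) (ψ : M ⟶ M') :
    vert ψ ≫ mkHom f α = mkHom f (α ≫ (pushforward f).map ψ) := by
  rw [vert, mkHom_comp, mkHom_eq_iff]
  refine ⟨Category.id_comp f, ?_⟩
  rw [← cComp_mid, cCast_cComp_id_right]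

theorem vert_id (L : X.Modules) : vert (𝟙 L) = 𝟙 (ModPair.mk X L) := by
  rw [vert, Category.id_comp]
  rfl

theorem vert_comp {L L' L'' : X.Modules} (φ : L ⟶ L') (ψ : L' ⟶ L'') :
    vert (φ ≫ ψ) = vert ψ ≫ vert φ := by
  conv_rhs => rw [vert, mkHom_comp_vert]
  rw [vert, Category.assoc]

theorem vert_injective {L L' : X.Modules} : Function.Injective (vert : (L ⟶ L') → _) := by
  intro φ ψ h
  rw [vert, vert, mkHom_inj] at h
  exact (cancel_mono _).mp h

theorem exists_eq_vert {L L' : X.Modules} (χ : ModPair.mk X L' ⟶ ModPair.mk X L)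
    (h : base χ = 𝟙 X) : ∃ φ : L ⟶ L', χ = vert φ := by
  obtain ⟨α, rfl⟩ := exists_eq_mkHom χ _ h
  refine ⟨α ≫ (pushforwardId X).hom.app L', ?_⟩
  rw [vert, Category.assoc, Iso.hom_inv_id_app, Category.comp_id]

/-- cartesian morphisms of pairs -/
def IsCartM {A B : ModPair.{u}} (φ : A ⟶ B) : Prop := IsCart (Hom.f φ) (Hom.α φ)

theorem isCartM_mkHom {M : X.Modules} {L : Y.Modules} {f : X ⟶ Y}
    {α : L ⟶ (pushforward f).obj M} : IsCartM (mkHom f α) ↔ IsCart f α := Iff.rfl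

theorem IsCartM.comp {A B D : ModPair.{u}} {φ : A ⟶ B} {ψ : B ⟶ D} (hφ : IsCartM φ)
    (hψ : IsCartM ψ) : IsCartM (φ ≫ ψ) :=
  IsCart.comp hψ hφ

theorem IsCartM.of_comp {A B D : ModPair.{u}} {φ : A ⟶ B} {ψ : B ⟶ D} (hψ : IsCartM ψ)
    (h : IsCartM (φ ≫ ψ)) : IsCartM φ :=
  IsCart.of_comp hψ h

theorem IsCartM.exists_lift {A B D : ModPair.{u}} {ψ : A ⟶ B} (hψ : IsCartM ψ) (γ : D ⟶ B)
    (h : D.X ⟶ A.X) (hh : h ≫ base ψ = base γ) : ∃ χ : D ⟶ A, base χ = h ∧ χ ≫ ψ = γ := by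
  obtain ⟨G, γ⟩ := γ
  change h ≫ base ψ = G at hh
  subst hh
  obtain ⟨β, hβ, -⟩ := IsCart.existsUnique_fac hψ γ
  refine ⟨Hom.mk h β, rfl, ?_⟩
  exact Hom.mk_eq_mk_iff.mpr ⟨rfl, (cCast_rfl _).trans hβ⟩

theorem IsCartM.lift_unique {A B D : ModPair.{u}} {ψ : A ⟶ B} (hψ : IsCartM ψ) (χ χ' : D ⟶ A)
    (hf : base χ = base χ') (h : χ ≫ ψ = χ' ≫ ψ) : χ = χ' := by
  obtain ⟨f, β⟩ := χ
  obtain ⟨f', β'⟩ := χ'
  change f = f' at hf
  subst hf
  obtain ⟨_, h2⟩ := Hom.mk_eq_mk_iff.mp h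
  rw [cCast_rfl] at h2
  obtain ⟨β₀, -, huniq⟩ := IsCart.existsUnique_fac hψ (cComp (Hom.α ψ) β)
  have e1 := huniq β rfl
  have e2 := huniq β' h2.symm
  rw [e1, e2]

/-- if `E'` lifts `E` through the cartesian `a`, and `E` fixes `R`, then `E'` fixes every lift
of (a multiple of) `R`. -/
theorem IsCartM.lift_fix {A B D D' : ModPair.{u}} {a : A ⟶ B} (ha : IsCartM a) {E : B ⟶ B}
    {E' : A ⟶ A} (hE' : base E' = 𝟙 _) (hAE : E' ≫ a = a ≫ E) {R : D ⟶ B} (hRE : R ≫ E = R)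
    {R' : D' ⟶ A} {w : D' ⟶ D} (hR' : R' ≫ a = w ≫ R) : R' ≫ E' = R' :=
  ha.lift_unique _ _ (by rw [base_comp, hE', Category.comp_id]) (by
    rw [Category.assoc, hAE, ← Category.assoc, hR', Category.assoc, hRE])

/-- a cartesian morphism over an isomorphism of schemes can be cancelled on the left -/
theorem IsCartM.cancel_left {A B D : ModPair.{u}} {w : A ⟶ B} (hw : IsCartM w)
    (hi : IsIso (base w)) {γ₁ γ₂ : B ⟶ D} (h : w ≫ γ₁ = w ≫ γ₂) : γ₁ = γ₂ := by
  obtain ⟨χ, -, hχ⟩ := hw.exists_lift (𝟙 B) (inv (base w)) (by rw [IsIso.inv_hom_id, base_id])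
  calc γ₁ = (χ ≫ w) ≫ γ₁ := by rw [hχ, Category.id_comp]
    _ = (χ ≫ w) ≫ γ₂ := by rw [Category.assoc, h, Category.assoc]
    _ = γ₂ := by rw [hχ, Category.id_comp]

theorem isCartM_vert_iff {L L' : X.Modules} (φ : L ⟶ L') : IsCartM (vert φ) ↔ IsIso φ := by
  rw [vert, isCartM_mkHom, isCart_iff_isIso_of_isIso]
  exact isIso_comp_right_iff _ _

/-- the pair `(T, O_T)` -/
noncomputable abbrev OM (T : Scheme.{u}) : ModPair.{u} := ModPair.mk T (OO T)

/-- the canonical morphism `(T', O) ⟶ (T, O)` over `v : T' ⟶ T`. -/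
noncomputable def unitM (v : X ⟶ Y) : OM X ⟶ OM Y := mkHom v (unitMap v)

@[simp] theorem base_unitM (v : X ⟶ Y) : base (unitM v) = v := rfl

theorem unitM_comp (v : X ⟶ Y) (w : Y ⟶ Z) : unitM v ≫ unitM w = unitM (v ≫ w) := by
  rw [unitM, unitM, mkHom_comp, cComp_unitMap]
  rfl

theorem isCartM_unitM (v : X ⟶ Y) : IsCartM (unitM v) := isCart_unitMap v

theorem unitM_congr {v v' : X ⟶ Y} (h : v = v') : unitM v = unitM v' := by rw [h]

end ModPair

end Fermat.Agent.S25
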