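import Fermat.Agent.S25.S.Cart
import Fermat.Statements.S25

/-!
# S25 / scheme side / T4 : the structure sheaf as a module, multiplication by global functions,
invertible modules
-/
set_option autoImplicit false
universe u
open CategoryTheory CategoryTheory.Limits AlgebraicGeometry AlgebraicGeometry.Scheme.Modules

namespace Fermat.Agent.S25

variable {X Y Z : Scheme.{u}}

/-- the structure sheaf, as a module -/
noncomputable abbrev OO (X : Scheme.{u}) : X.Modules := SheafOfModules.unit X.ringCatSheaf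

/-- the canonical morphism `O_Y ⇒ O_X` over `f : X ⟶ Y`. -/
noncomputable def unitMap (f : X ⟶ Y) : OO Y ⟶ (pushforward f).obj (OO X) :=
  SheafOfModules.unitToPushforwardObjUnit f.toRingCatSheafHom

theorem isCart_unitMap (f : X ⟶ Y) : IsCart f (unitMap f) := by
  exact (Scheme.Modules.pullbackUnitIso f).isIso_hom

theorem unitMap_app_apply (f : X ⟶ Y) (U : Y.Opens) (a : Γ(Y, U)) :
    (unitMap f).app U a = f.app U a := rfl

theorem cComp_unitMap (f : X ⟶ Y) (g : Y ⟶ Z) :
    cComp (unitMap g) (unitMap f) = unitMap (f ≫ g) := by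
  ext U a
  rw [cComp_app]
  change f.app (g ⁻¹ᵁ U) (g.app U a) = (f ≫ g).app U a
  rw [Scheme.Hom.comp_app]
  rfl

theorem cCast_unitMap {f f' : X ⟶ Y} (h : f = f') : cCast h (unitMap f) = unitMap f' := by
  subst h; exact cCast_rfl _

/-- restriction of a global function -/
noncomputable abbrev resTop (X : Scheme.{u}) (U : X.Opens) (a : Γ(X, ⊤)) : Γ(X, U) :=
  X.presheaf.map (homOfLE (le_top : U ≤ ⊤)).op a

/-- multiplication by a global function, as an endomorphism of a module -/
noncomputable def mulEnd (L : X.Modules) (a : Γ(X, ⊤)) : L ⟶ L :=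
  ⟨PresheafOfModules.homMk
    { app := fun U => L.smul (resTop X U.unop a)
      naturality := fun U V i => by
        have := L.map_comp_smul i.unop (resTop X U.unop a)
        rw [← ConcreteCategory.comp_apply, ← Functor.map_comp] at this
        exact this.symm }
    (fun U r m => by
      change (resTop X U.unop a) • ((show Γ(X, U.unop) from r) • (show Γ(L, U.unop) from m)) =
        (show Γ(X, U.unop) from r) • ((resTop X U.unop a) • (show Γ(L, U.unop) from m))
      exact smul_comm _ _ _)⟩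

theorem mulEnd_app_apply (L : X.Modules) (a : Γ(X, ⊤)) (U : X.Opens) (m : Γ(L, U)) :
    (mulEnd L a).app U m = (resTop X U a) • m := rfl

theorem resTop_one (U : X.Opens) : resTop X U 1 = 1 := map_one _

theorem resTop_mul (U : X.Opens) (a b : Γ(X, ⊤)) :
    resTop X U (a * b) = resTop X U a * resTop X U b := map_mul _ _ _

theorem app_resTop (f : X ⟶ Y) (U : Y.Opens) (a : Γ(Y, ⊤)) :
    f.app U (resTop Y U a) = resTop X (f ⁻¹ᵁ U) (f.appTop a) := by
  have := f.naturality (homOfLE (le_top : U ≤ ⊤)).op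
  exact congr($this a)

theorem pushforward_smul (f : X ⟶ Y) (M : X.Modules) (U : Y.Opens) (r : Γ(Y, U))
    (m : Γ((pushforward f).obj M, U)) :
    r • m = (f.app U r) • (show Γ(M, f ⁻¹ᵁ U) from m) := rfl

theorem mulEnd_comp {L L' : X.Modules} (φ : L ⟶ L') (a : Γ(X, ⊤)) :
    mulEnd L a ≫ φ = φ ≫ mulEnd L' a := by
  ext U m
  change φ.app U ((mulEnd L a).app U m) = (mulEnd L' a).app U (φ.app U m)
  rw [mulEnd_app_apply, mulEnd_app_apply, Hom.app_smul]

theorem mulEnd_one (L : X.Modules) : mulEnd L 1 = 𝟙 L := by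
  ext U m
  rw [mulEnd_app_apply, resTop_one, one_smul]
  rfl

theorem mulEnd_mul (L : X.Modules) (a b : Γ(X, ⊤)) :
    mulEnd L (a * b) = mulEnd L a ≫ mulEnd L b := by
  ext U m
  change (mulEnd L (a * b)).app U m = (mulEnd L b).app U ((mulEnd L a).app U m)
  rw [mulEnd_app_apply, mulEnd_app_apply, mulEnd_app_apply, resTop_mul, mul_comm, mul_smul]

theorem mulEnd_pushforward (f : X ⟶ Y) (M : X.Modules) (a : Γ(Y, ⊤)) :
    mulEnd ((pushforward f).obj M) a = (pushforward f).map (mulEnd M (f.appTop a)) := by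
  ext U m
  rw [mulEnd_app_apply, pushforward_map_app, pushforward_smul, app_resTop]
  rfl

theorem isIso_mulEnd (L : X.Modules) {a : Γ(X, ⊤)} (ha : IsUnit a) : IsIso (mulEnd L a) := by
  obtain ⟨u, rfl⟩ := ha
  refine ⟨mulEnd L (↑u⁻¹ : Γ(X, ⊤)), ?_, ?_⟩
  · rw [← mulEnd_mul, Units.mul_inv, mulEnd_one]
  · rw [← mulEnd_mul, Units.inv_mul, mulEnd_one]

/-- sections of `OO X` are functions -/
theorem OO_smul (U : X.Opens) (r : Γ(X, U)) (m : Γ(OO X, U)) :
    r • m = (show Γ(OO X, U) from r * (show Γ(X, U) from m)) := rfl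

theorem OO_map {U V : X.Opens} (i : U ⟶ V) (m : Γ(OO X, V)) :
    (OO X).presheaf.map i.op m = (show Γ(OO X, U) from X.presheaf.map i.op (show Γ(X, V) from m)) :=
  rfl

theorem hom_naturality_apply {L L' : X.Modules} (φ : L ⟶ L') {U V : X.Opens} (i : U ⟶ V)
    (m : Γ(L, V)) : φ.app U (L.presheaf.map i.op m) = L'.presheaf.map i.op (φ.app V m) := by
  have := φ.mapPresheaf.naturality i.op
  exact congr($this m)

/-- `End(O_X) = Γ(X, O_X)`. -/
theorem exists_mulEnd_eq (φ : OO X ⟶ OO X) : ∃ a : Γ(X, ⊤), φ = mulEnd (OO X) a := by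
  refine ⟨(show Γ(X, ⊤) from φ.app ⊤ (show Γ(OO X, ⊤) from (1 : Γ(X, ⊤)))), ?_⟩
  ext U m
  rw [mulEnd_app_apply]
  have h1 : m = (show Γ(X, U) from m) • (show Γ(OO X, U) from (1 : Γ(X, U))) := by
    rw [OO_smul]
    exact (mul_one (show Γ(X, U) from m)).symm
  have h2 : (show Γ(OO X, U) from (1 : Γ(X, U))) =
      (OO X).presheaf.map (homOfLE (le_top : U ≤ ⊤)).op (show Γ(OO X, ⊤) from (1 : Γ(X, ⊤))) := by
    rw [OO_map]
    exact (map_one (X.presheaf.map (homOfLE (le_top : U ≤ ⊤)).op).hom).symm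
  conv_lhs => rw [h1, Hom.app_smul, h2, hom_naturality_apply, OO_smul, OO_map]
  rw [OO_smul]
  exact mul_comm (show Γ(X, U) from m) _

theorem mulEnd_OO_injective : Function.Injective (mulEnd (OO X)) := by
  intro a b hab
  have h := congr(($hab).app ⊤ (show Γ(OO X, ⊤) from (1 : Γ(X, ⊤))))
  rw [mulEnd_app_apply, mulEnd_app_apply, OO_smul, OO_smul] at h
  have h' : resTop X ⊤ a * 1 = resTop X ⊤ b * 1 := h
  simpa [resTop] using h'

theorem isUnit_of_isIso_mulEnd_OO {a : Γ(X, ⊤)} (h : IsIso (mulEnd (OO X) a)) : IsUnit a := by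
  obtain ⟨b, hb⟩ := exists_mulEnd_eq (inv (mulEnd (OO X) a))
  have h1 : mulEnd (OO X) (a * b) = mulEnd (OO X) 1 := by
    rw [mulEnd_mul, ← hb, mulEnd_one, IsIso.hom_inv_id]
  exact IsUnit.of_mul_eq_one b (mulEnd_OO_injective h1)

end Fermat.Agent.S25
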